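import Mathlib
import Fermat.Prelude.Def_ModularCurve_GenusNumerics
import Fermat.Agent.S23.Defs_helper30

/-!
# S20 (dimension of `S₂(Γ₀(N))`): interface file

Route (board post #513): `M = ⨁ M_k(Γ₀(N))` is a free graded module of rank `μ = [SL₂ℤ : Γ₀(N)]`
over `A = ⨁ M_k(SL₂ℤ)`; the weights `d j` of a homogeneous basis are pinned down by
* the modular Wronskian `W = det (F_j | q)` (zero-free on `ℍ` by the Serre-derivative ODE),
* its growth at `i∞` (gives `∑ d_j = 6 (μ - c)`),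
* traces of the permutation matrices of `S`, `S T` at `i`, `ρ`,
and `dim S₂ = #{j | d j = 10}` by the dual basis.

Everything is stated with bundled forms but only pointwise identities of functions `ℍ → ℂ`.
The coset space is `Fermat.Agent.S23.H30.Q N` (left cosets `h Γ₀(N)`, `conj f ⟦h⟧ = f ∣[k] h⁻¹`).
-/

set_option autoImplicit false

namespace Fermat.Agent.S20

open UpperHalfPlane ModularForm CongruenceSubgroup
open scoped MatrixGroups ModularForm Manifold

/-- The coset space `SL(2,ℤ) / Γ₀(N)` (same type as in the S23 library). -/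
abbrev Q (N : ℕ) : Type := Fermat.Agent.S23.H30.Q N

/-- Left action of `SL(2,ℤ)` on the cosets: `γ • ⟦h⟧ = ⟦γ h⟧`. -/
noncomputable instance instMulActionQ (N : ℕ) : MulAction SL(2, ℤ) (Q N) :=
  MulAction.compHom (↥𝒮ℒ ⧸ ((Gamma0 N : Subgroup (GL (Fin 2) ℝ))).subgroupOf 𝒮ℒ)
    (Matrix.SpecialLinearGroup.mapGL ℝ).rangeRestrict

/-- The conjugate `f ∣[k] h⁻¹` of a form, indexed by the coset `q = ⟦h⟧`. -/
noncomputable abbrev conj {N : ℕ} {k : ℤ} (f : ModularForm (Gamma0 N) k) (q : Q N) : ℍ → ℂ :=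
  Fermat.Agent.S23.H30.conj f q

/-- A homogeneous family `F j` of weights `d j`, indexed by the cosets, which is a basis of
`⨁ M_k(Γ₀(N))` over `⨁ M_k(SL₂ℤ)`. -/
structure IsFreeBasis (N : ℕ) [NeZero N] (d : Q N → ℤ)
    (F : ∀ j : Q N, ModularForm (Gamma0 N) (d j)) : Prop where
  span : ∀ (k : ℤ) (f : ModularForm (Gamma0 N) k),
    ∃ a : ∀ j : Q N, ModularForm 𝒮ℒ (k - d j), ∀ z : ℍ, f z = ∑ j, a j z * F j z
  indep : ∀ (k : ℤ) (a : ∀ j : Q N, ModularForm 𝒮ℒ (k - d j)),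
    (∀ z : ℍ, ∑ j, a j z * F j z = 0) → ∀ j, a j = 0

/-- The matrix of conjugates `Φ(z) = (F_j ∣ q)(z)`. -/
noncomputable def phiMat {N : ℕ} [NeZero N] {d : Q N → ℤ}
    (F : ∀ j : Q N, ModularForm (Gamma0 N) (d j)) (z : ℍ) : Matrix (Q N) (Q N) ℂ :=
  Matrix.of fun j q => conj (F j) q z

/-- The modular Wronskian `W(z) = det Φ(z)`. -/
noncomputable def wron {N : ℕ} [NeZero N] {d : Q N → ℤ}
    (F : ∀ j : Q N, ModularForm (Gamma0 N) (d j)) (z : ℍ) : ℂ :=
  (phiMat F z).det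

/-- Number of cosets fixed by `T ^ m`. -/
noncomputable def fixT (N : ℕ) (m : ℕ) : ℕ := Nat.card {q : Q N // ModularGroup.T ^ m • q = q}

/-- Number of cosets fixed by `S`. -/
noncomputable def fixS (N : ℕ) : ℕ := Nat.card {q : Q N // ModularGroup.S • q = q}

/-- Number of cosets fixed by `S * T` (which fixes `ρ = e^{2πi/3}`). -/
noncomputable def fixST (N : ℕ) : ℕ :=
  Nat.card {q : Q N // (ModularGroup.S * ModularGroup.T) • q = q}

/-- `N` times the number of `T`-orbits (Burnside). -/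
noncomputable def sumFixT (N : ℕ) : ℕ := ∑ m ∈ Finset.range N, fixT N m

/-! ## Interfaces: combinatorics (block K) -/

/-- K1: the index. -/
def CardQ (N : ℕ) [NeZero N] : Prop := Fintype.card (Q N) = ModularCurve.dedekindPsi N

/-- K2: fixed points of `S`. -/
def FixSCount (N : ℕ) [NeZero N] : Prop := fixS N = ModularCurve.nuTwo N

/-- K3: fixed points of `S T`. -/
def FixSTCount (N : ℕ) [NeZero N] : Prop := fixST N = ModularCurve.nuThree N

/-- K4: number of `T`-orbits, in Burnside form. -/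
def OrbTCount (N : ℕ) [NeZero N] : Prop := sumFixT N = N * ModularCurve.cuspCount N

/-! ## Interfaces: structure theory -/

/-- Block F: a free basis exists. -/
def FreeBasisExists (N : ℕ) [NeZero N] : Prop :=
  ∃ (d : Q N → ℤ) (F : ∀ j : Q N, ModularForm (Gamma0 N) (d j)), IsFreeBasis N d F

/-- Block B: weights are even, nonnegative, and exactly one of them is zero. -/
def BasicWeights (N : ℕ) [NeZero N] : Prop :=
  ∀ (d : Q N → ℤ) (F : ∀ j : Q N, ModularForm (Gamma0 N) (d j)), IsFreeBasis N d F →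
    (∀ j, 0 ≤ d j ∧ Even (d j)) ∧ (Finset.univ.filter fun j => d j = 0).card = 1

/-- Block C, output 1: the Wronskian has exact exponential order `(μ - c)/2` at `i∞`
(here `N * c = sumFixT N`, so the exponent is `π i z (N μ - sumFixT N) / N`). -/
def WronAsymptotic (N : ℕ) [NeZero N] : Prop :=
  ∀ (d : Q N → ℤ) (F : ∀ j : Q N, ModularForm (Gamma0 N) (d j)), IsFreeBasis N d F →
    ∃ ℓ : ℂ, ℓ ≠ 0 ∧ Filter.Tendsto
      (fun z : ℍ => wron F z *
        Complex.exp (-(Real.pi * Complex.I * (z : ℂ) *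
          (((N * Fintype.card (Q N) : ℕ) : ℂ) - (sumFixT N : ℂ)) / (N : ℂ))))
      atImInfty (nhds ℓ)

/-- Block C, output 2: the inverse of `Φ` grows slower than `|q|⁻¹`. -/
def PhiInvBound (N : ℕ) [NeZero N] : Prop :=
  ∀ (d : Q N → ℤ) (F : ∀ j : Q N, ModularForm (Gamma0 N) (d j)), IsFreeBasis N d F →
    ∃ C Y : ℝ, ∀ z : ℍ, Y ≤ z.im → ∀ q j : Q N,
      ‖(phiMat F z)⁻¹ q j‖ ≤ C * Real.exp (2 * Real.pi * (1 - 1 / (N : ℝ)) * z.im)

/-- Block W (ODE): the Wronskian satisfies `W ^ 12 = c₀ Δ ^ K`, `K = ∑ d_j`. -/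
def WronODE (N : ℕ) [NeZero N] : Prop :=
  ∀ (d : Q N → ℤ) (F : ∀ j : Q N, ModularForm (Gamma0 N) (d j)), IsFreeBasis N d F →
    (∀ j, 0 ≤ d j) →
    ∃ c₀ : ℂ, ∀ z : ℍ, wron F z ^ 12 = c₀ * ModularForm.discriminant z ^ (∑ j, d j).toNat

/-- Block W (conclusion): the Wronskian is zero-free and `∑ d_j = 6 (μ - c)`. -/
def WronMain (N : ℕ) [NeZero N] : Prop :=
  ∀ (d : Q N → ℤ) (F : ∀ j : Q N, ModularForm (Gamma0 N) (d j)), IsFreeBasis N d F →
    (∀ z : ℍ, wron F z ≠ 0) ∧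
      (N : ℤ) * ∑ j, d j = 6 * ((N : ℤ) * (Fintype.card (Q N) : ℤ) - (sumFixT N : ℤ))

/-- Block D: dual basis; `dim S₂` is the number of generators of weight `10`. -/
def DualMain (N : ℕ) [NeZero N] : Prop :=
  ∀ (d : Q N → ℤ) (F : ∀ j : Q N, ModularForm (Gamma0 N) (d j)), IsFreeBasis N d F →
    (∀ j, d j ≤ 10) ∧
      Module.finrank ℂ (CuspForm (Gamma0 N) 2) = (Finset.univ.filter fun j => d j = 10).card

/-- Block E: traces of the permutation matrices of `S` and `S T`. -/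
def EllipticMain (N : ℕ) [NeZero N] : Prop :=
  ∀ (d : Q N → ℤ) (F : ∀ j : Q N, ModularForm (Gamma0 N) (d j)), IsFreeBasis N d F →
    (∀ z : ℍ, wron F z ≠ 0) →
    ((fixS N : ℂ) = ∑ j, Complex.I ^ (-(d j))) ∧
      ((fixST N : ℂ) = ∑ j, Complex.exp (Real.pi * Complex.I / 3) ^ (-(d j)))

end Fermat.Agent.S20
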