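import Mathlib
import Fermat.Agent.S20.Defs_helper78

/-!
# S20: shared utilities (constructors of forms, conjugates and the coset action)
-/

set_option autoImplicit false

namespace Fermat.Agent.S20

open UpperHalfPlane ModularForm CongruenceSubgroup
open scoped MatrixGroups ModularForm Manifold

/-- Constructor: a holomorphic function, invariant of weight `k` under `Γ₀(N)`, all of whose
`SL(2,ℤ)`-translates are bounded at `i∞`, is a modular form. -/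
noncomputable def mkModularForm (N : ℕ) [NeZero N] (k : ℤ) (g : ℍ → ℂ) (hg : MDiff g)
    (hinv : ∀ γ : SL(2, ℤ), γ ∈ Gamma0 N → g ∣[k] γ = g)
    (hbdd : ∀ γ : SL(2, ℤ), IsBoundedAtImInfty (g ∣[k] γ)) : ModularForm (Gamma0 N) k where
  toFun := g
  slash_action_eq' := by
    intro γ hγ
    obtain ⟨γ₀, hγ₀, rfl⟩ := Subgroup.mem_map.mp hγ
    exact hinv γ₀ hγ₀
  holo' := hg
  bdd_at_cusps' := by
    intro c hc
    rw [Subgroup.IsArithmetic.isCusp_iff_isCusp_SL2Z] at hc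
    rw [OnePoint.isBoundedAt_iff_forall_SL2Z hc]
    intro γ _
    exact hbdd γ

@[simp] theorem mkModularForm_apply (N : ℕ) [NeZero N] (k : ℤ) (g : ℍ → ℂ) (hg : MDiff g)
    (hinv : ∀ γ : SL(2, ℤ), γ ∈ Gamma0 N → g ∣[k] γ = g)
    (hbdd : ∀ γ : SL(2, ℤ), IsBoundedAtImInfty (g ∣[k] γ)) (z : ℍ) :
    mkModularForm N k g hg hinv hbdd z = g z := rfl

/-- Constructor for cusp forms. -/
noncomputable def mkCuspForm (N : ℕ) [NeZero N] (k : ℤ) (g : ℍ → ℂ) (hg : MDiff g)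
    (hinv : ∀ γ : SL(2, ℤ), γ ∈ Gamma0 N → g ∣[k] γ = g)
    (hzero : ∀ γ : SL(2, ℤ), IsZeroAtImInfty (g ∣[k] γ)) : CuspForm (Gamma0 N) k where
  toFun := g
  slash_action_eq' := by
    intro γ hγ
    obtain ⟨γ₀, hγ₀, rfl⟩ := Subgroup.mem_map.mp hγ
    exact hinv γ₀ hγ₀
  holo' := hg
  zero_at_cusps' := by
    intro c hc
    rw [Subgroup.IsArithmetic.isCusp_iff_isCusp_SL2Z] at hc
    rw [OnePoint.isZeroAt_iff_forall_SL2Z hc]
    intro γ _
    exact hzero γ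

@[simp] theorem mkCuspForm_apply (N : ℕ) [NeZero N] (k : ℤ) (g : ℍ → ℂ) (hg : MDiff g)
    (hinv : ∀ γ : SL(2, ℤ), γ ∈ Gamma0 N → g ∣[k] γ = g)
    (hzero : ∀ γ : SL(2, ℤ), IsZeroAtImInfty (g ∣[k] γ)) (z : ℍ) :
    mkCuspForm N k g hg hinv hzero z = g z := rfl

/-- Constructor for level one forms. -/
noncomputable def mkLevelOne (k : ℤ) (g : ℍ → ℂ) (hg : MDiff g)
    (hinv : ∀ γ : SL(2, ℤ), g ∣[k] γ = g) (hbdd : IsBoundedAtImInfty g) : ModularForm 𝒮ℒ k where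
  toFun := g
  slash_action_eq' := by
    intro γ hγ
    obtain ⟨γ₀, rfl⟩ := hγ
    exact hinv γ₀
  holo' := hg
  bdd_at_cusps' := by
    intro c hc
    rw [OnePoint.isBoundedAt_iff_forall_SL2Z hc]
    intro γ _
    rw [hinv γ]
    exact hbdd

@[simp] theorem mkLevelOne_apply (k : ℤ) (g : ℍ → ℂ) (hg : MDiff g)
    (hinv : ∀ γ : SL(2, ℤ), g ∣[k] γ = g) (hbdd : IsBoundedAtImInfty g) (z : ℍ) :
    mkLevelOne k g hg hinv hbdd z = g z := rfl

/-- Invariance of a level `Γ₀(N)` form under `Γ₀(N) ⊆ SL(2,ℤ)`. -/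
theorem slash_Gamma0 {N : ℕ} {k : ℤ} (f : ModularForm (Gamma0 N) k) (γ : SL(2, ℤ))
    (hγ : γ ∈ Gamma0 N) : (f : ℍ → ℂ) ∣[k] γ = f := by
  rw [ModularForm.SL_slash]
  exact SlashInvariantFormClass.slash_action_eq f _ (Subgroup.mem_map_of_mem _ hγ)

/-- Invariance of a level one form. -/
theorem slash_levelOne {k : ℤ} (a : ModularForm 𝒮ℒ k) (γ : SL(2, ℤ)) :
    (a : ℍ → ℂ) ∣[k] γ = a := by
  rw [ModularForm.SL_slash]
  exact SlashInvariantFormClass.slash_action_eq a _ ⟨γ, rfl⟩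

/-- The coset of `γ ∈ SL(2,ℤ)`. -/
noncomputable def coset (N : ℕ) (γ : SL(2, ℤ)) : Q N := γ • Fermat.Agent.S23.H30.q₀ N

theorem coset_def (N : ℕ) (γ : SL(2, ℤ)) : coset N γ = γ • Fermat.Agent.S23.H30.q₀ N := rfl

theorem smul_coset (N : ℕ) (γ δ : SL(2, ℤ)) : γ • coset N δ = coset N (γ * δ) := by
  rw [coset_def, coset_def, mul_smul]

theorem coset_surjective (N : ℕ) : Function.Surjective (coset N) := by
  intro q
  induction q using Quotient.inductionOn with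
  | _ h =>
    obtain ⟨h, γ, rfl⟩ := h
    refine ⟨γ, ?_⟩
    change (Matrix.SpecialLinearGroup.mapGL ℝ).rangeRestrict γ •
      (QuotientGroup.mk (1 : ↥𝒮ℒ) : ↥𝒮ℒ ⧸ ((Gamma0 N : Subgroup (GL (Fin 2) ℝ))).subgroupOf 𝒮ℒ)
      = _
    rw [MulAction.Quotient.smul_mk, smul_eq_mul, mul_one]
    rfl

/-- The conjugate attached to the coset of `γ` is `f ∣ γ⁻¹`. -/
theorem conj_coset {N : ℕ} {k : ℤ} (f : ModularForm (Gamma0 N) k) (γ : SL(2, ℤ)) :
    conj f (coset N γ) = (f : ℍ → ℂ) ∣[k] γ⁻¹ := by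
  have h : coset N γ = (⟦(Matrix.SpecialLinearGroup.mapGL ℝ).rangeRestrict γ⟧ : Q N) := by
    change (Matrix.SpecialLinearGroup.mapGL ℝ).rangeRestrict γ •
      (QuotientGroup.mk (1 : ↥𝒮ℒ) : ↥𝒮ℒ ⧸ ((Gamma0 N : Subgroup (GL (Fin 2) ℝ))).subgroupOf 𝒮ℒ)
      = _
    rw [MulAction.Quotient.smul_mk, smul_eq_mul, mul_one]
  rw [h]
  unfold conj Fermat.Agent.S23.H30.conj
  rw [SlashInvariantForm.quotientFunc_mk, ModularForm.SL_slash, MonoidHom.coe_rangeRestrict,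
    ← map_inv]
  rfl

/-- Slash of a conjugate: `(f ∣ q) ∣ γ = f ∣ (γ⁻¹ • q)`. -/
theorem conj_slash {N : ℕ} {k : ℤ} (f : ModularForm (Gamma0 N) k) (γ : SL(2, ℤ)) (q : Q N) :
    conj f q ∣[k] γ = conj f (γ⁻¹ • q) := by
  obtain ⟨δ, rfl⟩ := coset_surjective N q
  rw [smul_coset, conj_coset, conj_coset, ← SlashAction.slash_mul, mul_inv_rev, inv_inv]

theorem conj_q₀ {N : ℕ} {k : ℤ} (f : ModularForm (Gamma0 N) k) :
    conj f (Fermat.Agent.S23.H30.q₀ N) = f := by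
  have : Fermat.Agent.S23.H30.q₀ N = coset N 1 := by rw [coset_def, one_smul]
  rw [this, conj_coset, inv_one, SlashAction.slash_one]

/-- `f ∣ γ` as a conjugate. -/
theorem slash_eq_conj {N : ℕ} {k : ℤ} (f : ModularForm (Gamma0 N) k) (γ : SL(2, ℤ)) :
    (f : ℍ → ℂ) ∣[k] γ = conj f (coset N γ⁻¹) := by
  rw [conj_coset, inv_inv]

theorem conj_mdiff {N : ℕ} {k : ℤ} (f : ModularForm (Gamma0 N) k) (q : Q N) :
    MDiff (conj f q) := by
  obtain ⟨δ, rfl⟩ := coset_surjective N q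
  rw [conj_coset]
  exact (ModularFormClass.holo f).slash k _

theorem conj_bdd {N : ℕ} [NeZero N] {k : ℤ} (f : ModularForm (Gamma0 N) k) (q : Q N) :
    IsBoundedAtImInfty (conj f q) := by
  obtain ⟨δ, rfl⟩ := coset_surjective N q
  rw [conj_coset]
  exact ModularFormClass.bdd_at_infty_slash f δ⁻¹

theorem conj_cusp_zero {N : ℕ} [NeZero N] {k : ℤ} (f : CuspForm (Gamma0 N) k) (γ : SL(2, ℤ)) :
    IsZeroAtImInfty ((f : ℍ → ℂ) ∣[k] γ) :=
  CuspFormClass.zero_at_infty_slash f γ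

/-- Translation by one permutes the conjugates by `T⁻¹`. -/
theorem conj_vadd_one {N : ℕ} {k : ℤ} (f : ModularForm (Gamma0 N) k) (q : Q N) (z : ℍ) :
    conj f q ((1 : ℝ) +ᵥ z) = conj f (ModularGroup.T⁻¹ • q) z := by
  rw [← conj_slash, ModularForm.SL_slash_apply, UpperHalfPlane.modular_T_smul]
  have : denom ModularGroup.T z = 1 := by
    rw [ModularGroup.denom_apply]
    simp [ModularGroup.T]
  rw [this, one_zpow, mul_one]

end Fermat.Agent.S20
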