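import Mathlib

/-!
# S20, block L: level-one facts (helper66)

Limits at `i∞` of level-one forms, the level-one dimension formula in closed form, the
decomposition `M_k = ℂ·E₆^{k/6} ⊕ E₄·M_{k-4}`, the asymptotics of `Δ` and `D Δ = E₂ Δ`.
-/

set_option autoImplicit false

namespace Fermat.Agent.S20.H66

open UpperHalfPlane ModularForm CongruenceSubgroup Derivative
open scoped MatrixGroups ModularForm Manifold

/-- A level-one modular form tends to its value at infinity. -/
theorem levelOne_tendsto_valueAtInfty (k : ℤ) (a : ModularForm 𝒮ℒ k) :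
    Filter.Tendsto (fun z : ℍ => a z) atImInfty (nhds (valueAtInfty a)) := by
  have hper := SlashInvariantFormClass.periodic_comp_ofComplex a one_mem_strictPeriods_SL
  have han := analyticAt_cuspFunction_zero one_pos hper (ModularFormClass.holo a)
    (ModularFormClass.bdd_at_infty a)
  have h0 := cuspFunction_apply_zero one_pos han hper
  have hcomp : (cuspFunction 1 a ∘ fun τ : ℍ => Function.Periodic.qParam 1 τ) = a := by
    funext τ
    simpa using eq_cuspFunction τ one_ne_zero hper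
  have h := han.continuousAt.tendsto.comp (qParam_tendsto_atImInfty one_pos)
  rw [hcomp, h0] at h
  exact h

theorem levelOne_tendsto (k : ℤ) (a : ModularForm 𝒮ℒ k) :
    ∃ c : ℂ, Filter.Tendsto (fun z : ℍ => a z) atImInfty (nhds c) :=
  ⟨_, levelOne_tendsto_valueAtInfty k a⟩

/-- The value at infinity is the constant `q`-coefficient. -/
theorem levelOne_valueAtInfty (k : ℤ) (a : ModularForm 𝒮ℒ k) :
    valueAtInfty a = (qExpansion 1 a).coeff 0 := by
  have hper := SlashInvariantFormClass.periodic_comp_ofComplex a one_mem_strictPeriods_SL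
  have han := analyticAt_cuspFunction_zero one_pos hper (ModularFormClass.holo a)
    (ModularFormClass.bdd_at_infty a)
  exact (qExpansion_coeff_zero one_pos han hper).symm

theorem E4_tendsto : Filter.Tendsto (fun z : ℍ => E₄ z) atImInfty (nhds 1) := by
  have h := levelOne_tendsto_valueAtInfty 4 E₄
  rw [levelOne_valueAtInfty, EisensteinSeries.E_qExpansion_coeff_zero _ ⟨2, rfl⟩] at h
  exact h

theorem E6_tendsto : Filter.Tendsto (fun z : ℍ => E₆ z) atImInfty (nhds 1) := by
  have h := levelOne_tendsto_valueAtInfty 6 E₆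
  rw [levelOne_valueAtInfty, EisensteinSeries.E_qExpansion_coeff_zero _ ⟨3, rfl⟩] at h
  exact h

theorem discriminant_asymp :
    Filter.Tendsto (fun z : ℍ => ModularForm.discriminant z *
      Complex.exp (-(2 * Real.pi * Complex.I * (z : ℂ)))) atImInfty (nhds 1) := by
  refine tendsto_atImInfty_tprod_one_sub_eta_q_pow.congr fun z => ?_
  rw [discriminant_eq_q_prod, mul_comm (Function.Periodic.qParam 1 (z : ℂ)), mul_assoc]
  have : Function.Periodic.qParam 1 (z : ℂ) * Complex.exp (-(2 * Real.pi * Complex.I * (z : ℂ)))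
      = 1 := by
    rw [Function.Periodic.qParam, ← Complex.exp_add]
    simp
  rw [this, mul_one]

theorem D_discriminant (z : ℍ) :
    D ModularForm.discriminant z = EisensteinSeries.E2 z * ModularForm.discriminant z := by
  have hz : (z : ℂ) ∈ upperHalfPlaneSet := z.2
  have hη := differentiableAt_eta_of_mem_upperHalfPlaneSet hz
  have hev : (ModularForm.discriminant ∘ ofComplex) =ᶠ[nhds (z : ℂ)]
      fun w : ℂ => ModularForm.eta w ^ 24 := by
    filter_upwards [isOpen_upperHalfPlaneSet.mem_nhds hz] with w hw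
    simp [ModularForm.discriminant, ofComplex_apply_of_im_pos hw]
  have hderiv : deriv (ModularForm.discriminant ∘ ofComplex) (z : ℂ)
      = 24 * ModularForm.eta (z : ℂ) ^ 23 * deriv ModularForm.eta (z : ℂ) := by
    rw [hev.deriv_eq]
    have h24 := (hη.hasDerivAt.pow 24).deriv
    have heq : (fun w : ℂ => ModularForm.eta w ^ 24) = ModularForm.eta ^ 24 := rfl
    rw [heq, h24]
    norm_num
  have hlog := logDeriv_eta_eq_E2 z
  rw [logDeriv_apply, div_eq_iff (eta_ne_zero hz)] at hlog
  have hpi : (2 * (Real.pi : ℂ) * Complex.I) ≠ 0 := by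
    simp [Real.pi_ne_zero]
  rw [normalizedDerivOfComplex, hderiv, hlog]
  simp only [ModularForm.discriminant]
  field_simp
  ring

theorem levelOne_finrank (k : ℤ) :
    Module.finrank ℂ (ModularForm 𝒮ℒ k) =
      if 0 ≤ k ∧ Even k then (if k % 12 = 2 then k / 12 else k / 12 + 1).toNat else 0 := by
  by_cases hk0 : 0 ≤ k
  · by_cases hk2 : Even k
    · rw [if_pos ⟨hk0, hk2⟩]
      obtain ⟨n, rfl⟩ := Int.eq_ofNat_of_zero_le hk0
      have hn2 : Even n := by exact_mod_cast hk2
      have h := Module.finrank_eq_of_rank_eq (dimension_level_one n hn2)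
      rw [h]
      by_cases hn : n % 12 = 2
      · have h1 : n ≡ 2 [MOD 12] := hn
        have h2 : (n : ℤ) % 12 = 2 := by omega
        rw [if_pos h1, if_pos h2]
        omega
      · have h1 : ¬ n ≡ 2 [MOD 12] := hn
        have h2 : ¬ (n : ℤ) % 12 = 2 := by omega
        rw [if_neg h1, if_neg h2]
        omega
    · rw [if_neg (fun h => hk2 h.2)]
      have hodd : Odd k := Int.not_even_iff_odd.mp hk2
      have h := levelOne_odd_weight_rank_zero hodd
      exact Module.finrank_eq_of_rank_eq (by simpa using h)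
  · rw [if_neg (fun h => hk0 h.1)]
    have h := levelOne_neg_weight_rank_zero (lt_of_not_ge hk0)
    exact Module.finrank_eq_of_rank_eq (by simpa using h)

theorem S_smul_rho : ModularGroup.S • ρ = ModularGroup.T • ρ := by
  rw [UpperHalfPlane.ext_iff, modular_S_smul, modular_T_smul, UpperHalfPlane.coe_mk,
    coe_vadd, ← mul_one (_ : ℂ)⁻¹, inv_mul_eq_iff_eq_mul₀ (neg_ne_zero.mpr ρ.ne_zero)]
  grind [ρ_sq, Complex.ofReal_one]

theorem mapGL_entry (g : SL(2, ℤ)) (i j : Fin 2) :
    ((Matrix.SpecialLinearGroup.mapGL ℝ g : GL (Fin 2) ℝ) i j : ℝ) = ((g i j : ℤ) : ℝ) := rfl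

theorem levelOne_S_smul (k : ℤ) (a : ModularForm 𝒮ℒ k) (z : ℍ) :
    a (ModularGroup.S • z) = (z : ℂ) ^ k * a z := by
  have h := SlashInvariantForm.slash_action_eqn' a
    (γ := Matrix.SpecialLinearGroup.mapGL ℝ ModularGroup.S) (MonoidHom.mem_range.mpr ⟨_, rfl⟩) z
  have h2 : (Matrix.SpecialLinearGroup.mapGL ℝ ModularGroup.S) • z = ModularGroup.S • z := rfl
  rw [h2, mapGL_entry, mapGL_entry] at h
  rw [h]
  simp [ModularGroup.S]

theorem levelOne_T_smul (k : ℤ) (a : ModularForm 𝒮ℒ k) (z : ℍ) :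
    a (ModularGroup.T • z) = a z := by
  have h := SlashInvariantForm.slash_action_eqn' a
    (γ := Matrix.SpecialLinearGroup.mapGL ℝ ModularGroup.T) (MonoidHom.mem_range.mpr ⟨_, rfl⟩) z
  have h2 : (Matrix.SpecialLinearGroup.mapGL ℝ ModularGroup.T) • z = ModularGroup.T • z := rfl
  rw [h2, mapGL_entry, mapGL_entry] at h
  rw [h]
  simp [ModularGroup.T]

theorem E4_rho : E₄ ρ = 0 := by
  have h1 := levelOne_S_smul 4 E₄ ρ
  rw [S_smul_rho, levelOne_T_smul] at h1
  have h2 : ((ρ : ℂ) ^ (4 : ℤ) - 1) * E₄ ρ = 0 := by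
    rw [sub_mul, ← h1]; ring
  rcases mul_eq_zero.mp h2 with h | h
  · exfalso
    have h3 : (ρ : ℂ) ^ 4 = 1 := by
      have : (ρ : ℂ) ^ (4 : ℤ) = (ρ : ℂ) ^ (4 : ℕ) := by norm_cast
      rw [← this]
      linear_combination h
    have h4 : (ρ : ℂ) ^ 4 = (ρ : ℂ) := by
      have := ρ_sq
      linear_combination ((ρ : ℂ) ^ 2 - (ρ : ℂ) - 1 + 1) * this
    have h5 : (ρ : ℂ) = 1 := by rw [← h4, h3]
    have h6 := congrArg Complex.im h5
    have h7 : (0 : ℝ) < (ρ : ℂ).im := ρ.2
    rw [h6] at h7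
    simp at h7
  · exact h

theorem E6_rho : E₆ ρ ≠ 0 := by
  intro h
  have h1 := discriminant_eq_E₄_cube_sub_E₆_sq ρ
  rw [E4_rho, h] at h1
  exact discriminant_ne_zero ρ (by rw [h1]; simp)

/-- Multiplication by `E₄`, as a linear map `M_{k-4} → M_k`. -/
noncomputable def mulE4 (k : ℤ) : ModularForm 𝒮ℒ (k - 4) →ₗ[ℂ] ModularForm 𝒮ℒ k where
  toFun b := mcast (by ring) (E₄.mul b)
  map_add' b₁ b₂ := by
    ext z
    simp only [coe_mcast, coe_mul, Pi.mul_apply, add_apply]
    ring
  map_smul' c b := by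
    ext z
    simp only [coe_mcast, coe_mul, Pi.mul_apply, smul_apply, RingHom.id_apply,
      smul_eq_mul]
    ring

theorem mulE4_apply (k : ℤ) (b : ModularForm 𝒮ℒ (k - 4)) (z : ℍ) :
    mulE4 k b z = E₄ z * b z := by
  simp [mulE4, coe_mcast, coe_mul]

theorem mulE4_injective (k : ℤ) : Function.Injective (mulE4 k) := by
  rw [injective_iff_map_eq_zero]
  intro b hb
  have h0 : E₄.mul b = 0 := by
    ext z
    have := congrArg (fun f : ModularForm 𝒮ℒ k => f z) hb
    simpa [mulE4_apply, coe_mul] using this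
  have hq := ModularForm.qExpansion_mul one_pos one_mem_strictPeriods_SL E₄ b
  rw [h0] at hq
  have hq0 : qExpansion 1 (⇑(0 : ModularForm 𝒮ℒ (4 + (k - 4)))) = 0 :=
    (ModularForm.qExpansion_eq_zero_iff one_pos one_mem_strictPeriods_SL _).mpr rfl
  rw [hq0] at hq
  have hE : qExpansion 1 E₄ ≠ 0 := by
    intro h
    have h1 := EisensteinSeries.E_qExpansion_coeff_zero (k := 4) (by norm_num) ⟨2, rfl⟩
    rw [h] at h1
    simp at h1
  rcases mul_eq_zero.mp hq.symm with h | h
  · exact absurd h hE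
  · exact (ModularForm.qExpansion_eq_zero_iff one_pos one_mem_strictPeriods_SL b).mp h

/-- The form `E₆ ^ m` in weight `k = 6 m`. -/
noncomputable def E6pow (k : ℤ) (m : ℕ) (h : (m : ℤ) * 6 = k) : ModularForm 𝒮ℒ k :=
  mcast h (E₆.pow m)

theorem E6pow_apply (k : ℤ) (m : ℕ) (h : (m : ℤ) * 6 = k) (z : ℍ) :
    E6pow k m h z = E₆ z ^ m := by
  simp [E6pow, coe_mcast, coe_pow]

/-- `(c, b) ↦ c • E₆ ^ m + E₄ * b`. -/
noncomputable def decompMap (k : ℤ) (m : ℕ) (h : (m : ℤ) * 6 = k) :
    (ℂ × ModularForm 𝒮ℒ (k - 4)) →ₗ[ℂ] ModularForm 𝒮ℒ k :=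
  (LinearMap.toSpanSingleton ℂ _ (E6pow k m h)).coprod (mulE4 k)

theorem decompMap_apply (k : ℤ) (m : ℕ) (h : (m : ℤ) * 6 = k) (c : ℂ)
    (b : ModularForm 𝒮ℒ (k - 4)) (z : ℍ) :
    decompMap k m h (c, b) z = c * E₆ z ^ m + E₄ z * b z := by
  simp [decompMap, LinearMap.coprod_apply, LinearMap.toSpanSingleton_apply, add_apply, smul_apply,
    E6pow_apply, mulE4_apply]

theorem decompMap_injective (k : ℤ) (m : ℕ) (h : (m : ℤ) * 6 = k) :
    Function.Injective (decompMap k m h) := by
  rw [injective_iff_map_eq_zero]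
  rintro ⟨c, b⟩ hcb
  have hz : ∀ z : ℍ, c * E₆ z ^ m + E₄ z * b z = 0 := fun z => by
    rw [← decompMap_apply k m h, hcb]; rfl
  have hc : c = 0 := by
    have h1 := hz ρ
    rw [E4_rho, zero_mul, add_zero] at h1
    exact (mul_eq_zero.mp h1).resolve_right (pow_ne_zero m E6_rho)
  subst hc
  have hb : mulE4 k b = 0 := by
    ext z
    have := hz z
    rw [zero_mul, zero_add] at this
    rw [mulE4_apply, this]; rfl
  have hb0 : b = 0 := mulE4_injective k (by rw [hb, map_zero])
  rw [hb0]; rfl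

theorem levelOne_finrank_even (k : ℤ) (hk0 : 0 ≤ k) (hk2 : k % 2 = 0) :
    Module.finrank ℂ (ModularForm 𝒮ℒ k) =
      (if k % 12 = 2 then k / 12 else k / 12 + 1).toNat := by
  rw [levelOne_finrank, if_pos ⟨hk0, Int.even_iff.mpr hk2⟩]

theorem levelOne_finrank_neg (k : ℤ) (hk0 : k < 0) :
    Module.finrank ℂ (ModularForm 𝒮ℒ k) = 0 := by
  rw [levelOne_finrank, if_neg (fun h => absurd h.1 (not_le.mpr hk0))]

theorem levelOne_decomp (k : ℤ) (a : ModularForm 𝒮ℒ k) :
    ∃ (c : ℂ) (b : ModularForm 𝒮ℒ (k - 4)), ∀ z : ℍ,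
      a z = (if 0 ≤ k ∧ (6 : ℤ) ∣ k then c * E₆ z ^ (k / 6).toNat else 0) + E₄ z * b z := by
  by_cases hk0 : 0 ≤ k
  · by_cases hk2 : Even k
    · have hk2' : k % 2 = 0 := Int.even_iff.mp hk2
      by_cases hk6 : (6 : ℤ) ∣ k
      · -- k = 6 m
        have hm : (((k / 6).toNat : ℕ) : ℤ) * 6 = k := by omega
        have hfin : Module.finrank ℂ (ℂ × ModularForm 𝒮ℒ (k - 4)) =
            Module.finrank ℂ (ModularForm 𝒮ℒ k) := by
          rw [Module.finrank_prod, Module.finrank_self]
          rcases lt_or_ge (k - 4) 0 with hneg | hpos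
          · rw [levelOne_finrank_neg _ hneg, levelOne_finrank_even k hk0 hk2']
            split_ifs <;> omega
          · rw [levelOne_finrank_even _ hpos (by omega), levelOne_finrank_even k hk0 hk2']
            split_ifs <;> omega
        have hsurj := (LinearMap.injective_iff_surjective_of_finrank_eq_finrank hfin).mp
          (decompMap_injective k _ hm)
        obtain ⟨⟨c, b⟩, hcb⟩ := hsurj a
        refine ⟨c, b, fun z => ?_⟩
        rw [if_pos ⟨hk0, hk6⟩, ← decompMap_apply k _ hm, hcb]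
      · have hfin : Module.finrank ℂ (ModularForm 𝒮ℒ (k - 4)) =
            Module.finrank ℂ (ModularForm 𝒮ℒ k) := by
          rcases lt_or_ge (k - 4) 0 with hneg | hpos
          · rw [levelOne_finrank_neg _ hneg, levelOne_finrank_even k hk0 hk2']
            split_ifs <;> omega
          · rw [levelOne_finrank_even _ hpos (by omega), levelOne_finrank_even k hk0 hk2']
            split_ifs <;> omega
        have hsurj := (LinearMap.injective_iff_surjective_of_finrank_eq_finrank hfin).mp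
          (mulE4_injective k)
        obtain ⟨b, hb⟩ := hsurj a
        refine ⟨0, b, fun z => ?_⟩
        rw [if_neg (fun h => hk6 h.2), zero_add, ← mulE4_apply, hb]
    · have ha : a = 0 := levelOne_odd_weight_eq_zero (Int.not_even_iff_odd.mp hk2) a
      refine ⟨0, 0, fun z => ?_⟩
      rw [ha]
      simp
  · have ha : (a : ℍ → ℂ) = 0 := ModularFormClass.levelOne_neg_weight_eq_zero (lt_of_not_ge hk0) a
    refine ⟨0, 0, fun z => ?_⟩
    rw [ha, if_neg (fun h => hk0 h.1)]
    simp

end Fermat.Agent.S20.H66
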