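import Mathlib
import Fermat.Prelude.Def_ModularCurve_GenusNumerics
import Fermat.Agent.S20.Defs_helper78
import Fermat.Agent.S24.Cosets_helper35
import Fermat.Agent.S24.CosetOrbits_helper35
import Fermat.Agent.S24.CuspCount_helper20

/-!
# S20, block K: transfer of the coset counts to `Q N`

`Q N = 𝒮ℒ ⧸ (Γ₀(N)).subgroupOf 𝒮ℒ` is identified `SL(2, ℤ)`-equivariantly with
`SL(2, ℤ) ⧸ Γ₀(N)`; the four counts `CardQ`, `FixSCount`, `FixSTCount`, `OrbTCount` follow from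
the counts on `SL(2, ℤ) ⧸ Γ₀(N)`.
-/

set_option autoImplicit false

open scoped MatrixGroups
open CongruenceSubgroup ModularCurve Matrix.SpecialLinearGroup

namespace Fermat.Agent.S20.H35

open Fermat.Agent.S20

/-- An element of `SL(2, ℤ)` viewed in the subgroup `𝒮ℒ` of `GL(2, ℝ)`. -/
noncomputable def toSLR : SL(2, ℤ) ≃* ↥𝒮ℒ :=
  MonoidHom.ofInjective (f := (mapGL ℝ : SL(2, ℤ) →* GL (Fin 2) ℝ)) mapGL_injective

@[simp] theorem coe_toSLR (γ : SL(2, ℤ)) : ((toSLR γ : ↥𝒮ℒ) : GL (Fin 2) ℝ) = mapGL ℝ γ := rfl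

theorem toSLR_inv_mul_mem_iff (N : ℕ) (γ γ' : SL(2, ℤ)) :
    (toSLR γ)⁻¹ * toSLR γ' ∈ ((Gamma0 N : Subgroup (GL (Fin 2) ℝ))).subgroupOf 𝒮ℒ ↔
      γ⁻¹ * γ' ∈ Gamma0 N := by
  rw [← map_inv, ← map_mul, Subgroup.mem_subgroupOf, coe_toSLR]
  exact Subgroup.mem_map_iff_mem mapGL_injective

/-- The coset space `SL(2, ℤ) ⧸ Γ₀(N)` is the coset space `Q N` used by Mathlib's trace. -/
noncomputable def quotEquiv (N : ℕ) : SL(2, ℤ) ⧸ Gamma0 N ≃ Q N :=
  Quotient.congr toSLR.toEquiv (fun a b => by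
    rw [QuotientGroup.leftRel_apply, QuotientGroup.leftRel_apply]
    exact (toSLR_inv_mul_mem_iff N a b).symm)

/-- The class of `h : 𝒮ℒ` in `Q N`. -/
def mkQ (N : ℕ) (h : ↥𝒮ℒ) : Q N :=
  (QuotientGroup.mk h : ↥𝒮ℒ ⧸ ((Gamma0 N : Subgroup (GL (Fin 2) ℝ))).subgroupOf 𝒮ℒ)

theorem quotEquiv_mk (N : ℕ) (γ : SL(2, ℤ)) :
    quotEquiv N (QuotientGroup.mk γ) = mkQ N (toSLR γ) := rfl

/-- The action of `SL(2, ℤ)` on `Q N` on representatives. -/
theorem smul_mkQ (N : ℕ) (γ : SL(2, ℤ)) (h : ↥𝒮ℒ) :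
    γ • mkQ N h = mkQ N (toSLR γ * h) := rfl

/-- `quotEquiv` is `SL(2, ℤ)`-equivariant. -/
theorem quotEquiv_smul (N : ℕ) (γ : SL(2, ℤ)) (x : SL(2, ℤ) ⧸ Gamma0 N) :
    quotEquiv N (γ • x) = γ • quotEquiv N x := by
  induction x using QuotientGroup.induction_on with
  | H g =>
    rw [MulAction.Quotient.smul_mk, quotEquiv_mk, quotEquiv_mk, smul_mkQ, smul_eq_mul, map_mul]

/-- Fixed points correspond under `quotEquiv`. -/
theorem card_fixed_Q (N : ℕ) (γ : SL(2, ℤ)) :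
    Nat.card {q : Q N // γ • q = q} = Nat.card (MulAction.fixedBy (SL(2, ℤ) ⧸ Gamma0 N) γ) := by
  symm
  refine Nat.card_congr ((quotEquiv N).subtypeEquiv (fun x => ?_))
  rw [MulAction.mem_fixedBy, ← quotEquiv_smul]
  exact (quotEquiv N).injective.eq_iff.symm

/-- **K1** on `Q N`. -/
theorem cardQ (N : ℕ) [NeZero N] : CardQ N := by
  unfold CardQ
  rw [← Nat.card_eq_fintype_card, ← Fermat.Agent.S24.H35.card_quotient_Gamma0 N (NeZero.ne N)]
  exact (Nat.card_congr (quotEquiv N)).symm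

/-- **K2** on `Q N`. -/
theorem fixSCount (N : ℕ) [NeZero N] : FixSCount N := by
  unfold FixSCount fixS
  rw [card_fixed_Q, Fermat.Agent.S24.H35.card_fixedBy_S]

/-- **K3** on `Q N`. -/
theorem fixSTCount (N : ℕ) [NeZero N] : FixSTCount N := by
  unfold FixSTCount fixST
  rw [card_fixed_Q, Fermat.Agent.S24.H35.card_fixedBy_ST]

/-- **K4** on `Q N`, in Burnside form. -/
theorem orbTCount (N : ℕ) [NeZero N] : OrbTCount N := by
  unfold OrbTCount sumFixT fixT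
  rw [Finset.sum_congr rfl (fun m _ => card_fixed_Q N (ModularGroup.T ^ m)),
    Fermat.Agent.S24.H35.sum_card_fixedBy_T_pow, Fermat.Agent.S24.H20.card_orbits_T]

end Fermat.Agent.S20.H35
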