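import Mathlib
import Fermat.Agent.S20.Defs_helper78

/-!
# S20: interface between the cusp map (block C core) and its consumers
-/

set_option autoImplicit false

namespace Fermat.Agent.S20

open UpperHalfPlane ModularForm CongruenceSubgroup
open scoped MatrixGroups ModularForm Manifold

/-- The vector of conjugates of a form at a point. -/
noncomputable def vec {N : ℕ} {k : ℤ} (f : ModularForm (Gamma0 N) k) (z : ℍ) : Q N → ℂ :=
  fun q => conj f q z

/-- Output of the cusp-map core: an invertible matrix function `E` (diagonalising the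
translation `z ↦ z + 1` on vectors of conjugates) of known determinant and growth, such that
`E(z)⁻¹ • vec f z` has a limit `lam f` at `i∞`, and `lam f = 0` forces `f ∈ Δ M_(k-12)`. -/
def CuspPackage (N : ℕ) [NeZero N] : Prop :=
  ∃ (E : ℍ → Matrix (Q N) (Q N) ℂ) (lam : ∀ k : ℤ, ModularForm (Gamma0 N) k → (Q N → ℂ)),
    (∀ z : ℍ, (E z).det = Complex.exp (Real.pi * Complex.I * (z : ℂ) *
        (((N * Fintype.card (Q N) : ℕ) : ℂ) - (sumFixT N : ℂ)) / (N : ℂ))) ∧
    (∀ (z : ℍ) (q q' : Q N),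
      ‖(E z)⁻¹ q q'‖ ≤ (N : ℝ) * Real.exp (2 * Real.pi * (1 - 1 / (N : ℝ)) * z.im)) ∧
    (∀ (k : ℤ) (f : ModularForm (Gamma0 N) k),
      Filter.Tendsto (fun z : ℍ => Matrix.mulVec (E z)⁻¹ (vec f z)) atImInfty (nhds (lam k f))) ∧
    (∀ (k : ℤ) (f : ModularForm (Gamma0 N) k), lam k f = 0 →
      ∃ g : ModularForm (Gamma0 N) (k - 12), ∀ z : ℍ, f z = ModularForm.discriminant z * g z)

end Fermat.Agent.S20
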