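import Mathlib
import Fermat.Agent.S20.Util_helper78
import Fermat.Agent.S20.CuspDefs_helper78

/-!
# S20: combinations `∑ a_j F_j` with level one coefficients, as bundled forms
-/

set_option autoImplicit false

namespace Fermat.Agent.S20

open UpperHalfPlane ModularForm CongruenceSubgroup Filter
open scoped MatrixGroups ModularForm Manifold Topology

/-- Slash of a product `a * F` with `a` of level one, weights `(k - d) + d = k`. -/
theorem mul_slash_levelOne {k d : ℤ} (a : ModularForm 𝒮ℒ (k - d)) (F : ℍ → ℂ) (γ : SL(2, ℤ)) :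
    ((a : ℍ → ℂ) * F) ∣[k] γ = (a : ℍ → ℂ) * (F ∣[d] γ) := by
  have h := ModularForm.mul_slash_SL2 (k - d) d γ (a : ℍ → ℂ) F
  rw [sub_add_cancel] at h
  rw [h, slash_levelOne]

/-- Slash of a finite combination with level one coefficients. -/
theorem sum_mul_slash {ι : Type*} (s : Finset ι) {k : ℤ} (d : ι → ℤ)
    (a : ∀ j, ModularForm 𝒮ℒ (k - d j)) (F : ι → ℍ → ℂ) (γ : SL(2, ℤ)) :
    (∑ j ∈ s, (a j : ℍ → ℂ) * F j) ∣[k] γ = ∑ j ∈ s, (a j : ℍ → ℂ) * (F j ∣[d j] γ) := by
  rw [SlashAction.sum_slash]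
  exact Finset.sum_congr rfl fun j _ => mul_slash_levelOne (a j) (F j) γ

/-- Finite sums of functions bounded at `i∞` are bounded at `i∞`. -/
theorem isBoundedAtImInfty_sum {ι : Type*} (s : Finset ι) (G : ι → ℍ → ℂ)
    (h : ∀ j ∈ s, IsBoundedAtImInfty (G j)) : IsBoundedAtImInfty (∑ j ∈ s, G j) := by
  classical
  induction s using Finset.induction_on with
  | empty =>
    rw [Finset.sum_empty]
    exact Filter.const_boundedAtFilter _ (0 : ℂ)
  | insert j s hj ih =>
    rw [Finset.sum_insert hj]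
    exact Filter.BoundedAtFilter.add (h j (Finset.mem_insert_self j s))
      (ih fun i hi => h i (Finset.mem_insert_of_mem hi))

/-- Finite sums of functions vanishing at `i∞` vanish at `i∞`. -/
theorem isZeroAtImInfty_sum {ι : Type*} (s : Finset ι) (G : ι → ℍ → ℂ)
    (h : ∀ j ∈ s, IsZeroAtImInfty (G j)) : IsZeroAtImInfty (∑ j ∈ s, G j) := by
  classical
  induction s using Finset.induction_on with
  | empty =>
    rw [Finset.sum_empty]
    exact Filter.zero_zeroAtFilter _
  | insert j s hj ih =>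
    rw [Finset.sum_insert hj]
    exact Filter.ZeroAtFilter.add (h j (Finset.mem_insert_self j s))
      (ih fun i hi => h i (Finset.mem_insert_of_mem hi))

/-- The combination `∑ a_j F_j` as a bundled form of level `Γ₀(N)`. -/
noncomputable def sumForm {N : ℕ} [NeZero N] {ι : Type} [Fintype ι] {d : ι → ℤ}
    (F : ∀ j : ι, ModularForm (Gamma0 N) (d j)) (k : ℤ) (a : ∀ j : ι, ModularForm 𝒮ℒ (k - d j)) :
    ModularForm (Gamma0 N) k :=
  mkModularForm N k (∑ j, (a j : ℍ → ℂ) * (F j : ℍ → ℂ))
    (by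
      refine MDifferentiable.sum fun j _ => ?_
      exact (ModularFormClass.holo (a j)).mul (ModularFormClass.holo (F j)))
    (by
      intro γ hγ
      rw [sum_mul_slash]
      exact Finset.sum_congr rfl fun j _ => by rw [slash_Gamma0 (F j) γ hγ])
    (by
      intro γ
      rw [sum_mul_slash]
      refine isBoundedAtImInfty_sum _ _ fun j _ => ?_
      exact (ModularFormClass.bdd_at_infty (a j)).mul
        (ModularFormClass.bdd_at_infty_slash (F j) γ))

theorem sumForm_apply {N : ℕ} [NeZero N] {ι : Type} [Fintype ι] {d : ι → ℤ}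
    (F : ∀ j : ι, ModularForm (Gamma0 N) (d j)) (k : ℤ) (a : ∀ j : ι, ModularForm 𝒮ℒ (k - d j))
    (z : ℍ) : sumForm F k a z = ∑ j, a j z * F j z := by
  change (∑ j, (a j : ℍ → ℂ) * (F j : ℍ → ℂ)) z = _
  rw [Finset.sum_apply]
  rfl

/-- Conjugates of a combination. -/
theorem conj_eq_sum {N : ℕ} [NeZero N] {ι : Type} [Fintype ι] {d : ι → ℤ}
    (F : ∀ j : ι, ModularForm (Gamma0 N) (d j)) (k : ℤ) (f : ModularForm (Gamma0 N) k)
    (a : ∀ j : ι, ModularForm 𝒮ℒ (k - d j)) (h : ∀ z : ℍ, f z = ∑ j, a j z * F j z)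
    (q : Q N) (z : ℍ) : conj f q z = ∑ j, a j z * conj (F j) q z := by
  obtain ⟨γ, rfl⟩ := coset_surjective N q
  have hf : (f : ℍ → ℂ) = ∑ j, (a j : ℍ → ℂ) * (F j : ℍ → ℂ) := by
    funext z
    rw [h z, Finset.sum_apply]
    rfl
  rw [conj_coset, hf, sum_mul_slash, Finset.sum_apply]
  refine Finset.sum_congr rfl fun j _ => ?_
  rw [conj_coset]
  rfl

/-- The vector of conjugates of a combination. -/
theorem vec_eq_sum {N : ℕ} [NeZero N] {ι : Type} [Fintype ι] {d : ι → ℤ}
    (F : ∀ j : ι, ModularForm (Gamma0 N) (d j)) (k : ℤ) (f : ModularForm (Gamma0 N) k)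
    (a : ∀ j : ι, ModularForm 𝒮ℒ (k - d j)) (h : ∀ z : ℍ, f z = ∑ j, a j z * F j z)
    (z : ℍ) : vec f z = ∑ j, a j z • vec (F j) z := by
  funext q
  rw [vec, conj_eq_sum F k f a h q z, Finset.sum_apply]
  rfl

/-- The product of a level one form of weight `w` with `Δ`, as a level one form. -/
noncomputable def deltaMul {w w' : ℤ} (hw : w' = w + 12) (b : ModularForm 𝒮ℒ w) :
    ModularForm 𝒮ℒ w' :=
  mkLevelOne w' ((ModularForm.discriminant : ℍ → ℂ) * (b : ℍ → ℂ))
    (by
      have h1 : MDiff (ModularForm.discriminant : ℍ → ℂ) := by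
        have := ModularFormClass.holo CuspForm.discriminant
        rwa [CuspForm.coe_discriminant] at this
      exact h1.mul (ModularFormClass.holo b))
    (by
      intro γ
      subst hw
      have h := ModularForm.mul_slash_SL2 12 w γ (ModularForm.discriminant : ℍ → ℂ) (b : ℍ → ℂ)
      rw [add_comm] at h
      rw [h, slash_levelOne]
      have h2 : (ModularForm.discriminant : ℍ → ℂ) ∣[(12 : ℤ)] γ = ModularForm.discriminant := by
        have := slash_levelOne (ModularFormClass.modularForm CuspForm.discriminant) γ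
        simpa [CuspForm.coe_discriminant] using this
      rw [h2])
    (by
      have h1 : IsBoundedAtImInfty (ModularForm.discriminant : ℍ → ℂ) :=
        ModularForm.discriminant_isZeroAtImInfty.boundedAtFilter
      exact h1.mul (ModularFormClass.bdd_at_infty b))

theorem deltaMul_apply {w w' : ℤ} (hw : w' = w + 12) (b : ModularForm 𝒮ℒ w) (z : ℍ) :
    deltaMul hw b z = ModularForm.discriminant z * b z := rfl

end Fermat.Agent.S20
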