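import Mathlib
import Fermat.Agent.S20.Comb_helper78
import Fermat.Agent.S23.Nice_helper52

/-!
# S20: consumer side of the cusp map

From `CuspPackage N` (block C core) and `BasicWeights N` we derive, for every free basis,
the invertibility of the matrix of cusp limits and then `WronAsymptotic N`, `PhiInvBound N`.
-/

set_option autoImplicit false

namespace Fermat.Agent.S20

open UpperHalfPlane ModularForm CongruenceSubgroup Filter
open scoped MatrixGroups ModularForm Manifold Topology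

/-- A level one form of any even weight `≥ 4` with value `1` at `i∞`. -/
theorem exists_levelOne_tendsto_one (w : ℤ) (hw : 4 ≤ w) (hev : Even w) :
    ∃ e : ModularForm 𝒮ℒ w, Tendsto (fun z : ℍ => e z) atImInfty (𝓝 1) := by
  obtain ⟨n, rfl⟩ : ∃ n : ℕ, w = n := ⟨w.toNat, (Int.toNat_of_nonneg (by omega)).symm⟩
  have hn : 3 ≤ n := by omega
  have hn2 : Even n := by exact_mod_cast hev
  refine ⟨ModularForm.E hn, ?_⟩
  have h := (Fermat.Agent.S23.H52.isNice_of_levelOne (ModularForm.E hn)).tendsto_atImInfty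
  rwa [EisensteinSeries.E_qExpansion_coeff_zero hn hn2] at h

section

variable {N : ℕ} [NeZero N] (E : ℍ → Matrix (Q N) (Q N) ℂ)
  (lam : ∀ k : ℤ, ModularForm (Gamma0 N) k → (Q N → ℂ))

/-- The cusp limit of a combination with level one coefficients. -/
theorem lam_eq_sum
    (hlam : ∀ (k : ℤ) (f : ModularForm (Gamma0 N) k),
      Tendsto (fun z : ℍ => Matrix.mulVec (E z)⁻¹ (vec f z)) atImInfty (𝓝 (lam k f)))
    {d : Q N → ℤ} (F : ∀ j, ModularForm (Gamma0 N) (d j)) (k : ℤ)
    (f : ModularForm (Gamma0 N) k) (a : ∀ j, ModularForm 𝒮ℒ (k - d j))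
    (h : ∀ z : ℍ, f z = ∑ j, a j z * F j z) (c : Q N → ℂ)
    (hc : ∀ j, Tendsto (fun z : ℍ => a j z) atImInfty (𝓝 (c j))) :
    lam k f = ∑ j, c j • lam (d j) (F j) := by
  refine tendsto_nhds_unique (hlam k f) ?_
  have hfun : (fun z : ℍ => Matrix.mulVec (E z)⁻¹ (vec f z))
      = fun z => ∑ j, a j z • Matrix.mulVec (E z)⁻¹ (vec (F j) z) := by
    funext z
    rw [vec_eq_sum F k f a h z, Matrix.mulVec_sum]
    exact Finset.sum_congr rfl fun j _ => Matrix.mulVec_smul _ _ _
  rw [hfun]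
  exact tendsto_finsetSum _ fun j _ => (hc j).smul (hlam (d j) (F j))

/-- The cusp limits of a free basis are linearly independent. -/
theorem lam_indep
    (hlam : ∀ (k : ℤ) (f : ModularForm (Gamma0 N) k),
      Tendsto (fun z : ℍ => Matrix.mulVec (E z)⁻¹ (vec f z)) atImInfty (𝓝 (lam k f)))
    (hker : ∀ (k : ℤ) (f : ModularForm (Gamma0 N) k), lam k f = 0 →
      ∃ g : ModularForm (Gamma0 N) (k - 12), ∀ z : ℍ, f z = ModularForm.discriminant z * g z)
    {d : Q N → ℤ} (F : ∀ j, ModularForm (Gamma0 N) (d j)) (hFB : IsFreeBasis N d F)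
    (hev : ∀ j, Even (d j)) (c : Q N → ℂ) (hc : ∑ j, c j • lam (d j) (F j) = 0) :
    ∀ j, c j = 0 := by
  -- a weight `k` with `k - d j` even and `≥ 4` for all `j`
  set D : ℤ := ∑ j, |d j| with hD
  have hDj : ∀ j, d j ≤ D := fun j =>
    (le_abs_self (d j)).trans (Finset.single_le_sum (f := fun j => |d j|)
      (fun i _ => abs_nonneg (d i)) (Finset.mem_univ j))
  set k : ℤ := 2 * D + 4 with hk
  have hD0 : 0 ≤ D := Finset.sum_nonneg fun j _ => abs_nonneg (d j)
  have hw4 : ∀ j, 4 ≤ k - d j := fun j => by have := hDj j; omega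
  have hwev : ∀ j, Even (k - d j) := fun j => by
    refine Even.sub ?_ (hev j)
    exact ⟨D + 2, by rw [hk]; ring⟩
  choose e he using fun j => exists_levelOne_tendsto_one (k - d j) (hw4 j) (hwev j)
  set a : ∀ j, ModularForm 𝒮ℒ (k - d j) := fun j => c j • e j with ha
  have ha_lim : ∀ j, Tendsto (fun z : ℍ => a j z) atImInfty (𝓝 (c j)) := by
    intro j
    have := (he j).const_mul (c j)
    simpa [ha] using this
  set f : ModularForm (Gamma0 N) k := sumForm F k a with hf
  have hfz : ∀ z : ℍ, f z = ∑ j, a j z * F j z := fun z => sumForm_apply F k a z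
  have hlamf : lam k f = 0 := by
    rw [lam_eq_sum E lam hlam F k f a hfz c ha_lim, hc]
  obtain ⟨g, hg⟩ := hker k f hlamf
  obtain ⟨b, hb⟩ := hFB.span (k - 12) g
  -- `a j - Δ * b j` as level one forms of weight `k - d j`
  have hwt : ∀ j, k - d j = (k - 12 - d j) + 12 := fun j => by ring
  set a' : ∀ j, ModularForm 𝒮ℒ (k - d j) := fun j => a j - deltaMul (hwt j) (b j) with ha'
  have hzero : ∀ z : ℍ, ∑ j, a' j z * F j z = 0 := by
    intro z
    have h1 : ∑ j, a' j z * F j z
        = ∑ j, a j z * F j z - ModularForm.discriminant z * ∑ j, b j z * F j z := by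
      rw [Finset.mul_sum, ← Finset.sum_sub_distrib]
      refine Finset.sum_congr rfl fun j _ => ?_
      simp only [ha']
      rw [sub_apply, deltaMul_apply]
      ring
    rw [h1, ← hfz z, hg z, hb z, sub_self]
  have ha'0 := hFB.indep k a' hzero
  intro j
  -- `a j = Δ * b j`, so `a j → 0`
  have haj : ∀ z : ℍ, a j z = ModularForm.discriminant z * b j z := by
    intro z
    have h2 : a' j z = 0 := by rw [ha'0 j]; rfl
    simp only [ha'] at h2
    rw [sub_apply, deltaMul_apply, sub_eq_zero] at h2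
    exact h2
  have hlim0 : Tendsto (fun z : ℍ => a j z) atImInfty (𝓝 0) := by
    have h3 : IsZeroAtImInfty (fun z : ℍ => ModularForm.discriminant z * b j z) :=
      ModularForm.discriminant_isZeroAtImInfty.mul_boundedAtFilter
        (ModularFormClass.bdd_at_infty (b j))
    have h4 : (fun z : ℍ => a j z) = fun z : ℍ => ModularForm.discriminant z * b j z :=
      funext haj
    rw [h4]
    exact h3
  exact tendsto_nhds_unique (ha_lim j) hlim0

/-- The matrix of cusp limits of a free basis is invertible. -/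
theorem det_lam_ne_zero
    (hlam : ∀ (k : ℤ) (f : ModularForm (Gamma0 N) k),
      Tendsto (fun z : ℍ => Matrix.mulVec (E z)⁻¹ (vec f z)) atImInfty (𝓝 (lam k f)))
    (hker : ∀ (k : ℤ) (f : ModularForm (Gamma0 N) k), lam k f = 0 →
      ∃ g : ModularForm (Gamma0 N) (k - 12), ∀ z : ℍ, f z = ModularForm.discriminant z * g z)
    {d : Q N → ℤ} (F : ∀ j, ModularForm (Gamma0 N) (d j)) (hFB : IsFreeBasis N d F)
    (hev : ∀ j, Even (d j)) :
    (Matrix.of fun j q => lam (d j) (F j) q : Matrix (Q N) (Q N) ℂ).det ≠ 0 := by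
  intro h0
  obtain ⟨c, hc0, hc⟩ := Matrix.exists_vecMul_eq_zero_iff.mpr h0
  apply hc0
  funext j
  refine lam_indep E lam hlam hker F hFB hev c ?_ j
  funext q
  have h1 := congrFun hc q
  simp only [Matrix.vecMul, dotProduct, Matrix.of_apply, Pi.zero_apply] at h1
  rw [Finset.sum_apply]
  simpa using h1

/-- The matrix `Φ̃(z) = Φ(z) (E(z)⁻¹)ᵀ` of normalised conjugates. -/
noncomputable def phiTilde {d : Q N → ℤ} (F : ∀ j, ModularForm (Gamma0 N) (d j)) (z : ℍ) :
    Matrix (Q N) (Q N) ℂ :=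
  Matrix.of fun j q => Matrix.mulVec (E z)⁻¹ (vec (F j) z) q

theorem phiTilde_eq {d : Q N → ℤ} (F : ∀ j, ModularForm (Gamma0 N) (d j)) (z : ℍ) :
    phiTilde E F z = phiMat F z * ((E z)⁻¹).transpose := by
  ext j q
  simp only [phiTilde, Matrix.of_apply, Matrix.mulVec, dotProduct, Matrix.mul_apply,
    Matrix.transpose_apply, phiMat, vec]
  exact Finset.sum_congr rfl fun q' _ => mul_comm _ _

theorem tendsto_phiTilde
    (hlam : ∀ (k : ℤ) (f : ModularForm (Gamma0 N) k),
      Tendsto (fun z : ℍ => Matrix.mulVec (E z)⁻¹ (vec f z)) atImInfty (𝓝 (lam k f)))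
    {d : Q N → ℤ} (F : ∀ j, ModularForm (Gamma0 N) (d j)) :
    Tendsto (phiTilde E F) atImInfty
      (𝓝 (Matrix.of fun j q => lam (d j) (F j) q : Matrix (Q N) (Q N) ℂ)) := by
  refine tendsto_pi_nhds.mpr fun j => tendsto_pi_nhds.mpr fun q => ?_
  exact (tendsto_pi_nhds.mp (hlam (d j) (F j))) q

end

/-- **Block C, output 1**: from the cusp package, the Wronskian has exact exponential order. -/
theorem wronAsymptotic_of (N : ℕ) [NeZero N] (hC : CuspPackage N) (hB : BasicWeights N) :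
    WronAsymptotic N := by
  obtain ⟨E, lam, hdet, -, hlam, hker⟩ := hC
  intro d F hFB
  have hev : ∀ j, Even (d j) := fun j => ((hB d F hFB).1 j).2
  refine ⟨_, det_lam_ne_zero E lam hlam hker F hFB hev, ?_⟩
  have h1 : Tendsto (fun z : ℍ => (phiTilde E F z).det) atImInfty
      (𝓝 (Matrix.of fun j q => lam (d j) (F j) q : Matrix (Q N) (Q N) ℂ).det) :=
    ((continuous_id.matrix_det).tendsto _).comp (tendsto_phiTilde E lam hlam F)
  have h2 : (fun z : ℍ => (phiTilde E F z).det) = fun z : ℍ => wron F z *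
      Complex.exp (-(Real.pi * Complex.I * (z : ℂ) *
        (((N * Fintype.card (Q N) : ℕ) : ℂ) - (sumFixT N : ℂ)) / (N : ℂ))) := by
    funext z
    rw [phiTilde_eq, Matrix.det_mul, Matrix.det_transpose, Matrix.det_nonsing_inv,
      Ring.inverse_eq_inv', hdet z, ← Complex.exp_neg]
    rfl
  rw [h2] at h1
  exact h1

/-- **Block C, output 2**: from the cusp package, the inverse of `Φ` grows slower than
`|q|⁻¹`. -/
theorem phiInvBound_of (N : ℕ) [NeZero N] (hC : CuspPackage N) (hB : BasicWeights N) :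
    PhiInvBound N := by
  obtain ⟨E, lam, hdet, hbound, hlam, hker⟩ := hC
  intro d F hFB
  have hev : ∀ j, Even (d j) := fun j => ((hB d F hFB).1 j).2
  set L : Matrix (Q N) (Q N) ℂ := Matrix.of fun j q => lam (d j) (F j) q with hL
  have hLdet : L.det ≠ 0 := det_lam_ne_zero E lam hlam hker F hFB hev
  -- the inverse of `Φ̃` converges to `L⁻¹`
  have hinv : Tendsto (fun z : ℍ => (phiTilde E F z)⁻¹) atImInfty (𝓝 L⁻¹) := by
    have hc : ContinuousAt Inv.inv L :=
      continuousAt_matrix_inv L (NormedRing.inverse_continuousAt (Units.mk0 L.det hLdet))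
    exact hc.tendsto.comp (tendsto_phiTilde E lam hlam F)
  -- eventually all entries of `Φ̃⁻¹` are bounded
  set B : ℝ := ∑ q, ∑ j, (‖L⁻¹ q j‖ + 1) with hBdef
  have hBnn : ∀ q j, ‖L⁻¹ q j‖ + 1 ≤ B := by
    intro q j
    have h1 : ‖L⁻¹ q j‖ + 1 ≤ ∑ j', (‖L⁻¹ q j'‖ + 1) :=
      Finset.single_le_sum (f := fun j' => ‖L⁻¹ q j'‖ + 1)
        (fun j' _ => by positivity) (Finset.mem_univ j)
    have h2 : ∑ j', (‖L⁻¹ q j'‖ + 1) ≤ B :=
      Finset.single_le_sum (f := fun q' => ∑ j', (‖L⁻¹ q' j'‖ + 1))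
        (fun q' _ => Finset.sum_nonneg fun j' _ => by positivity) (Finset.mem_univ q)
    exact h1.trans h2
  have hev1 : ∀ᶠ z in atImInfty, ∀ q j, ‖(phiTilde E F z)⁻¹ q j‖ ≤ B := by
    rw [Filter.eventually_all]
    intro q
    rw [Filter.eventually_all]
    intro j
    have h1 : Tendsto (fun z : ℍ => (phiTilde E F z)⁻¹ q j) atImInfty (𝓝 (L⁻¹ q j)) :=
      (tendsto_pi_nhds.mp ((tendsto_pi_nhds.mp hinv) q)) j
    have h2 : ∀ᶠ z in atImInfty, ‖(phiTilde E F z)⁻¹ q j‖ < ‖L⁻¹ q j‖ + 1 :=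
      h1.norm.eventually (gt_mem_nhds (lt_add_one _))
    exact h2.mono fun z hz => hz.le.trans (hBnn q j)
  obtain ⟨Y, hY⟩ := (atImInfty_mem _).mp hev1
  refine ⟨Fintype.card (Q N) * ((N : ℝ) * B), Y, fun z hz q j => ?_⟩
  have hEdet : IsUnit (E z).det := by
    rw [hdet z]
    exact (Complex.exp_ne_zero _).isUnit
  have hEinvT : IsUnit ((E z)⁻¹).transpose.det := by
    rw [Matrix.det_transpose, Matrix.det_nonsing_inv]
    exact hEdet.ringInverse
  -- `Φ⁻¹ = (E⁻¹)ᵀ * Φ̃⁻¹`
  have hkey : (phiMat F z)⁻¹ = ((E z)⁻¹).transpose * (phiTilde E F z)⁻¹ := by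
    rw [phiTilde_eq, Matrix.mul_inv_rev, Matrix.mul_nonsing_inv_cancel_left _ _ hEinvT]
  rw [hkey, Matrix.mul_apply]
  calc ‖∑ q', ((E z)⁻¹).transpose q q' * (phiTilde E F z)⁻¹ q' j‖
      ≤ ∑ q', ‖((E z)⁻¹).transpose q q' * (phiTilde E F z)⁻¹ q' j‖ := norm_sum_le _ _
    _ ≤ ∑ _q' : Q N, ((N : ℝ) * Real.exp (2 * Real.pi * (1 - 1 / (N : ℝ)) * z.im)) * B := by
        refine Finset.sum_le_sum fun q' _ => ?_
        rw [norm_mul, Matrix.transpose_apply]
        exact mul_le_mul (hbound z q' q) (hY z hz q' j) (norm_nonneg _) (by positivity)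
    _ = Fintype.card (Q N) * ((N : ℝ) * B)
          * Real.exp (2 * Real.pi * (1 - 1 / (N : ℝ)) * z.im) := by
        rw [Finset.sum_const, Finset.card_univ, nsmul_eq_mul]
        ring

end Fermat.Agent.S20
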