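import Mathlib
import Fermat.Agent.S20.Defs_helper78
import Fermat.Agent.S23.Glue_helper30

/-!
# Module D of S20: the dual basis

For a family `F j` whose matrix of conjugates `Φ` is invertible on `ℍ`, the entries of
`Ψ = Φ⁻¹` in the row of the trivial coset, multiplied by `Δ`, are cusp forms of weights
`12 - d j`, and every cusp form is a combination of them with level one coefficients.
-/

set_option autoImplicit false

namespace Fermat.Agent.S20.H30

open UpperHalfPlane ModularForm CongruenceSubgroup Filter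
open scoped MatrixGroups ModularForm Manifold Topology

open Fermat.Agent.S23.H30 (q₀)

/-- The coset of `h`. -/
def mkQ (N : ℕ) (h : ↥𝒮ℒ) : Q N :=
  (QuotientGroup.mk h : ↥𝒮ℒ ⧸ ((Gamma0 N : Subgroup (GL (Fin 2) ℝ))).subgroupOf 𝒮ℒ)

theorem mkQ_surjective (N : ℕ) (q : Q N) : ∃ h : ↥𝒮ℒ, mkQ N h = q :=
  QuotientGroup.mk_surjective q

theorem q₀_eq_mkQ (N : ℕ) : q₀ N = mkQ N 1 := rfl

theorem mkQ_eq_mkQ_iff {N : ℕ} (a b : ↥𝒮ℒ) :
    mkQ N a = mkQ N b ↔ a⁻¹ * b ∈ ((Gamma0 N : Subgroup (GL (Fin 2) ℝ))).subgroupOf 𝒮ℒ :=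
  QuotientGroup.eq

/-- The action of `SL(2, ℤ)` on cosets, unfolded. -/
theorem smul_mkQ {N : ℕ} (γ : SL(2, ℤ)) (h : ↥𝒮ℒ) :
    γ • mkQ N h = mkQ N ((Matrix.SpecialLinearGroup.mapGL ℝ).rangeRestrict γ * h) := rfl

/-- Slashing a conjugate permutes the cosets. -/
theorem conj_slash_SL {N : ℕ} {k : ℤ} (f : ModularForm (Gamma0 N) k) (q : Q N) (γ : SL(2, ℤ)) :
    conj f q ∣[k] γ = conj f (γ⁻¹ • q) := by
  rw [ModularForm.SL_slash]
  have h := SlashInvariantForm.quotientFunc_smul (ℋ := 𝒮ℒ) f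
    (h := Matrix.SpecialLinearGroup.mapGL ℝ γ) ⟨γ, rfl⟩ q
  have h2 : (⟨Matrix.SpecialLinearGroup.mapGL ℝ γ, ⟨γ, rfl⟩⟩ : ↥𝒮ℒ)⁻¹
      = (Matrix.SpecialLinearGroup.mapGL ℝ).rangeRestrict γ⁻¹ := by
    rw [map_inv]; rfl
  rw [h2] at h
  exact h

/-- `SL(2, ℤ)` acts transitively on the cosets. -/
theorem exists_smul_q₀ {N : ℕ} (q : Q N) : ∃ γ : SL(2, ℤ), γ⁻¹ • q₀ N = q := by
  obtain ⟨⟨h, γ', rfl⟩, rfl⟩ := mkQ_surjective N q
  refine ⟨γ'⁻¹, ?_⟩
  rw [inv_inv, q₀_eq_mkQ, smul_mkQ, mul_one]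
  rfl

/-! ### Holomorphy of determinants and inverses -/

theorem mdiff_det {n : Type} [Fintype n] [DecidableEq n] (M : ℍ → Matrix n n ℂ)
    (h : ∀ i j, MDiff (fun z => M z i j)) : MDiff (fun z => (M z).det) := by
  have h1 : (fun z => (M z).det) = ∑ σ : Equiv.Perm n,
      (fun _ : ℍ => (((Equiv.Perm.sign σ : ℤˣ) : ℤ) : ℂ)) * ∏ i, (fun z => M z (σ i) i) := by
    funext z
    rw [Matrix.det_apply, Finset.sum_apply]
    refine Finset.sum_congr rfl fun σ _ => ?_
    rw [Pi.mul_apply, Finset.prod_apply, Units.smul_def, zsmul_eq_mul]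
  rw [h1]
  exact MDifferentiable.sum fun σ _ =>
    mdifferentiable_const.mul (MDifferentiable.prod fun i _ => h (σ i) i)

theorem mdiff_inv_apply {n : Type} [Fintype n] [DecidableEq n] (M : ℍ → Matrix n n ℂ)
    (h : ∀ i j, MDiff (fun z => M z i j)) (hdet : ∀ z, (M z).det ≠ 0) (a b : n) :
    MDiff (fun z => (M z)⁻¹ a b) := by
  have h1 : (fun z => (M z)⁻¹ a b)
      = fun z => ((M z).updateRow b (Pi.single a 1)).det / (M z).det := by
    funext z
    rw [Matrix.inv_def, Matrix.smul_apply, Matrix.adjugate_apply, Ring.inverse_eq_inv',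
      smul_eq_mul, div_eq_inv_mul]
  rw [h1]
  refine MDifferentiable.div (mdiff_det _ ?_) (mdiff_det _ h) hdet
  intro i j
  by_cases hi : i = b
  · subst hi
    simp only [Matrix.updateRow_self]
    exact mdifferentiable_const
  · simp only [Matrix.updateRow_ne hi]
    exact h i j

/-! ### Transformation of `Φ` and of `Ψ = Φ⁻¹` -/

section

variable {N : ℕ} [NeZero N] {d : Q N → ℤ} (F : ∀ j : Q N, ModularForm (Gamma0 N) (d j))

/-- The automorphy factor `c z + d`. -/
noncomputable def den (γ : SL(2, ℤ)) (z : ℍ) : ℂ :=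
  denom (Matrix.SpecialLinearGroup.toGL ((Matrix.SpecialLinearGroup.map (Int.castRingHom ℝ)) γ)) z

theorem den_ne_zero (γ : SL(2, ℤ)) (z : ℍ) : den γ z ≠ 0 := denom_ne_zero _ _

theorem slash_apply_den (k : ℤ) (f : ℍ → ℂ) (γ : SL(2, ℤ)) (z : ℍ) :
    (f ∣[k] γ) z = f (γ • z) * den γ z ^ (-k) := ModularForm.SL_slash_apply f γ z

theorem phiMat_apply (z : ℍ) (j q : Q N) : phiMat F z j q = conj (F j) q z := rfl

theorem mdiff_phiMat (j q : Q N) : MDiff (fun z => phiMat F z j q) :=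
  Fermat.Agent.S23.H30.mdiff_conj (F j) q

theorem phiMat_smul (γ : SL(2, ℤ)) (z : ℍ) (j q : Q N) :
    phiMat F (γ • z) j q = conj (F j) (γ⁻¹ • q) z * den γ z ^ (d j) := by
  have h := congrFun (conj_slash_SL (F j) q γ) z
  rw [slash_apply_den] at h
  rw [phiMat_apply, ← h, mul_assoc, ← zpow_add₀ (den_ne_zero γ z), neg_add_cancel, zpow_zero,
    mul_one]

theorem phiMat_inv_smul (hdet : ∀ z, (phiMat F z).det ≠ 0) (γ : SL(2, ℤ)) (z : ℍ)
    (q j : Q N) :
    (phiMat F (γ • z))⁻¹ q j = (phiMat F z)⁻¹ (γ⁻¹ • q) j * den γ z ^ (-(d j)) := by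
  have hinv : (phiMat F (γ • z))⁻¹
      = Matrix.of fun q j => (phiMat F z)⁻¹ (γ⁻¹ • q) j * den γ z ^ (-(d j)) := by
    apply Matrix.inv_eq_right_inv
    ext j j'
    rw [Matrix.mul_apply]
    have h1 : ∀ q : Q N, phiMat F (γ • z) j q *
        (Matrix.of fun q j => (phiMat F z)⁻¹ (γ⁻¹ • q) j * den γ z ^ (-(d j))) q j'
        = den γ z ^ d j * den γ z ^ (-(d j')) *
          (phiMat F z j (γ⁻¹ • q) * (phiMat F z)⁻¹ (γ⁻¹ • q) j') := by
      intro q
      rw [phiMat_smul, Matrix.of_apply, phiMat_apply]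
      ring
    have hs : ∑ q : Q N, phiMat F z j (γ⁻¹ • q) * (phiMat F z)⁻¹ (γ⁻¹ • q) j'
        = ∑ q : Q N, phiMat F z j q * (phiMat F z)⁻¹ q j' :=
      Equiv.sum_comp (MulAction.toPerm (γ⁻¹ : SL(2, ℤ)))
        (fun q => phiMat F z j q * (phiMat F z)⁻¹ q j')
    rw [Finset.sum_congr rfl fun q _ => h1 q, ← Finset.mul_sum, hs,
      ← Matrix.mul_apply, Matrix.mul_nonsing_inv _ (isUnit_iff_ne_zero.mpr (hdet z))]
    by_cases hjj : j = j'
    · subst hjj
      rw [← zpow_add₀ (den_ne_zero γ z), add_neg_cancel, zpow_zero, Matrix.one_apply_eq, mul_one]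
    · rw [Matrix.one_apply_ne hjj, mul_zero]
  rw [hinv, Matrix.of_apply]

/-- `Δ ∘ γ = (c z + d) ^ 12 Δ`. -/
theorem discriminant_smul (γ : SL(2, ℤ)) (z : ℍ) :
    discriminant (γ • z) = discriminant z * den γ z ^ (12 : ℤ) := by
  have h : (discriminant ∣[(12 : ℤ)] γ) = discriminant := by
    rw [ModularForm.SL_slash, ← CuspForm.coe_discriminant]
    exact SlashInvariantFormClass.slash_action_eq CuspForm.discriminant _ ⟨γ, rfl⟩
  have h2 := congrFun h z
  rw [slash_apply_den] at h2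
  rw [← h2, mul_assoc, ← zpow_add₀ (den_ne_zero γ z), neg_add_cancel, zpow_zero, mul_one]

/-- The entries of `Δ Ψ`. -/
noncomputable def dualFun (q j : Q N) : ℍ → ℂ :=
  fun z => discriminant z * (phiMat F z)⁻¹ q j

theorem mdiff_dualFun (hdet : ∀ z, (phiMat F z).det ≠ 0) (q j : Q N) :
    MDiff (dualFun F q j) := by
  have h1 : MDiff (fun z => (phiMat F z)⁻¹ q j) :=
    mdiff_inv_apply (phiMat F) (fun i j => mdiff_phiMat F i j) hdet q j
  have h2 : MDiff discriminant := by
    rw [← CuspForm.coe_discriminant]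
    exact CuspFormClass.holo CuspForm.discriminant
  exact h2.mul h1

theorem dualFun_slash (hdet : ∀ z, (phiMat F z).det ≠ 0) (q j : Q N) (γ : SL(2, ℤ)) :
    dualFun F q j ∣[12 - d j] γ = dualFun F (γ⁻¹ • q) j := by
  funext z
  rw [slash_apply_den]
  unfold dualFun
  rw [discriminant_smul, phiMat_inv_smul F hdet]
  have h : den γ z ^ (12 : ℤ) * den γ z ^ (-(d j)) * den γ z ^ (-(12 - d j)) = 1 := by
    rw [← zpow_add₀ (den_ne_zero γ z), ← zpow_add₀ (den_ne_zero γ z)]
    have : (12 : ℤ) + -(d j) + -(12 - d j) = 0 := by ring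
    rw [this, zpow_zero]
  calc discriminant z * den γ z ^ (12 : ℤ) * ((phiMat F z)⁻¹ (γ⁻¹ • q) j * den γ z ^ (-(d j)))
        * den γ z ^ (-(12 - d j))
      = discriminant z * (phiMat F z)⁻¹ (γ⁻¹ • q) j *
          (den γ z ^ (12 : ℤ) * den γ z ^ (-(d j)) * den γ z ^ (-(12 - d j))) := by ring
    _ = discriminant z * (phiMat F z)⁻¹ (γ⁻¹ • q) j := by rw [h, mul_one]

theorem isZeroAtImInfty_dualFun
    (hP : ∃ C Y : ℝ, ∀ z : ℍ, Y ≤ z.im → ∀ q j : Q N,
      ‖(phiMat F z)⁻¹ q j‖ ≤ C * Real.exp (2 * Real.pi * (1 - 1 / (N : ℝ)) * z.im))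
    (q j : Q N) : IsZeroAtImInfty (dualFun F q j) := by
  obtain ⟨C, Y, hCY⟩ := hP
  have hN : (0 : ℝ) < N := Nat.cast_pos.mpr (NeZero.pos N)
  have h1 : discriminant =O[atImInfty] fun τ : ℍ => Real.exp (-2 * Real.pi * τ.im / 1) := by
    rw [← CuspForm.coe_discriminant]
    exact CuspFormClass.exp_decay_atImInfty CuspForm.discriminant one_pos
      one_mem_strictPeriods_SL
  have h2 : (fun z : ℍ => (phiMat F z)⁻¹ q j) =O[atImInfty]
      fun τ : ℍ => Real.exp (2 * Real.pi * (1 - 1 / (N : ℝ)) * τ.im) := by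
    refine Asymptotics.IsBigO.of_bound C ?_
    rw [Filter.Eventually, atImInfty_mem]
    refine ⟨Y, fun z hz => ?_⟩
    show ‖(phiMat F z)⁻¹ q j‖ ≤ C * ‖Real.exp (2 * Real.pi * (1 - 1 / (N : ℝ)) * z.im)‖
    rw [Real.norm_eq_abs, abs_of_pos (Real.exp_pos _)]
    exact hCY z hz q j
  have h3 := h1.mul h2
  have h4 : Tendsto (fun τ : ℍ => Real.exp (-2 * Real.pi * τ.im / 1) *
      Real.exp (2 * Real.pi * (1 - 1 / (N : ℝ)) * τ.im)) atImInfty (𝓝 0) := by
    have h5 : (fun τ : ℍ => Real.exp (-2 * Real.pi * τ.im / 1) *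
        Real.exp (2 * Real.pi * (1 - 1 / (N : ℝ)) * τ.im))
        = fun τ : ℍ => Real.exp (-((2 * Real.pi / N) * τ.im)) := by
      funext τ
      rw [← Real.exp_add]
      congr 1
      field_simp
      ring
    rw [h5]
    have h6 : Tendsto (fun τ : ℍ => (2 * Real.pi / N) * τ.im) atImInfty atTop :=
      Filter.Tendsto.const_mul_atTop (by positivity) tendsto_comap
    exact Real.tendsto_exp_neg_atTop_nhds_zero.comp h6
  exact h3.trans_tendsto h4

omit [NeZero N] in
theorem smul_q₀_of_mem {γ : SL(2, ℤ)} (hγ : γ ∈ Gamma0 N) : γ⁻¹ • q₀ N = q₀ N := by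
  rw [q₀_eq_mkQ, smul_mkQ, mul_one, mkQ_eq_mkQ_iff, mul_one, ← map_inv, inv_inv,
    Subgroup.mem_subgroupOf]
  exact Subgroup.mem_map_of_mem _ hγ

/-- The dual basis elements `Δ Ψ_(q₀, j)` are cusp forms of weight `12 - d j`. -/
theorem exists_dual_cuspForm (hdet : ∀ z, (phiMat F z).det ≠ 0)
    (hP : ∃ C Y : ℝ, ∀ z : ℍ, Y ≤ z.im → ∀ q j : Q N,
      ‖(phiMat F z)⁻¹ q j‖ ≤ C * Real.exp (2 * Real.pi * (1 - 1 / (N : ℝ)) * z.im))
    (j : Q N) (w : ℤ) (hw : w = 12 - d j) :
    ∃ g : CuspForm (Gamma0 N) w, ∀ z, g z = dualFun F (q₀ N) j z := by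
  subst hw
  have hinv : ∀ γ ∈ (Gamma0 N : Subgroup (GL (Fin 2) ℝ)),
      dualFun F (q₀ N) j ∣[12 - d j] γ = dualFun F (q₀ N) j := by
    rintro γ ⟨γ', hγ', rfl⟩
    have h := dualFun_slash F hdet (q₀ N) j γ'
    rw [smul_q₀_of_mem hγ', ModularForm.SL_slash] at h
    exact h
  have hzero : ∀ {c : OnePoint ℝ}, IsCusp c (Gamma0 N : Subgroup (GL (Fin 2) ℝ)) →
      c.IsZeroAt (dualFun F (q₀ N) j) (12 - d j) := by
    intro c hc
    have hc' := (Subgroup.IsArithmetic.isCusp_iff_isCusp_SL2Z _).mp hc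
    rw [OnePoint.isZeroAt_iff_forall_SL2Z hc']
    intro γ _
    rw [dualFun_slash F hdet]
    exact isZeroAtImInfty_dualFun F hP _ j
  exact ⟨{ toFun := dualFun F (q₀ N) j
           slash_action_eq' := hinv
           holo' := mdiff_dualFun F hdet _ j
           zero_at_cusps' := hzero }, fun z => rfl⟩

/-- Cusp forms of weight `≤ 0` vanish. -/
theorem cuspForm_eq_zero_of_weight_nonpos {w : ℤ} (hw : w ≤ 0) (g : CuspForm (Gamma0 N) w) :
    ∀ z, g z = 0 := by
  rcases lt_or_eq_of_le hw with hw | hw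
  · intro z
    have h := ModularForm.isZero_of_neg_weight hw (CuspForm.toModularFormₗ g)
    rw [← CuspForm.toModularFormₗ_apply, h]
    rfl
  · subst hw
    obtain ⟨c, hc⟩ := ModularForm.eq_const_of_weight_zero (CuspForm.toModularFormₗ g)
    have hz : IsZeroAtImInfty (⇑g) := CuspFormClass.zero_at_infty g
    have hg : (⇑g : ℍ → ℂ) = Function.const ℍ c := by
      funext z
      rw [← CuspForm.toModularFormₗ_apply, hc]
    rw [hg] at hz
    have hc0 : c = 0 := tendsto_nhds_unique tendsto_const_nhds hz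
    intro z
    rw [hg, hc0]
    rfl

theorem dualFun_q₀_ne_zero (hdet : ∀ z, (phiMat F z).det ≠ 0) (j : Q N) :
    dualFun F (q₀ N) j ≠ 0 := by
  intro h0
  have hall : ∀ q : Q N, dualFun F q j = 0 := by
    intro q
    obtain ⟨γ, rfl⟩ := exists_smul_q₀ q
    rw [← dualFun_slash F hdet, h0]
    exact SlashAction.zero_slash _ _
  have hΨ : ∀ q : Q N, (phiMat F UpperHalfPlane.I)⁻¹ q j = 0 := by
    intro q
    have h := congrFun (hall q) UpperHalfPlane.I
    unfold dualFun at h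
    simpa [discriminant_ne_zero] using h
  have h1 := congrFun (congrFun (Matrix.mul_nonsing_inv _
    (isUnit_iff_ne_zero.mpr (hdet UpperHalfPlane.I))) j) j
  rw [Matrix.mul_apply, Matrix.one_apply_eq] at h1
  rw [Finset.sum_eq_zero (fun q _ => by rw [hΨ q, mul_zero])] at h1
  exact zero_ne_one h1

/-- The coefficients of a cusp form with respect to the dual basis. -/
theorem exists_dual_coeff (k : ℤ) (s : CuspForm (Gamma0 N) k) (j : Q N) (w : ℤ)
    (hw : w = k + d j - 12) :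
    ∃ a : ModularForm 𝒮ℒ w, ∀ z, discriminant z * a z
      = ∑ q : Q N, Fermat.Agent.S23.H30.conj s q z * conj (F j) q z := by
  subst hw
  let g : CuspForm (Gamma0 N : Subgroup (GL (Fin 2) ℝ)) (k + d j) := s.mulModularForm (F j)
  refine ⟨CuspForm.discriminantEquiv (CuspForm.trace 𝒮ℒ g), fun z => ?_⟩
  rw [ModularForm.discriminant_mul_discriminantEquiv_apply, CuspForm.coe_trace, Finset.sum_apply]
  have key : ∀ q : Q N, SlashInvariantForm.quotientFunc (ℋ := 𝒮ℒ) g q z =
      Fermat.Agent.S23.H30.conj s q z * conj (F j) q z := by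
    intro q
    induction q using Quotient.inductionOn with
    | _ r =>
      unfold conj Fermat.Agent.S23.H30.conj
      rw [SlashInvariantForm.quotientFunc_mk, SlashInvariantForm.quotientFunc_mk,
        SlashInvariantForm.quotientFunc_mk]
      have hg : (⇑g : ℍ → ℂ) = ⇑s * ⇑(F j) := CuspForm.coe_mulModularForm s (F j)
      rw [hg, ModularForm.mul_slash,
        Subgroup.HasDetPlusMinusOne.abs_det (inv_mem r.2), one_smul]
      rfl
  have hsum : ∀ (i1 i2 : Fintype (Q N)) (G : Q N → ℂ),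
      (@Finset.univ _ i1).sum G = (@Finset.univ _ i2).sum G := by
    intro i1 i2 G
    rw [Subsingleton.elim i1 i2]
  exact (hsum _ _ _).trans (Finset.sum_congr rfl fun q _ => key q)

/-- Expansion of a cusp form in the dual basis. -/
theorem cusp_expansion (hdet : ∀ z, (phiMat F z).det ≠ 0) (k : ℤ) (s : CuspForm (Gamma0 N) k)
    (a : Q N → ℍ → ℂ)
    (ha : ∀ j z, discriminant z * a j z
      = ∑ q : Q N, Fermat.Agent.S23.H30.conj s q z * conj (F j) q z) (z : ℍ) :
    s z = ∑ j, a j z * dualFun F (q₀ N) j z := by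
  have h1 : ∀ j, a j z * dualFun F (q₀ N) j z
      = ∑ q : Q N, Fermat.Agent.S23.H30.conj s q z *
          ((phiMat F z)⁻¹ (q₀ N) j * phiMat F z j q) := by
    intro j
    unfold dualFun
    rw [← mul_assoc, mul_comm (a j z), ha j z, Finset.sum_mul]
    refine Finset.sum_congr rfl fun q _ => ?_
    rw [phiMat_apply]
    ring
  rw [Finset.sum_congr rfl fun j _ => h1 j, Finset.sum_comm]
  have h2 : ∀ q : Q N, ∑ j, Fermat.Agent.S23.H30.conj s q z *
      ((phiMat F z)⁻¹ (q₀ N) j * phiMat F z j q)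
      = Fermat.Agent.S23.H30.conj s q z * (1 : Matrix (Q N) (Q N) ℂ) (q₀ N) q := by
    intro q
    rw [← Finset.mul_sum, ← Matrix.mul_apply,
      Matrix.nonsing_inv_mul _ (isUnit_iff_ne_zero.mpr (hdet z))]
  rw [Finset.sum_congr rfl fun q _ => h2 q]
  simp only [Matrix.one_apply, mul_ite, mul_one, mul_zero, Finset.sum_ite_eq, Finset.mem_univ,
    if_true]
  rw [Fermat.Agent.S23.H30.conj_q₀]

omit [NeZero N] in
theorem cuspForm_sum_smul_apply {ι : Type*} [Fintype ι] {k : ℤ} (c : ι → ℂ)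
    (v : ι → CuspForm (Gamma0 N) k) (z : ℍ) : (∑ i, c i • v i) z = ∑ i, c i * v i z := by
  let e : CuspForm (Gamma0 N) k →ₗ[ℂ] ℂ :=
    { toFun := fun g => g z, map_add' := fun _ _ => rfl, map_smul' := fun _ _ => rfl }
  exact map_sum e (fun i => c i • v i) Finset.univ

/-- A sum over all cosets of a function supported on the weight ten indices. -/
theorem sum_eq_sum_subtype (f : Q N → ℂ) (hf : ∀ j, d j ≠ 10 → f j = 0) :
    ∑ j, f j = ∑ j : {j : Q N // d j = 10}, f j := by
  classical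
  rw [← Finset.sum_subtype (Finset.univ.filter fun j => d j = 10) (by simp) f]
  refine (Finset.sum_filter_of_ne fun j _ hj => ?_).symm
  by_contra h
  exact hj (hf j h)

/-- The space of weight two cusp forms has dimension the number of generators of weight ten. -/
theorem finrank_cuspForm_two (hdet : ∀ z, (phiMat F z).det ≠ 0)
    (hP : ∃ C Y : ℝ, ∀ z : ℍ, Y ≤ z.im → ∀ q j : Q N,
      ‖(phiMat F z)⁻¹ q j‖ ≤ C * Real.exp (2 * Real.pi * (1 - 1 / (N : ℝ)) * z.im))
    (hd : ∀ j, d j ≤ 10) :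
    Module.finrank ℂ (CuspForm (Gamma0 N) 2) = (Finset.univ.filter fun j => d j = 10).card := by
  classical
  -- the dual basis elements of weight two
  have hex : ∀ j : {j : Q N // d j = 10}, ∃ g : CuspForm (Gamma0 N) 2,
      ∀ z, g z = dualFun F (q₀ N) j z := fun j =>
    exists_dual_cuspForm F hdet hP j 2 (by rw [j.2]; norm_num)
  choose v hv using hex
  -- linear independence
  have hli : LinearIndependent ℂ v := by
    rw [Fintype.linearIndependent_iff]
    intro c hc
    let c' : Q N → ℂ := fun j => if h : d j = 10 then c ⟨j, h⟩ else 0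
    have hc' : ∀ j : {j : Q N // d j = 10}, c' j = c j := fun j => by
      simp only [c', dif_pos j.2]
    have hc'0 : ∀ j, d j ≠ 10 → c' j = 0 := fun j hj => by simp only [c', dif_neg hj]
    have hz : ∀ z : ℍ, ∑ j : {j : Q N // d j = 10}, c j * dualFun F (q₀ N) j z = 0 := by
      intro z
      have h := congrArg (fun g : CuspForm (Gamma0 N) 2 => g z) hc
      simp only [cuspForm_sum_smul_apply] at h
      rw [show ((0 : CuspForm (Gamma0 N) 2) z) = 0 from rfl] at h
      rw [← h]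
      exact Finset.sum_congr rfl fun j _ => by rw [hv j z]
    have hΨ : ∀ (z : ℍ) (q : Q N), ∑ j, (phiMat F z)⁻¹ q j * c' j = 0 := by
      intro z q
      obtain ⟨γ, rfl⟩ := exists_smul_q₀ q
      have h1 := hz (γ • z)
      have h2 : ∀ j : {j : Q N // d j = 10}, c j * dualFun F (q₀ N) j (γ • z)
          = (discriminant (γ • z) * den γ z ^ (-(10 : ℤ))) *
            ((phiMat F z)⁻¹ (γ⁻¹ • q₀ N) j * c' j) := by
        intro j
        unfold dualFun
        rw [phiMat_inv_smul F hdet, j.2, hc' j]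
        ring
      rw [Finset.sum_congr rfl fun j _ => h2 j, ← Finset.mul_sum] at h1
      have h3 : discriminant (γ • z) * den γ z ^ (-(10 : ℤ)) ≠ 0 :=
        mul_ne_zero (discriminant_ne_zero _) (zpow_ne_zero _ (den_ne_zero γ z))
      have h4 := (mul_eq_zero.mp h1).resolve_left h3
      rw [sum_eq_sum_subtype (fun j => (phiMat F z)⁻¹ (γ⁻¹ • q₀ N) j * c' j)
        (fun j hj => by rw [hc'0 j hj, mul_zero])]
      exact h4
    have hc'z : c' = 0 := by
      have h5 : (phiMat F UpperHalfPlane.I)⁻¹.mulVec c' = 0 := by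
        funext q
        exact hΨ UpperHalfPlane.I q
      have h6 := congrArg (phiMat F UpperHalfPlane.I).mulVec h5
      rw [Matrix.mulVec_mulVec, Matrix.mul_nonsing_inv _
        (isUnit_iff_ne_zero.mpr (hdet UpperHalfPlane.I)), Matrix.one_mulVec,
        Matrix.mulVec_zero] at h6
      exact h6
    intro j
    rw [← hc' j, hc'z]
    rfl
  -- spanning
  have hsp : ⊤ ≤ Submodule.span ℂ (Set.range v) := by
    intro s _
    have hex : ∀ j : Q N, ∃ a : ModularForm 𝒮ℒ (d j - 10), ∀ z, discriminant z * a z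
        = ∑ q : Q N, Fermat.Agent.S23.H30.conj s q z * conj (F j) q z := fun j =>
      exists_dual_coeff F 2 s j (d j - 10) (by ring)
    choose a ha using hex
    -- the coefficients are constants, and vanish unless `d j = 10`
    have hconst : ∀ j : Q N, ∃ c : ℂ, (d j ≠ 10 → c = 0) ∧ ∀ z, a j z = c := by
      intro j
      by_cases hj : d j = 10
      · obtain ⟨c, hc⟩ := ModularFormClass.levelOne_weight_zero_const
          (ModularForm.mcast (show d j - 10 = 0 by rw [hj]; norm_num) (a j))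
        refine ⟨c, fun h => absurd hj h, fun z => ?_⟩
        have := congrFun hc z
        rwa [ModularForm.mcast_apply] at this
      · refine ⟨0, fun _ => rfl, fun z => ?_⟩
        have hlt : d j - 10 < 0 := by
          have := hd j
          omega
        have := ModularFormClass.levelOne_neg_weight_eq_zero hlt (a j)
        rw [this]
        rfl
    choose c hc0 hc using hconst
    rw [Submodule.mem_span_range_iff_exists_fun]
    refine ⟨fun j => c j, ?_⟩
    ext z
    rw [cuspForm_sum_smul_apply]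
    rw [cusp_expansion F hdet 2 s (fun j => ⇑(a j)) ha z,
      sum_eq_sum_subtype (fun j => a j z * dualFun F (q₀ N) j z)
        (fun j hj => by rw [hc j z, hc0 j hj, zero_mul])]
    exact Finset.sum_congr rfl fun j _ => by rw [hc (j : Q N) z, hv j z]
  have hcard := Module.finrank_eq_card_basis (Module.Basis.mk hli hsp)
  rw [hcard, Fintype.card_subtype]

end

/-- Block D of S20, from the Wronskian and cusp blocks. -/
theorem dualMain_of (N : ℕ) [NeZero N] (hW : WronMain N) (hP : PhiInvBound N)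
    (hB : BasicWeights N) : DualMain N := by
  intro d F hF
  have hdet : ∀ z, (phiMat F z).det ≠ 0 := (hW d F hF).1
  have hP' := hP d F hF
  have hB' := (hB d F hF).1
  have hd : ∀ j, d j ≤ 10 := by
    intro j
    by_contra hj
    obtain ⟨g, hg⟩ := exists_dual_cuspForm F hdet hP' j (12 - d j) rfl
    obtain ⟨m, hm⟩ := (hB' j).2
    have hg0 := cuspForm_eq_zero_of_weight_nonpos (N := N) (w := 12 - d j) (by omega) g
    exact dualFun_q₀_ne_zero F hdet j (funext fun z => by rw [← hg z, hg0 z]; rfl)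
  exact ⟨hd, finrank_cuspForm_two F hdet hP' hd⟩

end Fermat.Agent.S20.H30
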