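import Mathlib
import Fermat.Agent.S20.Defs_helper78

/-!
# S20, block E: elliptic points

At a fixed point `z₀` of `γ ∈ SL(2,ℤ)` the matrix of conjugates `Φ(z₀)` intertwines the
permutation matrix of `γ` on the cosets with the diagonal matrix `diag (denom γ z₀ ^ (-d_j))`.
Taking traces (when `Φ(z₀)` is invertible) counts the fixed cosets.
-/

set_option autoImplicit false

open UpperHalfPlane ModularForm CongruenceSubgroup SlashInvariantForm
open Matrix.SpecialLinearGroup
open scoped MatrixGroups ModularForm Manifold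

namespace Fermat.Agent.S20.H10

/-- Slashing a conjugate by `γ ∈ SL(2,ℤ)` permutes the cosets. -/
theorem conj_slash (N : ℕ) [NeZero N] (k : ℤ) (f : ModularForm (Gamma0 N) k) (γ : SL(2, ℤ))
    (q : Q N) : conj f q ∣[k] γ = conj f (γ⁻¹ • q) := by
  have hh : mapGL ℝ γ ∈ 𝒮ℒ := ⟨γ, rfl⟩
  have h1 := quotientFunc_smul (ℋ := 𝒮ℒ) f hh q
  refine h1.trans ?_
  show quotientFunc f _ = quotientFunc f ((mapGL ℝ).rangeRestrict γ⁻¹ • _)
  congr 2
  apply Subtype.ext
  simp

/-- Trace identity at a fixed point: the number of cosets fixed by `γ` is the sum of the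
multipliers `denom γ z₀ ^ (-d_j)`. -/
theorem card_fixed_eq_sum (N : ℕ) [NeZero N] (d : Q N → ℤ)
    (F : ∀ j : Q N, ModularForm (Gamma0 N) (d j)) (γ : SL(2, ℤ)) (z₀ : ℍ)
    (hfix : γ • z₀ = z₀) (hW : wron F z₀ ≠ 0) :
    ((Nat.card {q : Q N // γ • q = q} : ℕ) : ℂ) = ∑ j, (denom γ z₀) ^ (-(d j)) := by
  classical
  set Φ : Matrix (Q N) (Q N) ℂ := phiMat F z₀ with hΦ
  set u : ℂ := denom γ z₀ with hu
  have hdet : IsUnit Φ.det := isUnit_iff_ne_zero.mpr hW
  have key : ∀ j q, Φ j (γ⁻¹ • q) = u ^ (-(d j)) * Φ j q := by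
    intro j q
    have h := congrFun (conj_slash N (d j) (F j) γ q) z₀
    rw [SL_slash_apply, hfix] at h
    simp only [hΦ, phiMat, Matrix.of_apply]
    rw [← h, mul_comm]
  have h2 : (Matrix.of fun j q => Φ j (γ⁻¹ • q)) =
      Matrix.diagonal (fun j => u ^ (-(d j))) * Φ := by
    ext j q
    simp [Matrix.diagonal_mul, key]
  have h1 : Φ⁻¹ * (Matrix.of fun j q => Φ j (γ⁻¹ • q)) =
      Matrix.of (fun x q => if x = γ⁻¹ • q then (1 : ℂ) else 0) := by
    ext x q
    have h : ∑ j, Φ⁻¹ x j * Φ j (γ⁻¹ • q) = (Φ⁻¹ * Φ) x (γ⁻¹ • q) := by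
      simp [Matrix.mul_apply]
    simp only [Matrix.mul_apply, Matrix.of_apply]
    rw [h, Matrix.nonsing_inv_mul _ hdet, Matrix.one_apply]
  have h3 : Matrix.trace (Φ⁻¹ * (Matrix.diagonal (fun j => u ^ (-(d j))) * Φ)) =
      ∑ j, u ^ (-(d j)) := by
    rw [Matrix.trace_mul_comm, Matrix.mul_assoc, Matrix.mul_nonsing_inv _ hdet, Matrix.mul_one,
      Matrix.trace_diagonal]
  have h4 : Matrix.trace (Matrix.of (fun x q : Q N => if x = γ⁻¹ • q then (1 : ℂ) else 0)) =
      ((Nat.card {q : Q N // γ • q = q} : ℕ) : ℂ) := by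
    simp only [Matrix.trace, Matrix.diag_apply, Matrix.of_apply]
    rw [Finset.sum_boole, Nat.card_eq_fintype_card, Fintype.card_subtype]
    congr 2
    ext q
    simp only [Finset.mem_filter, Finset.mem_univ, true_and]
    constructor
    · intro h
      conv_lhs => rw [h]
      exact smul_inv_smul γ q
    · intro h
      conv_rhs => rw [← h]
      exact (inv_smul_smul γ q).symm
  rw [← h4, ← h1, h2, h3]

/-- `S` fixes `i`. -/
theorem S_smul_I : ModularGroup.S • UpperHalfPlane.I = UpperHalfPlane.I := by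
  rw [UpperHalfPlane.modular_S_smul]
  ext
  simp [Complex.inv_def, Complex.normSq_I]

/-- The matrix of `S * T`. -/
theorem coe_S_mul_T : ((ModularGroup.S * ModularGroup.T : SL(2, ℤ)) : Matrix (Fin 2) (Fin 2) ℤ)
    = !![0, -1; 1, 1] := by
  rw [Matrix.SpecialLinearGroup.coe_mul, ModularGroup.coe_S, ModularGroup.coe_T]
  ext i j; fin_cases i <;> fin_cases j <;> simp [Matrix.mul_apply, Fin.sum_univ_two]

/-- The point `ρ = e^{2πi/3}` of the upper half plane. -/
noncomputable def rho : ℍ :=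
  ⟨-1 / 2 + (Real.sqrt 3 / 2 : ℝ) * Complex.I, by
    simp only [Complex.add_im, Complex.mul_im, Complex.ofReal_re, Complex.I_im, Complex.ofReal_im,
      Complex.I_re]
    norm_num⟩

theorem coe_rho : ((rho : ℍ) : ℂ) = -1 / 2 + (Real.sqrt 3 / 2 : ℝ) * Complex.I := rfl

theorem sqrt_three_sq : ((Real.sqrt 3 : ℝ) : ℂ) ^ 2 = 3 := by
  rw [← Complex.ofReal_pow, Real.sq_sqrt (by norm_num : (0 : ℝ) ≤ 3)]
  norm_num

/-- `ρ² + ρ + 1 = 0`. -/
theorem rho_sq_add : ((rho : ℍ) : ℂ) ^ 2 + (rho : ℂ) + 1 = 0 := by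
  rw [coe_rho]
  push_cast
  linear_combination (1 / 4 : ℂ) * Complex.I ^ 2 * sqrt_three_sq + (3 / 4 : ℂ) * Complex.I_sq

/-- `S * T` fixes `ρ`. -/
theorem ST_smul_rho : (ModularGroup.S * ModularGroup.T : SL(2, ℤ)) • rho = rho := by
  apply UpperHalfPlane.ext
  rw [coe_specialLinearGroup_apply, coe_S_mul_T]
  have hne : ((rho : ℍ) : ℂ) + 1 ≠ 0 := by
    intro h
    have := rho_sq_add
    have h2 : ((rho : ℍ) : ℂ) = -1 := by linear_combination h
    rw [h2] at this
    norm_num at this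
  simp only [Matrix.of_apply, Matrix.cons_val', Matrix.cons_val_zero, Matrix.cons_val_one,
    Matrix.cons_val_fin_one, algebraMap_int_eq, Int.coe_castRingHom, Int.cast_zero, Int.cast_one,
    Int.cast_neg, Complex.ofReal_zero, Complex.ofReal_one, Complex.ofReal_neg, zero_mul, zero_add,
    one_mul]
  rw [div_eq_iff hne]
  linear_combination -rho_sq_add

/-- `e^{πi/3} = 1/2 + (√3/2) i`. -/
theorem exp_pi_div_three_eq :
    Complex.exp (Real.pi * Complex.I / 3) = 1 / 2 + (Real.sqrt 3 / 2 : ℝ) * Complex.I := by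
  have h : (Real.pi * Complex.I / 3 : ℂ) = ((Real.pi / 3 : ℝ) : ℂ) * Complex.I := by
    push_cast; ring
  rw [h, Complex.exp_mul_I, ← Complex.ofReal_cos, ← Complex.ofReal_sin, Real.cos_pi_div_three,
    Real.sin_pi_div_three]
  push_cast
  ring

/-- The multiplier of `S * T` at `ρ` is `e^{πi/3}`. -/
theorem denom_ST_rho :
    denom (ModularGroup.S * ModularGroup.T : SL(2, ℤ)) rho = Complex.exp (Real.pi * Complex.I / 3) := by
  rw [ModularGroup.denom_apply, coe_S_mul_T, exp_pi_div_three_eq, coe_rho]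
  simp only [Matrix.of_apply, Matrix.cons_val', Matrix.cons_val_zero, Matrix.cons_val_one,
    Matrix.cons_val_fin_one, Int.cast_one]
  push_cast
  ring

/-- **Block E.** Traces of the permutation matrices of `S` and `S T`. -/
theorem ellipticMain (N : ℕ) [NeZero N] : EllipticMain N := by
  intro d F _ hW
  refine ⟨?_, ?_⟩
  · have h := card_fixed_eq_sum N d F ModularGroup.S UpperHalfPlane.I S_smul_I (hW _)
    rw [ModularGroup.denom_S, UpperHalfPlane.coe_I] at h
    exact h
  · have h := card_fixed_eq_sum N d F (ModularGroup.S * ModularGroup.T) rho ST_smul_rho (hW _)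
    rw [denom_ST_rho] at h
    exact h

end Fermat.Agent.S20.H10
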