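import Mathlib
import Fermat.Agent.S20.Defs_helper78

/-!
# S20: final arithmetic (block 8)

From the interface statements of `Defs_helper78` we deduce the dimension formula.
-/

set_option autoImplicit false

namespace Fermat.Agent.S20

open UpperHalfPlane ModularForm CongruenceSubgroup
open scoped MatrixGroups ModularForm Manifold

section counting

variable {ι : Type*} [Fintype ι] [DecidableEq ι]

/-- Fibre counting: a sum of `g (d j)` over a family with values in a finite set `S`. -/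
theorem sum_comp_eq_of_mem {R : Type*} [AddCommMonoid R] (d : ι → ℤ) (S : Finset ℤ)
    (hS : ∀ j, d j ∈ S) (g : ℤ → R) :
    ∑ j, g (d j) = ∑ e ∈ S, (Finset.univ.filter fun j => d j = e).card • g e := by
  rw [Finset.sum_comp g d]
  refine Finset.sum_subset (fun e he => ?_) (fun e _ he => ?_)
  · obtain ⟨j, -, rfl⟩ := Finset.mem_image.mp he
    exact hS j
  · have : (Finset.univ.filter fun j => d j = e) = ∅ := by
      apply Finset.filter_eq_empty_iff.mpr
      intro j _ hj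
      exact he (Finset.mem_image.mpr ⟨j, Finset.mem_univ _, hj⟩)
    rw [this, Finset.card_empty, zero_smul]

end counting

/-- The sixth root of unity `ω = e^{π i / 3}`. -/
theorem exp_pi_div_three :
    Complex.exp (Real.pi * Complex.I / 3) = 1 / 2 + (Real.sqrt 3 / 2 : ℝ) * Complex.I := by
  have h : (Real.pi * Complex.I / 3 : ℂ) = ((Real.pi / 3 : ℝ) : ℂ) * Complex.I := by
    push_cast; ring
  rw [h, Complex.exp_mul_I, ← Complex.ofReal_cos, ← Complex.ofReal_sin, Real.cos_pi_div_three,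
    Real.sin_pi_div_three]
  push_cast
  ring

theorem omega_sq :
    Complex.exp (Real.pi * Complex.I / 3) ^ 2 = -1 / 2 + (Real.sqrt 3 / 2 : ℝ) * Complex.I := by
  rw [exp_pi_div_three]
  have h3 : ((Real.sqrt 3 : ℝ) : ℂ) ^ 2 = 3 := by
    rw [← Complex.ofReal_pow, Real.sq_sqrt (by norm_num : (0:ℝ) ≤ 3)]; norm_num
  push_cast
  linear_combination (1 / 4 : ℂ) * Complex.I ^ 2 * h3 + (3 / 4 : ℂ) * Complex.I_sq

theorem omega_cube : Complex.exp (Real.pi * Complex.I / 3) ^ 3 = -1 := by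
  rw [← Complex.exp_nat_mul]
  have : ((3 : ℕ) : ℂ) * (Real.pi * Complex.I / 3) = Real.pi * Complex.I := by push_cast; ring
  rw [this, Complex.exp_pi_mul_I]

theorem omega_ne_zero : Complex.exp (Real.pi * Complex.I / 3) ≠ 0 := Complex.exp_ne_zero _

/-- Values of `ω ^ (-e)` for `e ∈ {0,2,4,6,8,10}`. -/
theorem omega_zpow_neg (e : ℤ) (he : e ∈ ({0, 2, 4, 6, 8, 10} : Finset ℤ)) :
    Complex.exp (Real.pi * Complex.I / 3) ^ (-e) =
      if e = 0 ∨ e = 6 then 1
      else if e = 2 ∨ e = 8 then -1 / 2 - (Real.sqrt 3 / 2 : ℝ) * Complex.I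
      else -1 / 2 + (Real.sqrt 3 / 2 : ℝ) * Complex.I := by
  set ω := Complex.exp (Real.pi * Complex.I / 3) with hω
  have h0 : ω ≠ 0 := omega_ne_zero
  have h2 : ω ^ 2 = -1 / 2 + (Real.sqrt 3 / 2 : ℝ) * Complex.I := omega_sq
  have h3 : ω ^ 3 = -1 := omega_cube
  have h1 : ω = 1 / 2 + (Real.sqrt 3 / 2 : ℝ) * Complex.I := exp_pi_div_three
  have h6 : ω ^ 6 = 1 := by
    have : ω ^ 6 = (ω ^ 3) ^ 2 := by ring
    rw [this, h3]; norm_num
  have key : ∀ m : ℕ, ω ^ (-(m : ℤ)) * ω ^ m = 1 := by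
    intro m
    rw [zpow_neg, zpow_natCast, inv_mul_cancel₀ (pow_ne_zero _ h0)]
  have inv_eq : ∀ (m : ℕ) (x : ℂ), x * ω ^ m = 1 → ω ^ (-(m : ℤ)) = x := by
    intro m x hx
    have hm : ω ^ m ≠ 0 := pow_ne_zero _ h0
    apply mul_right_cancel₀ hm
    rw [key m, hx]
  simp only [Finset.mem_insert, Finset.mem_singleton] at he
  rcases he with rfl | rfl | rfl | rfl | rfl | rfl
  · simp
  · have : ω ^ (-((2 : ℕ) : ℤ)) = -1 / 2 - (Real.sqrt 3 / 2 : ℝ) * Complex.I := by
      apply inv_eq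
      have e4 : ω ^ 4 = -ω := by
        have : ω ^ 4 = ω ^ 3 * ω := by ring
        rw [this, h3]; ring
      have : (-1 / 2 - (Real.sqrt 3 / 2 : ℝ) * Complex.I) = ω ^ 4 := by
        rw [e4, h1]; ring
      rw [this, ← pow_add]; exact h6
    simpa using this
  · have : ω ^ (-((4 : ℕ) : ℤ)) = -1 / 2 + (Real.sqrt 3 / 2 : ℝ) * Complex.I := by
      apply inv_eq
      rw [← h2, ← pow_add]; exact h6
    simpa using this
  · have : ω ^ (-((6 : ℕ) : ℤ)) = 1 := by
      apply inv_eq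
      rw [one_mul]; exact h6
    simpa using this
  · have : ω ^ (-((8 : ℕ) : ℤ)) = -1 / 2 - (Real.sqrt 3 / 2 : ℝ) * Complex.I := by
      apply inv_eq
      have e4 : ω ^ 4 = -ω := by
        have : ω ^ 4 = ω ^ 3 * ω := by ring
        rw [this, h3]; ring
      have : (-1 / 2 - (Real.sqrt 3 / 2 : ℝ) * Complex.I) = ω ^ 4 := by
        rw [e4, h1]; ring
      rw [this, ← pow_add]
      have : ω ^ (4 + 8) = (ω ^ 6) ^ 2 := by ring
      rw [this, h6]; norm_num
    simpa using this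
  · have : ω ^ (-((10 : ℕ) : ℤ)) = -1 / 2 + (Real.sqrt 3 / 2 : ℝ) * Complex.I := by
      apply inv_eq
      rw [← h2, ← pow_add]
      have : ω ^ (2 + 10) = (ω ^ 6) ^ 2 := by ring
      rw [this, h6]; norm_num
    simpa using this

/-- Values of `i ^ (-e)` for `e ∈ {0,2,4,6,8,10}`. -/
theorem I_zpow_neg (e : ℤ) (he : e ∈ ({0, 2, 4, 6, 8, 10} : Finset ℤ)) :
    Complex.I ^ (-e) = if e = 0 ∨ e = 4 ∨ e = 8 then 1 else -1 := by
  have h4 : Complex.I ^ 4 = 1 := Complex.I_pow_four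
  have h2 : Complex.I ^ 2 = -1 := Complex.I_sq
  have key : ∀ (m : ℕ) (x : ℂ), x * Complex.I ^ m = 1 → Complex.I ^ (-(m : ℤ)) = x := by
    intro m x hx
    have hm : Complex.I ^ m ≠ 0 := pow_ne_zero _ Complex.I_ne_zero
    apply mul_right_cancel₀ hm
    rw [zpow_neg, zpow_natCast, inv_mul_cancel₀ hm, hx]
  simp only [Finset.mem_insert, Finset.mem_singleton] at he
  rcases he with rfl | rfl | rfl | rfl | rfl | rfl
  · simp
  · have : Complex.I ^ (-((2 : ℕ) : ℤ)) = -1 := key 2 (-1) (by rw [h2]; norm_num)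
    simpa using this
  · have : Complex.I ^ (-((4 : ℕ) : ℤ)) = 1 := key 4 1 (by rw [h4]; norm_num)
    simpa using this
  · have : Complex.I ^ (-((6 : ℕ) : ℤ)) = -1 :=
      key 6 (-1) (by
        have : Complex.I ^ 6 = Complex.I ^ 4 * Complex.I ^ 2 := by ring
        rw [this, h4, h2]; norm_num)
    simpa using this
  · have : Complex.I ^ (-((8 : ℕ) : ℤ)) = 1 :=
      key 8 1 (by
        have : Complex.I ^ 8 = (Complex.I ^ 4) ^ 2 := by ring
        rw [this, h4]; norm_num)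
    simpa using this
  · have : Complex.I ^ (-((10 : ℕ) : ℤ)) = -1 :=
      key 10 (-1) (by
        have : Complex.I ^ 10 = (Complex.I ^ 4) ^ 2 * Complex.I ^ 2 := by ring
        rw [this, h4, h2]; norm_num)
    simpa using this

/-- The purely arithmetic core: the counts `n e` of generators of weight `e` are determined. -/
theorem n10_eq (μ c ν₂ ν₃ : ℚ) (n0 n2 n4 n6 n8 n10 : ℚ)
    (h0 : n0 = 1)
    (hμ : n0 + n2 + n4 + n6 + n8 + n10 = μ)
    (hK : 2 * n2 + 4 * n4 + 6 * n6 + 8 * n8 + 10 * n10 = 6 * (μ - c))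
    (h2 : n0 - n2 + n4 - n6 + n8 - n10 = ν₂)
    (h3 : n0 + n6 - (n2 + n4 + n8 + n10) / 2 = ν₃)
    (h3' : n2 + n8 = n4 + n10) :
    n10 = 1 + μ / 12 - ν₂ / 4 - ν₃ / 3 - c / 2 := by
  linarith

end Fermat.Agent.S20

namespace Fermat.Agent.S20

open UpperHalfPlane ModularForm CongruenceSubgroup
open scoped MatrixGroups ModularForm Manifold

/-- Even integers in `[0, 10]`. -/
theorem mem_weights_of {e : ℤ} (h0 : 0 ≤ e) (h10 : e ≤ 10) (hev : Even e) :
    e ∈ ({0, 2, 4, 6, 8, 10} : Finset ℤ) := by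
  obtain ⟨r, hr⟩ := hev
  simp only [Finset.mem_insert, Finset.mem_singleton]
  omega

/-- Assembly of S20 from the interface statements. -/
theorem result_of (N : ℕ) [NeZero N]
    (hK1 : CardQ N) (hK2 : FixSCount N) (hK3 : FixSTCount N) (hK4 : OrbTCount N)
    (hF : FreeBasisExists N) (hB : BasicWeights N) (hW : WronMain N) (hD : DualMain N)
    (hE : EllipticMain N) :
    (Module.finrank ℂ (CuspForm (CongruenceSubgroup.Gamma0 N) 2) : ℚ)
      = ModularCurve.genusFormula N := by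
  classical
  obtain ⟨d, F, hFB⟩ := hF
  obtain ⟨hbasic, hn0⟩ := hB d F hFB
  obtain ⟨hWne, hWsum⟩ := hW d F hFB
  obtain ⟨hle, hfin⟩ := hD d F hFB
  obtain ⟨hS, hST⟩ := hE d F hFB hWne
  set S : Finset ℤ := {0, 2, 4, 6, 8, 10} with hSdef
  have hmem : ∀ j, d j ∈ S := fun j => mem_weights_of (hbasic j).1 (hle j) (hbasic j).2
  set n : ℤ → ℕ := fun e => (Finset.univ.filter fun j => d j = e).card with hn
  -- the four sums
  have hsum : ∀ {R : Type} [AddCommMonoid R] (g : ℤ → R),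
      ∑ j, g (d j) = n 0 • g 0 + (n 2 • g 2 + (n 4 • g 4 + (n 6 • g 6 + (n 8 • g 8
        + n 10 • g 10)))) := by
    intro R _ g
    rw [sum_comp_eq_of_mem d S hmem g, hSdef]
    simp only [Finset.sum_insert, Finset.mem_insert, Finset.mem_singleton, Finset.sum_singleton,
      hn]
    norm_num
  -- cardinality
  have e1 : (Fintype.card (Q N) : ℚ) = n 0 + n 2 + n 4 + n 6 + n 8 + n 10 := by
    have := hsum (R := ℚ) (fun _ => (1 : ℚ))
    simp only [Finset.sum_const, Finset.card_univ, nsmul_eq_mul, mul_one] at this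
    rw [this]; ring
  -- weights
  have e2 : ((∑ j, d j : ℤ) : ℚ) = 2 * n 2 + 4 * n 4 + 6 * n 6 + 8 * n 8 + 10 * n 10 := by
    have := hsum (R := ℚ) (fun e => (e : ℚ))
    simp only [nsmul_eq_mul] at this
    push_cast
    rw [this]; push_cast; ring
  -- S
  have e3 : (fixS N : ℂ) = n 0 - n 2 + n 4 - n 6 + n 8 - n 10 := by
    rw [hS, hsum (R := ℂ) (fun e => Complex.I ^ (-e))]
    simp only [nsmul_eq_mul]
    rw [I_zpow_neg 0 (by decide), I_zpow_neg 2 (by decide), I_zpow_neg 4 (by decide),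
      I_zpow_neg 6 (by decide), I_zpow_neg 8 (by decide), I_zpow_neg 10 (by decide)]
    norm_num
    ring
  -- S T
  have e4 : (fixST N : ℂ) = (n 0 + n 6 : ℂ)
      + (n 2 + n 8 : ℂ) * (-1 / 2 - (Real.sqrt 3 / 2 : ℝ) * Complex.I)
      + (n 4 + n 10 : ℂ) * (-1 / 2 + (Real.sqrt 3 / 2 : ℝ) * Complex.I) := by
    rw [hST, hsum (R := ℂ) (fun e => Complex.exp (Real.pi * Complex.I / 3) ^ (-e))]
    simp only [nsmul_eq_mul]
    rw [omega_zpow_neg 0 (by decide), omega_zpow_neg 2 (by decide), omega_zpow_neg 4 (by decide),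
      omega_zpow_neg 6 (by decide), omega_zpow_neg 8 (by decide), omega_zpow_neg 10 (by decide)]
    norm_num
    ring
  -- real forms
  have e3' : (fixS N : ℚ) = n 0 - n 2 + n 4 - n 6 + n 8 - n 10 := by
    have h := congrArg Complex.re e3
    simp at h
    have h' : ((fixS N : ℚ) : ℝ) = ((n 0 - n 2 + n 4 - n 6 + n 8 - n 10 : ℚ) : ℝ) := by
      push_cast; linarith
    exact_mod_cast h'
  have hsqrt : (0 : ℝ) < Real.sqrt 3 := Real.sqrt_pos.mpr (by norm_num)
  have e4re : (fixST N : ℝ) = (n 0 + n 6 : ℝ) - ((n 2 + n 8 : ℝ) + (n 4 + n 10 : ℝ)) / 2 := by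
    have h := congrArg Complex.re e4
    simp at h
    linarith
  have e4im : (n 2 + n 8 : ℝ) = (n 4 + n 10 : ℝ) := by
    have h := congrArg Complex.im e4
    simp at h
    nlinarith
  have e4' : (fixST N : ℚ) = (n 0 + n 6 : ℚ) - ((n 2 + n 8 : ℚ) + (n 4 + n 10 : ℚ)) / 2 := by
    have h' : ((fixST N : ℚ) : ℝ)
        = (((n 0 + n 6 : ℚ) - ((n 2 + n 8 : ℚ) + (n 4 + n 10 : ℚ)) / 2 : ℚ) : ℝ) := by
      push_cast; linarith
    exact_mod_cast h'
  have e4'' : (n 2 + n 8 : ℚ) = (n 4 + n 10 : ℚ) := by exact_mod_cast e4im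
  -- the Wronskian identity
  have hNpos : (0 : ℚ) < N := by exact_mod_cast Nat.pos_of_ne_zero (NeZero.ne N)
  have e5 : ((∑ j, d j : ℤ) : ℚ)
      = 6 * ((Fintype.card (Q N) : ℚ) - (ModularCurve.cuspCount N : ℚ)) := by
    have h := congrArg (fun x : ℤ => (x : ℚ)) hWsum
    rw [hK4] at h
    push_cast at h
    have h2 : (N : ℚ) * ((∑ j, d j : ℤ) : ℚ)
        = (N : ℚ) * (6 * ((Fintype.card (Q N) : ℚ) - (ModularCurve.cuspCount N : ℚ))) := by
      push_cast; linarith
    exact mul_left_cancel₀ hNpos.ne' h2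
  have hn0' : (n 0 : ℚ) = 1 := by
    have : n 0 = 1 := hn0
    exact_mod_cast this
  rw [hfin]
  unfold ModularCurve.genusFormula
  rw [← hK1, ← hK2, ← hK3]
  have := n10_eq (Fintype.card (Q N)) (ModularCurve.cuspCount N) (fixS N) (fixST N)
    (n 0) (n 2) (n 4) (n 6) (n 8) (n 10) hn0' e1.symm (by rw [← e5, e2]) e3'.symm
    (by rw [e4']; ring) e4''
  exact this

end Fermat.Agent.S20
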