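import Mathlib
import Fermat.Agent.S20.Defs_helper78

/-!
# S20, block W2: the Wronskian is zero-free and `∑ d_j = 6 (μ - c)`

From the ODE output `W ^ 12 = c₀ Δ ^ K` and the exact exponential order of `W` at `i∞`
we deduce `c₀ ≠ 0` (hence `W` has no zero) and `N * K = 6 (N μ - sumFixT N)`.
-/

set_option autoImplicit false

namespace Fermat.Agent.S20.H33

open UpperHalfPlane ModularForm CongruenceSubgroup Filter
open scoped MatrixGroups ModularForm Manifold Topology

/-- `‖exp (2π i z r)‖ = exp (-(2π r) Im z)` for real `r`. -/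
theorem norm_exp_two_pi_I_mul (r : ℝ) (z : ℍ) :
    ‖Complex.exp (2 * Real.pi * Complex.I * (z : ℂ) * (r : ℂ))‖
      = Real.exp (-(2 * Real.pi * r) * z.im) := by
  rw [Complex.norm_exp]
  congr 1
  have h : (2 * Real.pi * Complex.I * (z : ℂ) * (r : ℂ) : ℂ)
      = ((2 * Real.pi * r : ℝ) : ℂ) * (Complex.I * (z : ℂ)) := by
    push_cast; ring
  rw [h, Complex.re_ofReal_mul]
  simp [Complex.mul_re]

/-- `Im z → ∞` along `atImInfty`. -/
theorem tendsto_im_atImInfty : Tendsto (fun z : ℍ => z.im) atImInfty atTop :=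
  tendsto_comap

/-- If `exp (2π i z r)` (`r` real) has a finite nonzero limit at `i∞`, then `r = 0`. -/
theorem eq_zero_of_tendsto_exp (r : ℝ) (L : ℂ) (hL : L ≠ 0)
    (h : Tendsto (fun z : ℍ => Complex.exp (2 * Real.pi * Complex.I * (z : ℂ) * (r : ℂ)))
      atImInfty (𝓝 L)) : r = 0 := by
  by_contra hr
  have hnorm : Tendsto (fun z : ℍ => Real.exp (-(2 * Real.pi * r) * z.im)) atImInfty
      (𝓝 ‖L‖) :=
    h.norm.congr fun z => norm_exp_two_pi_I_mul r z
  rcases lt_or_gt_of_ne hr with hneg | hpos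
  · have hc : 0 < -(2 * Real.pi * r) := by
      have := Real.pi_pos
      nlinarith
    have h1 : Tendsto (fun z : ℍ => -(2 * Real.pi * r) * z.im) atImInfty atTop :=
      tendsto_im_atImInfty.const_mul_atTop hc
    have h2 : Tendsto (fun z : ℍ => Real.exp (-(2 * Real.pi * r) * z.im)) atImInfty atTop :=
      Real.tendsto_exp_atTop.comp h1
    exact not_tendsto_nhds_of_tendsto_atTop h2 _ hnorm
  · have hc : -(2 * Real.pi * r) < 0 := by
      have := Real.pi_pos
      nlinarith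
    have h1 : Tendsto (fun z : ℍ => -(2 * Real.pi * r) * z.im) atImInfty atBot :=
      tendsto_im_atImInfty.const_mul_atTop_of_neg hc
    have h2 : Tendsto (fun z : ℍ => Real.exp (-(2 * Real.pi * r) * z.im)) atImInfty (𝓝 0) :=
      Real.tendsto_exp_atBot.comp h1
    exact hL (norm_eq_zero.mp (tendsto_nhds_unique hnorm h2))

/-- Block W2: the Wronskian is zero-free and `N * ∑ d_j = 6 (N μ - sumFixT N)`. -/
theorem wronMain (N : ℕ) [NeZero N] (h1 : WronODE N) (h2 : WronAsymptotic N)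
    (hB : BasicWeights N)
    (hΔ : Tendsto (fun z : ℍ => ModularForm.discriminant z *
      Complex.exp (-(2 * Real.pi * Complex.I * (z : ℂ)))) atImInfty (𝓝 1)) : WronMain N := by
  intro d F hF
  obtain ⟨hd, -⟩ := hB d F hF
  have hd0 : ∀ j, 0 ≤ d j := fun j => (hd j).1
  obtain ⟨c₀, hc₀⟩ := h1 d F hF hd0
  obtain ⟨ℓ, hℓ, hW⟩ := h2 d F hF
  obtain ⟨K, hK⟩ : ∃ K : ℕ, K = (∑ j, d j).toNat := ⟨_, rfl⟩
  have hKsum : (K : ℤ) = ∑ j, d j := by
    rw [hK]
    exact Int.toNat_of_nonneg (Finset.sum_nonneg fun j _ => hd0 j)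
  rw [← hK] at hc₀
  -- the real exponent
  obtain ⟨e, he⟩ : ∃ e : ℝ, e = (((N * Fintype.card (Q N) : ℕ) : ℝ) - (sumFixT N : ℝ)) / (N : ℝ) :=
    ⟨_, rfl⟩
  have hexp : ∀ z : ℍ, (-(Real.pi * Complex.I * (z : ℂ) *
      (((N * Fintype.card (Q N) : ℕ) : ℂ) - (sumFixT N : ℂ)) / (N : ℂ)))
        = -(Real.pi * Complex.I * (z : ℂ) * (e : ℂ)) := by
    intro z
    rw [he]
    push_cast
    ring
  -- `W ^ 12 * exp (-12 π i z e) → ℓ ^ 12`
  have hW12 : Tendsto (fun z : ℍ => wron F z ^ 12 *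
      Complex.exp (-(12 * Real.pi * Complex.I * (z : ℂ) * (e : ℂ)))) atImInfty (𝓝 (ℓ ^ 12)) := by
    refine (hW.pow 12).congr fun z => ?_
    rw [mul_pow, ← Complex.exp_nat_mul, hexp]
    congr 2
    push_cast
    ring
  -- `(Δ * exp (-2 π i z)) ^ K → 1`
  have hΔK : Tendsto (fun z : ℍ => (ModularForm.discriminant z *
      Complex.exp (-(2 * Real.pi * Complex.I * (z : ℂ)))) ^ K) atImInfty (𝓝 1) := by
    simpa using hΔ.pow K
  have hid : ∀ z : ℍ, wron F z ^ 12 *
      Complex.exp (-(12 * Real.pi * Complex.I * (z : ℂ) * (e : ℂ)))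
        = c₀ * (ModularForm.discriminant z *
            Complex.exp (-(2 * Real.pi * Complex.I * (z : ℂ)))) ^ K *
          Complex.exp (2 * Real.pi * Complex.I * (z : ℂ) * (((K : ℝ) - 6 * e : ℝ) : ℂ)) := by
    intro z
    rw [hc₀ z, mul_pow, ← Complex.exp_nat_mul]
    have hsplit : Complex.exp (-(12 * Real.pi * Complex.I * (z : ℂ) * (e : ℂ)))
        = Complex.exp ((K : ℂ) * -(2 * Real.pi * Complex.I * (z : ℂ))) *
          Complex.exp (2 * Real.pi * Complex.I * (z : ℂ) * (((K : ℝ) - 6 * e : ℝ) : ℂ)) := by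
      rw [← Complex.exp_add]
      congr 1
      push_cast
      ring
    rw [hsplit]
    ring
  have hc₀ne : c₀ ≠ 0 := by
    rintro rfl
    have h0 : Tendsto (fun z : ℍ => wron F z ^ 12 *
        Complex.exp (-(12 * Real.pi * Complex.I * (z : ℂ) * (e : ℂ)))) atImInfty (𝓝 0) := by
      refine tendsto_const_nhds.congr fun z => ?_
      rw [hid z, zero_mul, zero_mul]
    exact pow_ne_zero 12 hℓ (tendsto_nhds_unique hW12 h0)
  -- hence `exp (2 π i z (K - 6 e)) → ℓ ^ 12 / c₀`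
  have hg : Tendsto (fun z : ℍ =>
      Complex.exp (2 * Real.pi * Complex.I * (z : ℂ) * (((K : ℝ) - 6 * e : ℝ) : ℂ)))
      atImInfty (𝓝 (ℓ ^ 12 / (c₀ * 1))) := by
    have hden : Tendsto (fun z : ℍ => c₀ * (ModularForm.discriminant z *
        Complex.exp (-(2 * Real.pi * Complex.I * (z : ℂ)))) ^ K) atImInfty (𝓝 (c₀ * 1)) :=
      hΔK.const_mul c₀
    refine (hW12.div hden (by simpa using hc₀ne)).congr fun z => ?_
    have hu : c₀ * (ModularForm.discriminant z *
        Complex.exp (-(2 * Real.pi * Complex.I * (z : ℂ)))) ^ K ≠ 0 :=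
      mul_ne_zero hc₀ne (pow_ne_zero _ (mul_ne_zero (ModularForm.discriminant_ne_zero z)
        (Complex.exp_ne_zero _)))
    simp only [Pi.div_apply]
    rw [hid z]
    exact mul_div_cancel_left₀ _ hu
  have hr : (K : ℝ) - 6 * e = 0 :=
    eq_zero_of_tendsto_exp _ _ (div_ne_zero (pow_ne_zero 12 hℓ) (by simpa using hc₀ne)) hg
  refine ⟨fun z hz => ?_, ?_⟩
  · have h0 := hc₀ z
    rw [hz, zero_pow (by norm_num)] at h0
    exact (mul_ne_zero hc₀ne (pow_ne_zero K (ModularForm.discriminant_ne_zero z))) h0.symm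
  · have hN : (N : ℝ) ≠ 0 := Nat.cast_ne_zero.mpr (NeZero.ne N)
    have h3 : (K : ℝ) * N = 6 * (((N * Fintype.card (Q N) : ℕ) : ℝ) - (sumFixT N : ℝ)) := by
      have hKe : (K : ℝ) = 6 * e := by linarith
      rw [hKe, he]
      field_simp
    rw [← hKsum]
    have h4 : (((N : ℤ) * (K : ℤ) : ℤ) : ℝ)
        = ((6 * ((N : ℤ) * (Fintype.card (Q N) : ℤ) - (sumFixT N : ℤ)) : ℤ) : ℝ) := by
      push_cast
      push_cast at h3
      linarith
    exact_mod_cast h4

end Fermat.Agent.S20.H33
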