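import Mathlib

/-!
# S20 helper: the Serre derivative preserves modular forms on `Γ₀(N)`

* `isBoundedAtImInfty_D`, `isZeroAtImInfty_D`: the normalized derivative `D = (2πi)⁻¹ d/dz`
  of a holomorphic function bounded (resp. zero) at `i∞` is bounded (resp. zero) at `i∞`
  (Cauchy estimate on a unit disc).
* `serreForm`, `serreLin`, `serreCuspForm`: the Serre derivative
  `ϑ_k f = D f - (k/12) E₂ f` as a map `M_k(Γ₀(N)) → M_{k+2}(Γ₀(N))`.
-/

set_option autoImplicit false

namespace Fermat.Agent.S20.H05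

open UpperHalfPlane ModularForm CongruenceSubgroup Filter Topology Derivative
open scoped MatrixGroups ModularForm Manifold Real

/-- Cauchy estimate: if `‖g‖ ≤ M` on `{A ≤ im}`, then `‖D g‖ ≤ M / (2π)` on `{max A 0 + 2 ≤ im}`. -/
theorem norm_D_le {g : ℍ → ℂ} (hg : MDiff g) {M A : ℝ} (hM : ∀ z : ℍ, A ≤ z.im → ‖g z‖ ≤ M)
    (z : ℍ) (hz : max A 0 + 2 ≤ z.im) : ‖D g z‖ ≤ M / (2 * π) := by
  have hg' : DifferentiableOn ℂ (g ∘ ofComplex) upperHalfPlaneSet :=
    UpperHalfPlane.mdifferentiable_iff.mp hg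
  have hsub : Metric.closedBall (z : ℂ) 1 ⊆ upperHalfPlaneSet := by
    intro w hw
    have h1 : |(w - (z : ℂ)).im| ≤ ‖w - (z : ℂ)‖ := Complex.abs_im_le_norm _
    have h2 : ‖w - (z : ℂ)‖ ≤ 1 := by simpa [dist_eq_norm] using hw
    have h3 := abs_le.mp (h1.trans h2)
    simp only [Complex.sub_im] at h3
    have hz' : (z : ℂ).im = z.im := rfl
    show 0 < w.im
    have := le_max_right A 0
    linarith [h3.1]
  have hd : DiffContOnCl ℂ (g ∘ ofComplex) (Metric.ball (z : ℂ) 1) :=
    hg'.diffContOnCl_ball hsub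
  have hC : ∀ w ∈ Metric.sphere (z : ℂ) 1, ‖(g ∘ ofComplex) w‖ ≤ M := by
    intro w hw
    have hwim : 0 < w.im := hsub (Metric.sphere_subset_closedBall hw)
    have h1 : |(w - (z : ℂ)).im| ≤ ‖w - (z : ℂ)‖ := Complex.abs_im_le_norm _
    have h2 : ‖w - (z : ℂ)‖ = 1 := by simpa [dist_eq_norm] using hw
    have h3 := abs_le.mp (h1.trans h2.le)
    simp only [Complex.sub_im] at h3
    have hz' : (z : ℂ).im = z.im := rfl
    rw [Function.comp_apply, ofComplex_apply_of_im_pos hwim]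
    apply hM
    show A ≤ w.im
    have := le_max_left A 0
    linarith [h3.1]
  have hcauchy := Complex.norm_deriv_le_of_forall_mem_sphere_norm_le one_pos hd hC
  rw [div_one] at hcauchy
  have hpi : (0 : ℝ) < 2 * π := by positivity
  rw [normalizedDerivOfComplex, norm_mul, norm_inv]
  have h2pi : ‖(2 * (π : ℂ) * Complex.I)‖ = 2 * π := by
    simp [abs_of_pos Real.pi_pos]
  rw [h2pi, div_eq_inv_mul]
  exact mul_le_mul_of_nonneg_left hcauchy (inv_nonneg.mpr hpi.le)

/-- The normalized derivative of a holomorphic function bounded at `i∞` is bounded at `i∞`. -/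
theorem isBoundedAtImInfty_D {g : ℍ → ℂ} (hg : MDiff g) (hb : IsBoundedAtImInfty g) :
    IsBoundedAtImInfty (D g) := by
  rw [UpperHalfPlane.isBoundedAtImInfty_iff] at hb ⊢
  obtain ⟨M, A, hM⟩ := hb
  exact ⟨M / (2 * π), max A 0 + 2, fun z hz => norm_D_le hg hM z hz⟩

/-- The normalized derivative of a holomorphic function vanishing at `i∞` vanishes at `i∞`. -/
theorem isZeroAtImInfty_D {g : ℍ → ℂ} (hg : MDiff g) (hb : IsZeroAtImInfty g) :
    IsZeroAtImInfty (D g) := by
  rw [UpperHalfPlane.isZeroAtImInfty_iff] at hb ⊢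
  intro ε hε
  obtain ⟨A, hA⟩ := hb ε hε
  refine ⟨max A 0 + 2, fun z hz => ?_⟩
  have h := norm_D_le hg hA z hz
  have hpi : (1 : ℝ) ≤ 2 * π := by nlinarith [Real.pi_gt_three]
  calc ‖D g z‖ ≤ ε / (2 * π) := h
    _ ≤ ε := div_le_self hε.le hpi

/-- The Serre derivative of a holomorphic function bounded at `i∞` is bounded at `i∞`. -/
theorem isBoundedAtImInfty_serreDerivative (k : ℂ) {g : ℍ → ℂ} (hg : MDiff g)
    (hb : IsBoundedAtImInfty g) : IsBoundedAtImInfty (serreDerivative k g) := by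
  have h1 := isBoundedAtImInfty_D hg hb
  have h2 : IsBoundedAtImInfty (fun z => k * 12⁻¹ * EisensteinSeries.E2 z * g z) := by
    have h3 : IsBoundedAtImInfty (EisensteinSeries.E2 * g) :=
      EisensteinSeries.isBoundedAtImInfty_E2.mul hb
    have h4 : IsBoundedAtImInfty ((k * 12⁻¹) • (EisensteinSeries.E2 * g)) := h3.smul (k * 12⁻¹)
    convert h4 using 1
    funext z
    simp [mul_assoc]
  rw [serreDerivative_eq]
  exact h1.sub h2

/-- The Serre derivative of a holomorphic function vanishing at `i∞` vanishes at `i∞`. -/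
theorem isZeroAtImInfty_serreDerivative (k : ℂ) {g : ℍ → ℂ} (hg : MDiff g)
    (hb : IsZeroAtImInfty g) : IsZeroAtImInfty (serreDerivative k g) := by
  have h1 : Tendsto (D g) atImInfty (𝓝 0) := isZeroAtImInfty_D hg hb
  have h3 : Tendsto (EisensteinSeries.E2 * g) atImInfty (𝓝 0) :=
    Filter.BoundedAtFilter.mul_zeroAtFilter EisensteinSeries.isBoundedAtImInfty_E2 hb
  have h2 : Tendsto (fun z => k * 12⁻¹ * EisensteinSeries.E2 z * g z) atImInfty (𝓝 0) := by
    have h4 := h3.const_mul (k * 12⁻¹)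
    rw [mul_zero] at h4
    refine h4.congr fun z => ?_
    simp [mul_assoc]
  rw [serreDerivative_eq]
  have h5 := h1.sub h2
  rw [sub_zero] at h5
  exact h5

/-! ### The Serre derivative of a modular form -/

section general

variable {Γ : Subgroup (GL (Fin 2) ℝ)} [Γ.IsArithmetic] {k : ℤ}

/-- The Serre derivative `ϑ_k f` of a modular form of weight `k` on an arithmetic subgroup
`Γ ≤ SL(2,ℤ)`, as a modular form of weight `k + 2`. -/
noncomputable def serreFormOf (hΓ : Γ ≤ 𝒮ℒ) (f : ModularForm Γ k) : ModularForm Γ (k + 2) where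
  toFun := serreDerivative k f
  slash_action_eq' γ hγ := by
    obtain ⟨γ', rfl⟩ := hΓ hγ
    exact serreDerivative_slash_invariant (ModularFormClass.holo f)
      (SlashInvariantFormClass.slash_action_eq f _ hγ)
  holo' := serreDerivative_mdifferentiable k (ModularFormClass.holo f)
  bdd_at_cusps' {c} hc := by
    rw [Subgroup.IsArithmetic.isCusp_iff_isCusp_SL2Z] at hc
    rw [OnePoint.isBoundedAt_iff_forall_SL2Z hc]
    intro γ _
    show IsBoundedAtImInfty (serreDerivative (k : ℂ) ⇑f ∣[k + 2] γ)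
    rw [serreDerivative_slash_equivariant (ModularFormClass.holo f)]
    exact isBoundedAtImInfty_serreDerivative k ((ModularFormClass.holo f).slash k _)
      (ModularFormClass.bdd_at_infty_slash f γ)

theorem coe_serreFormOf (hΓ : Γ ≤ 𝒮ℒ) (f : ModularForm Γ k) :
    ⇑(serreFormOf hΓ f) = serreDerivative k ⇑f := rfl

theorem serreFormOf_apply (hΓ : Γ ≤ 𝒮ℒ) (f : ModularForm Γ k) (z : ℍ) :
    serreFormOf hΓ f z = D ⇑f z - k * 12⁻¹ * EisensteinSeries.E2 z * f z := rfl

/-- The Serre derivative of a cusp form, as a cusp form of weight `k + 2`. -/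
noncomputable def serreCuspFormOf (hΓ : Γ ≤ 𝒮ℒ) (f : CuspForm Γ k) : CuspForm Γ (k + 2) where
  toFun := serreDerivative k f
  slash_action_eq' γ hγ := by
    obtain ⟨γ', rfl⟩ := hΓ hγ
    exact serreDerivative_slash_invariant (CuspFormClass.holo f)
      (SlashInvariantFormClass.slash_action_eq f _ hγ)
  holo' := serreDerivative_mdifferentiable k (CuspFormClass.holo f)
  zero_at_cusps' {c} hc := by
    rw [Subgroup.IsArithmetic.isCusp_iff_isCusp_SL2Z] at hc
    rw [OnePoint.isZeroAt_iff_forall_SL2Z hc]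
    intro γ _
    show IsZeroAtImInfty (serreDerivative (k : ℂ) ⇑f ∣[k + 2] γ)
    rw [serreDerivative_slash_equivariant (CuspFormClass.holo f)]
    exact isZeroAtImInfty_serreDerivative k ((CuspFormClass.holo f).slash k _)
      (CuspFormClass.zero_at_infty_slash f γ)

theorem coe_serreCuspFormOf (hΓ : Γ ≤ 𝒮ℒ) (f : CuspForm Γ k) :
    ⇑(serreCuspFormOf hΓ f) = serreDerivative k ⇑f := rfl

end general

/-- `Γ₀(N)` (inside `GL₂(ℝ)`) is contained in the image of `SL(2,ℤ)`. -/
theorem Gamma0_le_SL (N : ℕ) : ((Gamma0 N : Subgroup SL(2, ℤ)) : Subgroup (GL (Fin 2) ℝ)) ≤ 𝒮ℒ := by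
  rintro _ ⟨γ, _, rfl⟩
  exact ⟨γ, rfl⟩

/-- The Serre derivative `M_k(Γ₀(N)) → M_{k+2}(Γ₀(N))`. -/
noncomputable def serreForm (N : ℕ) [NeZero N] (k : ℤ) (f : ModularForm (Gamma0 N) k) :
    ModularForm (Gamma0 N) (k + 2) :=
  serreFormOf (Gamma0_le_SL N) f

theorem coe_serreForm (N : ℕ) [NeZero N] (k : ℤ) (f : ModularForm (Gamma0 N) k) :
    ⇑(serreForm N k f) = serreDerivative k ⇑f := rfl

theorem serreForm_apply (N : ℕ) [NeZero N] (k : ℤ) (f : ModularForm (Gamma0 N) k) (z : ℍ) :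
    serreForm N k f z = D ⇑f z - k * 12⁻¹ * EisensteinSeries.E2 z * f z := rfl

/-- The Serre derivative `S_k(Γ₀(N)) → S_{k+2}(Γ₀(N))`. -/
noncomputable def serreCuspForm (N : ℕ) [NeZero N] (k : ℤ) (f : CuspForm (Gamma0 N) k) :
    CuspForm (Gamma0 N) (k + 2) :=
  serreCuspFormOf (Gamma0_le_SL N) f

theorem coe_serreCuspForm (N : ℕ) [NeZero N] (k : ℤ) (f : CuspForm (Gamma0 N) k) :
    ⇑(serreCuspForm N k f) = serreDerivative k ⇑f := rfl

/-- The Serre derivative on level one forms. -/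
noncomputable def serreFormLevelOne (k : ℤ) (f : ModularForm 𝒮ℒ k) : ModularForm 𝒮ℒ (k + 2) :=
  serreFormOf le_rfl f

theorem coe_serreFormLevelOne (k : ℤ) (f : ModularForm 𝒮ℒ k) :
    ⇑(serreFormLevelOne k f) = serreDerivative k ⇑f := rfl

/-- The Serre derivative as a `ℂ`-linear map `M_k(Γ₀(N)) → M_{k+2}(Γ₀(N))`. -/
noncomputable def serreLin (N : ℕ) [NeZero N] (k : ℤ) :
    ModularForm (Gamma0 N) k →ₗ[ℂ] ModularForm (Gamma0 N) (k + 2) where
  toFun := serreForm N k
  map_add' f g := by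
    apply DFunLike.coe_injective
    rw [coe_serreForm]
    show serreDerivative (k : ℂ) (⇑f + ⇑g) = serreDerivative (k : ℂ) ⇑f + serreDerivative (k : ℂ) ⇑g
    exact serreDerivative_add k f g (ModularFormClass.holo f) (ModularFormClass.holo g)
  map_smul' c f := by
    apply DFunLike.coe_injective
    rw [coe_serreForm]
    show serreDerivative (k : ℂ) (c • ⇑f) = c • serreDerivative (k : ℂ) ⇑f
    exact serreDerivative_smul k c f (ModularFormClass.holo f)

theorem serreLin_apply (N : ℕ) [NeZero N] (k : ℤ) (f : ModularForm (Gamma0 N) k) :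
    serreLin N k f = serreForm N k f := rfl

/-- `D` of a slash translate: `D (f ∣[k] γ) = (ϑ_k f) ∣[k+2] γ + (k/12) E₂ (f ∣[k] γ)`. -/
theorem D_slash_eq (k : ℤ) {f : ℍ → ℂ} (hf : MDiff f) (γ : SL(2, ℤ)) (z : ℍ) :
    D (f ∣[k] γ) z =
      (serreDerivative k f ∣[k + 2] γ) z + k * 12⁻¹ * EisensteinSeries.E2 z * (f ∣[k] γ) z := by
  rw [serreDerivative_slash_equivariant hf, serreDerivative_apply]
  ring

end Fermat.Agent.S20.H05
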