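import Mathlib

set_option autoImplicit false

namespace Fermat.Agent.S20.H73

open UpperHalfPlane hiding I
open Real Complex Derivative EisensteinSeries
open scoped Manifold MatrixGroups ModularForm Topology

section det

variable {ι : Type*} [Fintype ι] [DecidableEq ι]

/-- Transposed Leibniz formula. -/
theorem det_eq_sum_perm (A : Matrix ι ι ℂ) :
    A.det = ∑ σ : Equiv.Perm ι, (Equiv.Perm.sign σ : ℂ) * ∏ i, A i (σ i) := by
  rw [← Matrix.det_transpose, Matrix.det_apply']
  rfl

/-- Derivative of a determinant of differentiable functions (row version of Jacobi's formula). -/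
theorem hasDerivAt_det (M : ι → ι → ℂ → ℂ) (M' : ι → ι → ℂ) (w : ℂ)
    (h : ∀ i j, HasDerivAt (M i j) (M' i j) w) :
    HasDerivAt (fun x => Matrix.det (Matrix.of fun i j => M i j x))
      (∑ j, Matrix.det ((Matrix.of fun i k => M i k w).updateRow j (M' j))) w := by
  simp only [det_eq_sum_perm]
  have h1 : ∀ σ : Equiv.Perm ι,
      HasDerivAt (fun x => (Equiv.Perm.sign σ : ℂ) * ∏ i, M i (σ i) x)
        ((Equiv.Perm.sign σ : ℂ) *
          ∑ j, (∏ i ∈ Finset.univ.erase j, M i (σ i) w) * M' j (σ j)) w := by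
    intro σ
    have := HasDerivAt.fun_finsetProd (u := Finset.univ) (f := fun i => M i (σ i))
      (f' := fun i => M' i (σ i)) (x := w) (fun i _ => h i (σ i))
    simpa [smul_eq_mul] using this.const_mul (Equiv.Perm.sign σ : ℂ)
  have h2 := HasDerivAt.fun_sum (u := Finset.univ) (fun σ _ => h1 σ)
  refine h2.congr_deriv ?_
  symm
  rw [Finset.sum_comm]
  refine Finset.sum_congr rfl fun σ _ => ?_
  rw [Finset.mul_sum]
  refine Finset.sum_congr rfl fun j _ => ?_
  congr 1
  rw [← Finset.prod_erase_mul _ _ (Finset.mem_univ j)]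
  congr 1
  · refine Finset.prod_congr rfl fun i hi => ?_
    rw [Matrix.updateRow_ne (Finset.ne_of_mem_erase hi)]
    rfl
  · rw [Matrix.updateRow_self]

end det

section ode

variable {ι : Type*} [Fintype ι] [DecidableEq ι]

/-- The determinant of a matrix of holomorphic functions is holomorphic. -/
theorem mdifferentiable_det (Φ : ι → ι → ℍ → ℂ) (hΦ : ∀ j x, MDiff (Φ j x)) :
    MDiff (fun z : ℍ => Matrix.det (Matrix.of fun j x => Φ j x z)) := by
  rw [UpperHalfPlane.mdifferentiable_iff]
  intro w hw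
  have h := hasDerivAt_det (fun j x => Φ j x ∘ ofComplex)
    (fun j x => deriv (Φ j x ∘ ofComplex) w) w
    (fun j x => (UpperHalfPlane.mdifferentiableAt_iff.mp (hΦ j x ⟨w, hw⟩)).hasDerivAt)
  exact h.differentiableAt.differentiableWithinAt

/-- **Wronskian ODE.** If the rows of a matrix `Φ` of holomorphic functions satisfy
`∂_{d j} Φ_j = ∑ i, a j i • Φ_i` with `a j j = 0`, then `W = det Φ` satisfies
`D W = (∑ j, d j) / 12 * E₂ * W`. -/
theorem D_det_eq (Φ : ι → ι → ℍ → ℂ) (hΦ : ∀ j x, MDiff (Φ j x)) (d : ι → ℂ)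
    (a : ι → ι → ℍ → ℂ)
    (hθ : ∀ j x z, serreDerivative (d j) (Φ j x) z = ∑ i, a j i z * Φ i x z)
    (ha : ∀ j z, a j j z = 0) (z : ℍ) :
    D (fun z : ℍ => Matrix.det (Matrix.of fun j x => Φ j x z)) z =
      (∑ j, d j) * 12⁻¹ * E2 z * Matrix.det (Matrix.of fun j x => Φ j x z) := by
  have h := hasDerivAt_det (fun j x => Φ j x ∘ ofComplex)
    (fun j x => deriv (Φ j x ∘ ofComplex) z) z
    (fun j x => (UpperHalfPlane.mdifferentiableAt_iff.mp (hΦ j x z)).hasDerivAt)
  have hpi : (2 * π * I : ℂ) ≠ 0 := by simp [Real.pi_ne_zero]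
  -- the derivative rows as linear combinations of the rows
  have hrow : ∀ j, (fun x => deriv (Φ j x ∘ ofComplex) z) =
      ∑ k, ((2 * π * I) * (a j k z + if k = j then d j * 12⁻¹ * E2 z else 0)) •
        (Matrix.of fun i k => (Φ i k ∘ ofComplex) (z : ℂ)) k := by
    intro j
    funext x
    have h1 := hθ j x z
    rw [serreDerivative_apply, normalizedDerivOfComplex] at h1
    have h2 : deriv (Φ j x ∘ ofComplex) z =
        (2 * π * I) * (∑ i, a j i z * Φ i x z + d j * 12⁻¹ * E2 z * Φ j x z) := by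
      have : (2 * π * I)⁻¹ * deriv (Φ j x ∘ ofComplex) z =
          ∑ i, a j i z * Φ i x z + d j * 12⁻¹ * E2 z * Φ j x z := by
        rw [← h1]; ring
      rw [← this, ← mul_assoc, mul_inv_cancel₀ hpi, one_mul]
    rw [h2, Finset.sum_apply, mul_add, Finset.mul_sum]
    simp only [Pi.smul_apply, Matrix.of_apply, Function.comp_apply, ofComplex_apply, smul_eq_mul,
      mul_add, add_mul, Finset.sum_add_distrib, mul_ite, ite_mul, mul_zero, zero_mul,
      Finset.sum_ite_eq', Finset.mem_univ, if_true]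
    congr 1
    · refine Finset.sum_congr rfl fun i _ => ?_
      ring
    · ring
  have hdet : ∀ j, Matrix.det ((Matrix.of fun i k => (Φ i k ∘ ofComplex) (z : ℂ)).updateRow j
      (fun x => deriv (Φ j x ∘ ofComplex) z)) =
      (2 * π * I) * (d j * 12⁻¹ * E2 z) *
        Matrix.det (Matrix.of fun i k => (Φ i k ∘ ofComplex) (z : ℂ)) := by
    intro j
    rw [hrow j, Matrix.det_updateRow_sum]
    simp [ha j z]
  have hW : (fun z : ℍ => Matrix.det (Matrix.of fun j x => Φ j x z)) ∘ ofComplex =
      fun w => Matrix.det (Matrix.of fun j x => (Φ j x ∘ ofComplex) w) := rfl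
  rw [normalizedDerivOfComplex, hW, h.deriv]
  simp only [hdet]
  have hz : (Matrix.of fun i k => (Φ i k ∘ ofComplex) (z : ℂ)) = Matrix.of fun j x => Φ j x z := by
    ext i k
    simp
  rw [hz, ← Finset.sum_mul, ← Finset.mul_sum, ← Finset.sum_mul, ← Finset.sum_mul]
  field_simp

end ode

section discriminant

open ModularForm

/-- `D Δ = E₂ Δ`. -/
theorem D_discriminant (z : ℍ) :
    D ModularForm.discriminant z = E2 z * ModularForm.discriminant z := by
  have hz : (z : ℂ) ∈ upperHalfPlaneSet := z.im_pos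
  have hη : HasDerivAt ModularForm.eta (logDeriv ModularForm.eta z * ModularForm.eta z) z := by
    have h1 := (differentiableAt_eta_of_mem_upperHalfPlaneSet hz).hasDerivAt
    have h2 : deriv ModularForm.eta z = logDeriv ModularForm.eta z * ModularForm.eta z := by
      rw [logDeriv_apply, div_mul_cancel₀ _ (eta_ne_zero hz)]
    rwa [h2] at h1
  have hpow := hη.pow 24
  have hev : (ModularForm.discriminant ∘ ofComplex) =ᶠ[𝓝 (z : ℂ)]
      fun w => ModularForm.eta w ^ 24 := by
    filter_upwards [isOpen_upperHalfPlaneSet.mem_nhds hz] with w hw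
    simp [ModularForm.discriminant, ofComplex_apply_of_im_pos hw]
  have hΔ := hpow.congr_of_eventuallyEq hev
  have hpi : (2 * π * I : ℂ) ≠ 0 := by simp [Real.pi_ne_zero]
  rw [normalizedDerivOfComplex, hΔ.deriv, logDeriv_eta_eq_E2 z, ModularForm.discriminant]
  field_simp
  ring

end discriminant

section const

open ModularForm

/-- **Solving the Wronskian ODE.** A holomorphic `W` with `D W = K / 12 * E₂ * W` satisfies
`W ^ 12 = c₀ * Δ ^ K` for a constant `c₀`. -/
theorem pow_twelve_eq_const_mul_discriminant_zpow (W : ℍ → ℂ) (hW : MDiff W) (K : ℤ)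
    (hD : ∀ z, D W z = (K : ℂ) * 12⁻¹ * E2 z * W z) :
    ∃ c₀ : ℂ, ∀ z : ℍ, W z ^ 12 = c₀ * ModularForm.discriminant z ^ K := by
  have hpi : (2 * π * I : ℂ) ≠ 0 := by simp [Real.pi_ne_zero]
  -- derivative of `W`
  have hWd : ∀ z : ℍ, HasDerivAt (W ∘ ofComplex)
      ((2 * π * I) * ((K : ℂ) * 12⁻¹ * E2 z * W z)) z := by
    intro z
    have h1 := (UpperHalfPlane.mdifferentiableAt_iff.mp (hW z)).hasDerivAt
    have h2 : deriv (W ∘ ofComplex) z = (2 * π * I) * ((K : ℂ) * 12⁻¹ * E2 z * W z) := by
      rw [← hD z, normalizedDerivOfComplex, ← mul_assoc, mul_inv_cancel₀ hpi, one_mul]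
    rwa [h2] at h1
  -- derivative of `Δ`
  have hΔd : ∀ z : ℍ, HasDerivAt (ModularForm.discriminant ∘ ofComplex)
      ((2 * π * I) * (E2 z * ModularForm.discriminant z)) z := by
    intro z
    have h1 := (UpperHalfPlane.mdifferentiableAt_iff.mp
      (CuspForm.discriminant.holo' z)).hasDerivAt
    have h2 : deriv (ModularForm.discriminant ∘ ofComplex) z =
        (2 * π * I) * (E2 z * ModularForm.discriminant z) := by
      rw [← D_discriminant z, normalizedDerivOfComplex, ← mul_assoc, mul_inv_cancel₀ hpi,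
        one_mul]
    rw [← h2]
    exact h1
  -- the quotient has zero derivative
  let G : ℂ → ℂ := fun w => (W ∘ ofComplex) w ^ 12 * (ModularForm.discriminant ∘ ofComplex) w ^ (-K)
  have hG : ∀ z : ℍ, HasDerivAt G 0 z := by
    intro z
    have hne : (ModularForm.discriminant ∘ ofComplex) (z : ℂ) ≠ 0 := by
      simpa using discriminant_ne_zero z
    have h1 := (hWd z).pow 12
    have h2 := (hasDerivAt_zpow (-K) _ (Or.inl hne)).comp (z : ℂ) (hΔd z)
    have h3 := h1.mul h2
    refine h3.congr_deriv ?_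
    simp only [Function.comp_apply, ofComplex_apply, Pi.pow_apply, Int.cast_neg]
    have hne' : ModularForm.discriminant z ≠ 0 := discriminant_ne_zero z
    rw [zpow_sub_one₀ hne']
    field_simp
    ring
  have hconst : ∀ z : ℍ, G z = G UpperHalfPlane.I := by
    intro z
    refine isOpen_upperHalfPlaneSet.is_const_of_deriv_eq_zero
      (convex_halfSpace_im_gt 0).isPreconnected ?_ ?_ z.im_pos UpperHalfPlane.I.im_pos
    · intro w hw
      exact (hG ⟨w, hw⟩).differentiableAt.differentiableWithinAt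
    · intro w hw
      exact (hG ⟨w, hw⟩).deriv
  refine ⟨G UpperHalfPlane.I, fun z => ?_⟩
  have hne' : ModularForm.discriminant z ≠ 0 := discriminant_ne_zero z
  rw [← hconst z]
  simp only [G, Function.comp_apply, ofComplex_apply]
  rw [mul_assoc, ← zpow_add₀ hne']
  simp

end const

end Fermat.Agent.S20.H73
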