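import Mathlib
import Fermat.Agent.S20.Defs_helper78
import Fermat.Agent.S20.Wronskian_helper73

/-!
# S20, block W1: the Wronskian ODE in the interface shape of `Defs_helper78`

`wronODE_of_serre_mem`: given that the Serre derivative maps `M_k(Γ₀(N))` to `M_{k+2}(Γ₀(N))`
(block B1, `serre_mem`), the Wronskian of a free basis satisfies `W ^ 12 = c₀ Δ ^ K`.
-/

set_option autoImplicit false

namespace Fermat.Agent.S20.H73

open UpperHalfPlane ModularForm CongruenceSubgroup Derivative
open scoped MatrixGroups ModularForm Manifold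

/-- Every coset conjugate is a slash by an element of `SL(2, ℤ)`. -/
theorem exists_conj_eq_slash (N : ℕ) (q : Q N) :
    ∃ γ : SL(2, ℤ), ∀ (k : ℤ) (f : ModularForm (Gamma0 N) k), conj f q = ⇑f ∣[k] γ := by
  induction q using QuotientGroup.induction_on with
  | H r =>
    obtain ⟨r, hr⟩ := r
    obtain ⟨γ₀, rfl⟩ := hr
    refine ⟨γ₀⁻¹, fun k f => ?_⟩
    show SlashInvariantForm.quotientFunc f (QuotientGroup.mk _) = _
    rw [ModularForm.SL_slash, map_inv]
    rfl

/-- A level-one form is invariant under the `SL(2, ℤ)`-slash. -/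
theorem levelOne_slash {k : ℤ} (a : ModularForm 𝒮ℒ k) (γ : SL(2, ℤ)) : ⇑a ∣[k] γ = ⇑a := by
  rw [ModularForm.SL_slash]
  exact a.slash_action_eq' _ ⟨γ, rfl⟩

/-- Level-one forms of weight two vanish. -/
theorem levelOne_eq_zero_of_weight_eq_two {k : ℤ} (hk : k = 2) (a : ModularForm 𝒮ℒ k) :
    a = 0 := by
  subst hk
  exact rank_zero_iff_forall_zero.mp levelOne_weight_two_rank_zero a

/-- The Serre-derivative relation passes to all conjugates. -/
theorem serre_conj (N : ℕ) [NeZero N] {d : Q N → ℤ}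
    (F : ∀ j : Q N, ModularForm (Gamma0 N) (d j))
    (a : ∀ j i : Q N, ModularForm 𝒮ℒ (d j + 2 - d i))
    (h : ∀ j z, serreDerivative (d j) (F j) z = ∑ i, a j i z * F i z) (j q : Q N) (z : ℍ) :
    serreDerivative (d j) (conj (F j) q) z = ∑ i, a j i z * conj (F i) q z := by
  obtain ⟨γ, hγ⟩ := exists_conj_eq_slash N q
  have hden : denom γ z ≠ 0 := denom_ne_zero γ z
  have hF := serreDerivative_slash_equivariant (k := d j) (F := ⇑(F j))
    (ModularFormClass.holo (F j)) (γ := γ)
  rw [hγ (d j) (F j), ← hF, ModularForm.SL_slash_apply, h j (γ • z), Finset.sum_mul]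
  refine Finset.sum_congr rfl fun i _ => ?_
  rw [hγ (d i) (F i), ModularForm.SL_slash_apply]
  have h1 : a j i z = a j i (γ • z) * denom γ z ^ (-(d j + 2 - d i)) := by
    rw [← ModularForm.SL_slash_apply, levelOne_slash]
  rw [h1]
  have h2 : denom γ z ^ (-(d j + 2)) =
      denom γ z ^ (-(d j + 2 - d i)) * denom γ z ^ (-(d i)) := by
    rw [← zpow_add₀ hden]
    congr 1
    ring
  rw [h2]
  ring

/-- **Block W1.** The Wronskian ODE for a free basis, given `serre_mem` (block B1). -/
theorem wronODE_of_serre_mem (N : ℕ) [NeZero N]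
    (serre_mem : ∀ (k : ℤ) (f : ModularForm (Gamma0 N) k),
      ∃ g : ModularForm (Gamma0 N) (k + 2), ∀ z : ℍ, g z = serreDerivative k f z) :
    WronODE N := by
  intro d F hF hd
  classical
  -- the structure constants of the Serre derivative
  have hex : ∀ j : Q N, ∃ a : ∀ i : Q N, ModularForm 𝒮ℒ (d j + 2 - d i),
      ∀ z : ℍ, serreDerivative (d j) (F j) z = ∑ i, a i z * F i z := by
    intro j
    obtain ⟨g, hg⟩ := serre_mem (d j) (F j)
    obtain ⟨a, ha⟩ := hF.span (d j + 2) g
    exact ⟨a, fun z => by rw [← hg z, ha z]⟩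
  choose a ha using hex
  have hdiag : ∀ j z, a j j z = 0 := by
    intro j z
    rw [levelOne_eq_zero_of_weight_eq_two (by ring) (a j j)]
    rfl
  have hΦ : ∀ j q : Q N, MDiff (conj (F j) q) := by
    intro j q
    obtain ⟨γ, hγ⟩ := exists_conj_eq_slash N q
    rw [hγ (d j) (F j), ModularForm.SL_slash]
    exact (ModularFormClass.holo (F j)).slash _ _
  have hODE : ∀ z : ℍ, D (fun z : ℍ => wron F z) z =
      ((∑ j, d j : ℤ) : ℂ) * 12⁻¹ * EisensteinSeries.E2 z * wron F z := by
    intro z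
    have := D_det_eq (fun j q => conj (F j) q) hΦ (fun j => (d j : ℂ))
      (fun j i => ⇑(a j i)) (fun j q z => serre_conj N F a ha j q z) hdiag z
    simpa [wron, phiMat] using this
  have hW : MDiff (fun z : ℍ => wron F z) :=
    mdifferentiable_det (fun j q => conj (F j) q) hΦ
  obtain ⟨c₀, hc₀⟩ := pow_twelve_eq_const_mul_discriminant_zpow (fun z : ℍ => wron F z) hW
    (∑ j, d j) hODE
  refine ⟨c₀, fun z => ?_⟩
  rw [hc₀ z]
  have hnn : 0 ≤ ∑ j, d j := Finset.sum_nonneg fun j _ => hd j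
  conv_lhs => rw [← Int.toNat_of_nonneg hnn]
  rw [zpow_natCast]

end Fermat.Agent.S20.H73
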