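import Mathlib
import Fermat.Agent.S20.Defs_helper78
import Fermat.Agent.S20.SerreForm_helper5
import Fermat.Agent.S20.WronODE_helper73

/-!
# S20, block W1: the Wronskian ODE (unconditional)

`wronODE N : WronODE N`: for every free basis `(d, F)` of `⨁ M_k(Γ₀(N))` over `ℂ[E₄, E₆]` with
nonnegative weights, the Wronskian `W = det (F_j ∣ γ_q)` satisfies `W ^ 12 = c₀ Δ ^ (∑ d_j)`.
The Serre derivative at level `N` is taken from `SerreForm_helper5`.
-/

set_option autoImplicit false

namespace Fermat.Agent.S20.H73

open UpperHalfPlane ModularForm CongruenceSubgroup Derivative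
open scoped MatrixGroups ModularForm Manifold

/-- Block B1 in the shape consumed by `wronODE_of_serre_mem`. -/
theorem serre_mem (N : ℕ) [NeZero N] (k : ℤ) (f : ModularForm (Gamma0 N) k) :
    ∃ g : ModularForm (Gamma0 N) (k + 2), ∀ z : ℍ, g z = serreDerivative k f z :=
  ⟨H05.serreForm N k f, fun _ => rfl⟩

/-- **Block W1**: the Wronskian ODE. -/
theorem wronODE (N : ℕ) [NeZero N] : WronODE N :=
  wronODE_of_serre_mem N (serre_mem N)

end Fermat.Agent.S20.H73
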