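import Mathlib
import Fermat.Agent.S20.Final_helper78
import Fermat.Agent.S20.CuspConsumer_helper78
import Fermat.Agent.S20.WronODEMain_helper73
import Fermat.Agent.S20.WronMain_helper33
import Fermat.Agent.S20.Dual_helper30
import Fermat.Agent.S20.Elliptic_helper10
import Fermat.Agent.S20.Counts_helper35

/-!
# S20: assembly of the blocks
-/

set_option autoImplicit false

namespace Fermat.Agent.S20

open UpperHalfPlane ModularForm CongruenceSubgroup
open scoped MatrixGroups ModularForm Manifold

/-- The dimension formula from the three remaining inputs: a free basis, the basic weight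
facts, the cusp package, and the asymptotics of `Δ`. -/
theorem result_of_inputs (N : ℕ) [NeZero N] (hF : FreeBasisExists N) (hB : BasicWeights N)
    (hC : CuspPackage N)
    (hΔ : Filter.Tendsto (fun z : ℍ => ModularForm.discriminant z *
      Complex.exp (-(2 * Real.pi * Complex.I * (z : ℂ)))) atImInfty (nhds 1)) :
    (Module.finrank ℂ (CuspForm (CongruenceSubgroup.Gamma0 N) 2) : ℚ)
      = ModularCurve.genusFormula N := by
  have hWA : WronAsymptotic N := wronAsymptotic_of N hC hB
  have hPI : PhiInvBound N := phiInvBound_of N hC hB
  have hWM : WronMain N := H33.wronMain N (H73.wronODE N) hWA hB hΔ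
  exact result_of N (H35.cardQ N) (H35.fixSCount N) (H35.fixSTCount N) (H35.orbTCount N) hF hB
    hWM (H30.dualMain_of N hWM hPI hB) (H10.ellipticMain N)

end Fermat.Agent.S20
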