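import Mathlib
import Fermat.Agent.S23.Nice_helper52

/-!
# Module B of S20: `E₄, E₆` form a regular sequence on modular forms of any level

If `E₆ * f = E₄ * g` then `f = E₄ * m` and `g = E₆ * m` for a modular form `m` of weight four
less.  The quotient is `m = (E₄ ^ 2 * f - E₆ * g) / (1728 * Δ)`.
-/

set_option autoImplicit false

namespace Fermat.Agent.S20.H30

open UpperHalfPlane ModularForm CongruenceSubgroup Filter
open scoped MatrixGroups ModularForm Manifold Topology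

/-- `E₄` and `E₆` have no common zero. -/
theorem E4_ne_zero_or_E6_ne_zero (z : ℍ) : E₄ z ≠ 0 ∨ E₆ z ≠ 0 := by
  by_contra h
  rw [not_or, not_not, not_not] at h
  have h1 := discriminant_eq_E₄_cube_sub_E₆_sq z
  rw [h.1, h.2] at h1
  exact discriminant_ne_zero z (by simpa using h1)

theorem E4_cube_sub_E6_sq (z : ℍ) : E₄ z ^ 3 - E₆ z ^ 2 = 1728 * discriminant z := by
  rw [discriminant_eq_E₄_cube_sub_E₆_sq z]; ring

theorem E4_cube_sub_E6_sq_ne_zero (z : ℍ) : E₄ z ^ 3 - E₆ z ^ 2 ≠ 0 := by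
  rw [E4_cube_sub_E6_sq]
  exact mul_ne_zero (by norm_num) (discriminant_ne_zero z)

theorem tendsto_E4_atImInfty : Tendsto (⇑E₄) atImInfty (𝓝 1) := by
  have h := (Fermat.Agent.S23.H52.isNice_of_levelOne E₄).tendsto_atImInfty
  rwa [EisensteinSeries.E_qExpansion_coeff_zero (by norm_num : 3 ≤ 4) ⟨2, rfl⟩] at h

theorem tendsto_E6_atImInfty : Tendsto (⇑E₆) atImInfty (𝓝 1) := by
  have h := (Fermat.Agent.S23.H52.isNice_of_levelOne E₆).tendsto_atImInfty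
  rwa [EisensteinSeries.E_qExpansion_coeff_zero (by norm_num : 3 ≤ 6) ⟨3, rfl⟩] at h

/-- The function-level quotient. -/
noncomputable def quotFun (F G : ℍ → ℂ) : ℍ → ℂ :=
  fun z => (E₄ z ^ 2 * F z - E₆ z * G z) / (E₄ z ^ 3 - E₆ z ^ 2)

theorem E4_mul_quotFun {F G : ℍ → ℂ} (h : ∀ z, E₆ z * F z = E₄ z * G z) (z : ℍ) :
    E₄ z * quotFun F G z = F z := by
  unfold quotFun
  have hne := E4_cube_sub_E6_sq_ne_zero z
  field_simp
  linear_combination (E₆ z) * h z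

theorem E6_mul_quotFun {F G : ℍ → ℂ} (h : ∀ z, E₆ z * F z = E₄ z * G z) (z : ℍ) :
    E₆ z * quotFun F G z = G z := by
  unfold quotFun
  have hne := E4_cube_sub_E6_sq_ne_zero z
  field_simp
  linear_combination (E₄ z ^ 2) * h z

theorem mdiff_quotFun {F G : ℍ → ℂ} (hF : MDiff F) (hG : MDiff G) : MDiff (quotFun F G) := by
  have h4 : MDiff (⇑E₄) := ModularFormClass.holo E₄
  have h6 : MDiff (⇑E₆) := ModularFormClass.holo E₆
  have hnum : MDiff (fun z => E₄ z ^ 2 * F z - E₆ z * G z) :=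
    ((h4.pow 2).mul hF).sub (h6.mul hG)
  have hden : MDiff (fun z => E₄ z ^ 3 - E₆ z ^ 2) := (h4.pow 3).sub (h6.pow 2)
  exact hnum.div hden E4_cube_sub_E6_sq_ne_zero

/-- (B3) function-level division. -/
theorem exists_quot_of_E6_mul_eq {F G : ℍ → ℂ} (hF : MDiff F) (hG : MDiff G)
    (h : ∀ z, E₆ z * F z = E₄ z * G z) :
    ∃ M : ℍ → ℂ, MDiff M ∧ (∀ z, F z = E₄ z * M z) ∧ (∀ z, G z = E₆ z * M z) :=
  ⟨quotFun F G, mdiff_quotFun hF hG, fun z => (E4_mul_quotFun h z).symm,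
    fun z => (E6_mul_quotFun h z).symm⟩

/-- A function is determined by its products with `E₄` and `E₆`. -/
theorem eq_of_E4_mul_eq_of_E6_mul_eq {A B : ℍ → ℂ} (h4 : ∀ z, E₄ z * A z = E₄ z * B z)
    (h6 : ∀ z, E₆ z * A z = E₆ z * B z) : A = B := by
  funext z
  rcases E4_ne_zero_or_E6_ne_zero z with hz | hz
  · exact mul_left_cancel₀ hz (h4 z)
  · exact mul_left_cancel₀ hz (h6 z)

theorem slash_E4 (γ : SL(2, ℤ)) : (⇑E₄) ∣[(4 : ℤ)] γ = ⇑E₄ := by
  rw [ModularForm.SL_slash]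
  exact SlashInvariantFormClass.slash_action_eq E₄ _ ⟨γ, rfl⟩

theorem slash_E6 (γ : SL(2, ℤ)) : (⇑E₆) ∣[(6 : ℤ)] γ = ⇑E₆ := by
  rw [ModularForm.SL_slash]
  exact SlashInvariantFormClass.slash_action_eq E₆ _ ⟨γ, rfl⟩

/-- Slashing the quotient: it is the quotient of the slashes. -/
theorem E4_mul_quotFun_slash {F G : ℍ → ℂ} (h : ∀ z, E₆ z * F z = E₄ z * G z) (k : ℤ)
    (γ : SL(2, ℤ)) (z : ℍ) : E₄ z * (quotFun F G ∣[k - 4] γ) z = (F ∣[k] γ) z := by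
  have h1 : (⇑E₄ * quotFun F G) = F := funext fun z => E4_mul_quotFun h z
  have h2 := ModularForm.mul_slash_SL2 4 (k - 4) γ (⇑E₄) (quotFun F G)
  rw [h1, slash_E4, show (4 : ℤ) + (k - 4) = k by ring] at h2
  rw [h2]
  rfl

theorem E6_mul_quotFun_slash {F G : ℍ → ℂ} (h : ∀ z, E₆ z * F z = E₄ z * G z) (k : ℤ)
    (γ : SL(2, ℤ)) (z : ℍ) : E₆ z * (quotFun F G ∣[k - 4] γ) z = (G ∣[k + 2] γ) z := by
  have h1 : (⇑E₆ * quotFun F G) = G := funext fun z => E6_mul_quotFun h z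
  have h2 := ModularForm.mul_slash_SL2 6 (k - 4) γ (⇑E₆) (quotFun F G)
  rw [h1, slash_E6, show (6 : ℤ) + (k - 4) = k + 2 by ring] at h2
  rw [h2]
  rfl

theorem eventually_half_le_norm_E4 : ∀ᶠ z in atImInfty, (1 / 2 : ℝ) ≤ ‖E₄ z‖ := by
  have h := tendsto_E4_atImInfty.norm
  rw [norm_one] at h
  exact h.eventually (eventually_ge_nhds (by norm_num))

theorem exists_half_le_norm_E4 : ∃ A₁ : ℝ, ∀ z : ℍ, A₁ ≤ z.im → (1 / 2 : ℝ) ≤ ‖E₄ z‖ := by
  obtain ⟨A₁, -, hA₁⟩ := atImInfty_basis.eventually_iff.mp eventually_half_le_norm_E4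
  exact ⟨A₁, fun z hz => hA₁ hz⟩

theorem norm_le_two_mul_of_E4_mul {A B : ℍ → ℂ} (h : ∀ z, E₄ z * A z = B z) {z : ℍ}
    (hz : (1 / 2 : ℝ) ≤ ‖E₄ z‖) : ‖A z‖ ≤ 2 * ‖B z‖ := by
  rw [← h z, norm_mul]
  nlinarith [norm_nonneg (A z), norm_nonneg (E₄ z)]

/-- Dividing by `E₄` preserves boundedness at `i∞`. -/
theorem isBoundedAtImInfty_of_E4_mul {A B : ℍ → ℂ} (h : ∀ z, E₄ z * A z = B z)
    (hB : IsBoundedAtImInfty B) : IsBoundedAtImInfty A := by
  rw [isBoundedAtImInfty_iff] at hB ⊢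
  obtain ⟨M, A₀, hM⟩ := hB
  obtain ⟨A₁, hA₁⟩ := exists_half_le_norm_E4
  refine ⟨2 * M, max A₀ A₁, fun z hz => ?_⟩
  have h1 := hM z (le_trans (le_max_left _ _) hz)
  have h2 := norm_le_two_mul_of_E4_mul h (hA₁ z (le_trans (le_max_right _ _) hz))
  linarith

/-- Dividing by `E₄` preserves vanishing at `i∞`. -/
theorem isZeroAtImInfty_of_E4_mul {A B : ℍ → ℂ} (h : ∀ z, E₄ z * A z = B z)
    (hB : IsZeroAtImInfty B) : IsZeroAtImInfty A := by
  rw [isZeroAtImInfty_iff] at hB ⊢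
  intro ε hε
  obtain ⟨A₀, hM⟩ := hB (ε / 2) (by positivity)
  obtain ⟨A₁, hA₁⟩ := exists_half_le_norm_E4
  refine ⟨max A₀ A₁, fun z hz => ?_⟩
  have h1 := hM z (le_trans (le_max_left _ _) hz)
  have h2 := norm_le_two_mul_of_E4_mul h (hA₁ z (le_trans (le_max_right _ _) hz))
  linarith

theorem quotFun_slash_eq {Γ : Subgroup (GL (Fin 2) ℝ)} (hΓ : Γ ≤ 𝒮ℒ) {k : ℤ} {F G : ℍ → ℂ}
    (hF : ∀ γ ∈ Γ, F ∣[k] γ = F) (hG : ∀ γ ∈ Γ, G ∣[k + 2] γ = G)
    (h : ∀ z, E₆ z * F z = E₄ z * G z) :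
    ∀ γ ∈ Γ, quotFun F G ∣[k - 4] γ = quotFun F G := by
  intro γ hγ
  obtain ⟨γ', rfl⟩ := hΓ hγ
  have hf : F ∣[k] γ' = F := by
    rw [ModularForm.SL_slash]; exact hF _ hγ
  have hg : G ∣[k + 2] γ' = G := by
    rw [ModularForm.SL_slash]; exact hG _ hγ
  show quotFun F G ∣[k - 4] γ' = quotFun F G
  apply eq_of_E4_mul_eq_of_E6_mul_eq
  · intro z; rw [E4_mul_quotFun_slash h, hf, E4_mul_quotFun h]
  · intro z; rw [E6_mul_quotFun_slash h, hg, E6_mul_quotFun h]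

/-- (B2) Division by the regular sequence `E₄, E₆` on modular forms of any arithmetic level
contained in `SL(2, ℤ)`. -/
theorem exists_div_E4_E6 {Γ : Subgroup (GL (Fin 2) ℝ)} [Γ.IsArithmetic] (hΓ : Γ ≤ 𝒮ℒ) {k : ℤ}
    (f : ModularForm Γ k) (g : ModularForm Γ (k + 2)) (h : ∀ z, E₆ z * f z = E₄ z * g z) :
    ∃ m : ModularForm Γ (k - 4), (∀ z, f z = E₄ z * m z) ∧ (∀ z, g z = E₆ z * m z) := by
  have hinv : ∀ γ ∈ Γ, quotFun ⇑f ⇑g ∣[k - 4] γ = quotFun ⇑f ⇑g :=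
    quotFun_slash_eq hΓ (SlashInvariantFormClass.slash_action_eq f)
      (SlashInvariantFormClass.slash_action_eq g) h
  have hbdd : ∀ {c : OnePoint ℝ}, IsCusp c Γ → c.IsBoundedAt (quotFun ⇑f ⇑g) (k - 4) := by
    intro c hc
    have hc' := (Subgroup.IsArithmetic.isCusp_iff_isCusp_SL2Z Γ).mp hc
    rw [OnePoint.isBoundedAt_iff_forall_SL2Z hc']
    intro γ' hγ'
    have hfb := (OnePoint.isBoundedAt_iff_forall_SL2Z hc').mp
      (ModularFormClass.bdd_at_cusps f hc) γ' hγ'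
    exact isBoundedAtImInfty_of_E4_mul (fun z => E4_mul_quotFun_slash h k γ' z) hfb
  exact ⟨{ toFun := quotFun ⇑f ⇑g
           slash_action_eq' := hinv
           holo' := mdiff_quotFun (ModularFormClass.holo f) (ModularFormClass.holo g)
           bdd_at_cusps' := hbdd },
    fun z => (E4_mul_quotFun h z).symm, fun z => (E6_mul_quotFun h z).symm⟩

/-- (B2') The same for cusp forms. -/
theorem exists_div_E4_E6_cusp {Γ : Subgroup (GL (Fin 2) ℝ)} [Γ.IsArithmetic] (hΓ : Γ ≤ 𝒮ℒ)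
    {k : ℤ} (f : CuspForm Γ k) (g : CuspForm Γ (k + 2)) (h : ∀ z, E₆ z * f z = E₄ z * g z) :
    ∃ m : CuspForm Γ (k - 4), (∀ z, f z = E₄ z * m z) ∧ (∀ z, g z = E₆ z * m z) := by
  have hinv : ∀ γ ∈ Γ, quotFun ⇑f ⇑g ∣[k - 4] γ = quotFun ⇑f ⇑g :=
    quotFun_slash_eq hΓ (SlashInvariantFormClass.slash_action_eq f)
      (SlashInvariantFormClass.slash_action_eq g) h
  have hzero : ∀ {c : OnePoint ℝ}, IsCusp c Γ → c.IsZeroAt (quotFun ⇑f ⇑g) (k - 4) := by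
    intro c hc
    have hc' := (Subgroup.IsArithmetic.isCusp_iff_isCusp_SL2Z Γ).mp hc
    rw [OnePoint.isZeroAt_iff_forall_SL2Z hc']
    intro γ' hγ'
    have hfb := (OnePoint.isZeroAt_iff_forall_SL2Z hc').mp
      (CuspFormClass.zero_at_cusps f hc) γ' hγ'
    exact isZeroAtImInfty_of_E4_mul (fun z => E4_mul_quotFun_slash h k γ' z) hfb
  exact ⟨{ toFun := quotFun ⇑f ⇑g
           slash_action_eq' := hinv
           holo' := mdiff_quotFun (CuspFormClass.holo f) (CuspFormClass.holo g)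
           zero_at_cusps' := hzero },
    fun z => (E4_mul_quotFun h z).symm, fun z => (E6_mul_quotFun h z).symm⟩

/-- (B1) `E₄` is a non-zero-divisor on functions that are holomorphic on `ℍ`. -/
theorem eq_zero_of_E4_mul_eq_zero {F : ℍ → ℂ} (hF : MDiff F) (h : ∀ z, E₄ z * F z = 0) :
    F = 0 := by
  have hopen : IsOpen {z : ℂ | 0 < z.im} := isOpen_lt continuous_const Complex.continuous_im
  have h4 := (UpperHalfPlane.mdifferentiable_iff.mp (ModularFormClass.holo E₄)).analyticOnNhd hopen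
  have hF' := (UpperHalfPlane.mdifferentiable_iff.mp hF).analyticOnNhd hopen
  have hconn : IsPreconnected {z : ℂ | 0 < z.im} := (convex_halfSpace_im_gt 0).isPreconnected
  have hmul : ∀ z ∈ {z : ℂ | 0 < z.im}, ((⇑E₄) ∘ ofComplex) z * (F ∘ ofComplex) z = 0 :=
    fun z _ => h (ofComplex z)
  rcases h4.eq_zero_or_eq_zero_of_mul_eq_zero hF' hmul hconn with h1 | h1
  · exfalso
    have hlim := tendsto_E4_atImInfty
    have h0 : (⇑E₄) = fun _ => (0 : ℂ) := by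
      funext z
      have := h1 (z : ℂ) z.im_pos
      simpa using this
    rw [h0] at hlim
    exact zero_ne_one (tendsto_nhds_unique tendsto_const_nhds hlim)
  · funext z
    have := h1 (z : ℂ) z.im_pos
    simpa using this

theorem eq_zero_of_E6_mul_eq_zero {F : ℍ → ℂ} (hF : MDiff F) (h : ∀ z, E₆ z * F z = 0) :
    F = 0 := by
  have hopen : IsOpen {z : ℂ | 0 < z.im} := isOpen_lt continuous_const Complex.continuous_im
  have h6 := (UpperHalfPlane.mdifferentiable_iff.mp (ModularFormClass.holo E₆)).analyticOnNhd hopen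
  have hF' := (UpperHalfPlane.mdifferentiable_iff.mp hF).analyticOnNhd hopen
  have hconn : IsPreconnected {z : ℂ | 0 < z.im} := (convex_halfSpace_im_gt 0).isPreconnected
  have hmul : ∀ z ∈ {z : ℂ | 0 < z.im}, ((⇑E₆) ∘ ofComplex) z * (F ∘ ofComplex) z = 0 :=
    fun z _ => h (ofComplex z)
  rcases h6.eq_zero_or_eq_zero_of_mul_eq_zero hF' hmul hconn with h1 | h1
  · exfalso
    have hlim := tendsto_E6_atImInfty
    have h0 : (⇑E₆) = fun _ => (0 : ℂ) := by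
      funext z
      have := h1 (z : ℂ) z.im_pos
      simpa using this
    rw [h0] at hlim
    exact zero_ne_one (tendsto_nhds_unique tendsto_const_nhds hlim)
  · funext z
    have := h1 (z : ℂ) z.im_pos
    simpa using this

theorem eq_zero_of_E4_mul_form_eq_zero {Γ : Subgroup (GL (Fin 2) ℝ)} {k : ℤ}
    (f : ModularForm Γ k) (h : ∀ z, E₄ z * f z = 0) : f = 0 :=
  DFunLike.coe_injective (eq_zero_of_E4_mul_eq_zero (ModularFormClass.holo f) h)

theorem eq_zero_of_E6_mul_form_eq_zero {Γ : Subgroup (GL (Fin 2) ℝ)} {k : ℤ}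
    (f : ModularForm Γ k) (h : ∀ z, E₆ z * f z = 0) : f = 0 :=
  DFunLike.coe_injective (eq_zero_of_E6_mul_eq_zero (ModularFormClass.holo f) h)

/-- The instance of (B2) for `Γ₀(N)`. -/
theorem exists_div_E4_E6_Gamma0 (N : ℕ) [NeZero N] {k : ℤ} (f : ModularForm (Gamma0 N) k)
    (g : ModularForm (Gamma0 N) (k + 2)) (h : ∀ z, E₆ z * f z = E₄ z * g z) :
    ∃ m : ModularForm (Gamma0 N) (k - 4), (∀ z, f z = E₄ z * m z) ∧ (∀ z, g z = E₆ z * m z) :=
  exists_div_E4_E6 (Subgroup.map_le_range _ _) f g h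

theorem exists_div_E4_E6_cusp_Gamma0 (N : ℕ) [NeZero N] {k : ℤ} (f : CuspForm (Gamma0 N) k)
    (g : CuspForm (Gamma0 N) (k + 2)) (h : ∀ z, E₆ z * f z = E₄ z * g z) :
    ∃ m : CuspForm (Gamma0 N) (k - 4), (∀ z, f z = E₄ z * m z) ∧ (∀ z, g z = E₆ z * m z) :=
  exists_div_E4_E6_cusp (Subgroup.map_le_range _ _) f g h

end Fermat.Agent.S20.H30
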