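import Mathlib
import Fermat.Agent.S20.Defs_helper78
import Fermat.Agent.S20.RegSeq_helper30

/-!
# Block B2 of S20: division by `E₄` and the basic facts on the weights of a free basis
-/

set_option autoImplicit false

namespace Fermat.Agent.S20.H30

open UpperHalfPlane ModularForm CongruenceSubgroup Filter
open scoped MatrixGroups ModularForm Manifold Topology

/-- Division by `E₄` in the interface shape. -/
theorem div_E4 (N : ℕ) [NeZero N] (k : ℤ) (f : ModularForm (Gamma0 N) k)
    (g : ModularForm (Gamma0 N) (k + 2)) (h : ∀ z : ℍ, E₆ z * f z = E₄ z * g z) :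
    ∃ m : ModularForm (Gamma0 N) (k - 4), ∀ z : ℍ, f z = E₄ z * m z := by
  obtain ⟨m, hm, -⟩ := exists_div_E4_E6_Gamma0 N f g h
  exact ⟨m, hm⟩

/-- A level one constant of prescribed (zero) weight. -/
noncomputable def constForm (c : ℂ) (w : ℤ) (hw : (0 : ℤ) = w) : ModularForm 𝒮ℒ w :=
  ModularForm.mcast hw (ModularForm.const c)

theorem constForm_apply (c : ℂ) (w : ℤ) (hw : (0 : ℤ) = w) (z : ℍ) : constForm c w hw z = c := by
  unfold constForm
  rw [ModularForm.mcast_apply, ModularForm.coe_const]
  rfl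

section

variable {N : ℕ} [NeZero N] {d : Q N → ℤ} {F : ∀ j : Q N, ModularForm (Gamma0 N) (d j)}

theorem neg_one_mem_Gamma0 (N : ℕ) :
    (-1 : GL (Fin 2) ℝ) ∈ (Gamma0 N : Subgroup (GL (Fin 2) ℝ)) := by
  have h : (-1 : SL(2, ℤ)) ∈ Gamma0 N := by
    rw [CongruenceSubgroup.Gamma0_mem]
    simp
  exact Subgroup.mem_map.mpr ⟨-1, h, by ext; simp⟩

/-- The members of a free basis are nonzero. -/
theorem freeBasis_ne_zero (hF : IsFreeBasis N d F) (j : Q N) : (⇑(F j) : ℍ → ℂ) ≠ 0 := by
  classical
  intro h0
  let a : ∀ i : Q N, ModularForm 𝒮ℒ (d j - d i) := fun i =>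
    if h : i = j then constForm 1 (d j - d i) (by rw [h]; ring) else 0
  have hsum : ∀ z : ℍ, ∑ i, a i z * F i z = 0 := by
    intro z
    refine Finset.sum_eq_zero fun i _ => ?_
    by_cases h : i = j
    · subst h
      rw [h0]
      simp
    · simp only [a, dif_neg h]
      simp
  have h1 := hF.indep (d j) a hsum j
  have h2 : a j UpperHalfPlane.I = 1 := by
    simp only [a, dif_pos rfl]
    exact constForm_apply 1 _ _ _
  rw [h1] at h2
  exact zero_ne_one h2

theorem freeBasis_nonneg (hF : IsFreeBasis N d F) (j : Q N) : 0 ≤ d j := by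
  by_contra h
  rw [not_le] at h
  apply freeBasis_ne_zero hF j
  rw [ModularForm.isZero_of_neg_weight h (F j)]
  rfl

theorem freeBasis_even (hF : IsFreeBasis N d F) (j : Q N) : Even (d j) := by
  by_contra h
  rw [Int.not_even_iff_odd] at h
  apply freeBasis_ne_zero hF j
  rw [ModularForm.eq_zero_of_neg_one_mem (neg_one_mem_Gamma0 N) h (F j)]
  rfl

theorem freeBasis_exists_weight_zero (hF : IsFreeBasis N d F) : ∃ j, d j = 0 := by
  by_contra hne
  rw [not_exists] at hne
  obtain ⟨a, ha⟩ := hF.span 0 (ModularForm.const 1)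
  have h1 := ha UpperHalfPlane.I
  rw [ModularForm.coe_const] at h1
  have h2 : ∑ j, a j UpperHalfPlane.I * F j UpperHalfPlane.I = 0 := by
    refine Finset.sum_eq_zero fun j _ => ?_
    have hpos : 0 < d j := lt_of_le_of_ne (freeBasis_nonneg hF j) (Ne.symm (hne j))
    have hz := ModularFormClass.levelOne_neg_weight_eq_zero (show 0 - d j < 0 by omega) (a j)
    rw [hz]
    simp
  rw [h2] at h1
  exact one_ne_zero h1

theorem freeBasis_weight_zero_unique (hF : IsFreeBasis N d F) {i j : Q N} (hi : d i = 0)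
    (hj : d j = 0) : i = j := by
  classical
  by_contra hij
  obtain ⟨ci, hci⟩ := ModularForm.eq_const_of_weight_zero (ModularForm.mcast hi (F i))
  obtain ⟨cj, hcj⟩ := ModularForm.eq_const_of_weight_zero (ModularForm.mcast hj (F j))
  have hFi : ∀ z, F i z = ci := fun z => by
    have := congrFun hci z
    rwa [ModularForm.mcast_apply] at this
  have hFj : ∀ z, F j z = cj := fun z => by
    have := congrFun hcj z
    rwa [ModularForm.mcast_apply] at this
  have hcj0 : cj ≠ 0 := by
    intro h
    apply freeBasis_ne_zero hF j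
    funext z
    rw [hFj z, h]
    rfl
  let a : ∀ l : Q N, ModularForm 𝒮ℒ (0 - d l) := fun l =>
    if h : l = i then constForm cj (0 - d l) (by rw [h, hi]; ring)
    else if h' : l = j then constForm (-ci) (0 - d l) (by rw [h', hj]; ring) else 0
  have hai : ∀ z, a i z = cj := fun z => by
    simp only [a, dif_pos rfl]
    exact constForm_apply _ _ _ _
  have haj : ∀ z, a j z = -ci := fun z => by
    simp only [a, dif_neg (Ne.symm hij)]
    exact constForm_apply _ _ _ _
  have hsum : ∀ z : ℍ, ∑ l, a l z * F l z = 0 := by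
    intro z
    rw [Fintype.sum_eq_add i j hij]
    · rw [hai z, haj z, hFi z, hFj z]
      ring
    · intro l hl
      simp only [a, dif_neg hl.1, dif_neg hl.2]
      simp
  have h1 := hF.indep 0 a hsum i
  have h2 := hai UpperHalfPlane.I
  rw [h1] at h2
  exact hcj0 h2.symm

end

/-- Block B: weights are even, nonnegative, and exactly one of them is zero. -/
theorem basicWeights (N : ℕ) [NeZero N] : BasicWeights N := by
  classical
  intro d F hF
  refine ⟨fun j => ⟨freeBasis_nonneg hF j, freeBasis_even hF j⟩, ?_⟩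
  obtain ⟨j₀, hj₀⟩ := freeBasis_exists_weight_zero hF
  rw [Finset.card_eq_one]
  refine ⟨j₀, ?_⟩
  ext j
  simp only [Finset.mem_filter, Finset.mem_univ, true_and, Finset.mem_singleton]
  exact ⟨fun h => freeBasis_weight_zero_unique hF h hj₀, fun h => h ▸ hj₀⟩

end Fermat.Agent.S20.H30
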