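import Mathlib

set_option autoImplicit false

namespace Fermat.Agent.S20.H36

open Matrix Finset Polynomial

noncomputable section

/-! ### Two small polynomial lemmas -/

/-- A polynomial function which is multiplicative and takes the value `1` at `1` is a monomial. -/
theorem eval_eq_pow_natDegree_of_mul (p : ℂ[X]) (h1 : p.eval 1 = 1)
    (hmul : ∀ t u : ℂ, p.eval (t * u) = p.eval t * p.eval u) (t : ℂ) :
    p.eval t = t ^ p.natDegree := by
  have hp0 : p ≠ 0 := by
    rintro rfl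
    simp at h1
  have hpoly : p.comp (C t * X) = C (p.eval t) * p := by
    apply Polynomial.funext
    intro u
    rw [eval_comp, eval_mul, eval_mul, eval_C, eval_C, eval_X, hmul]
  have hc := congrArg (fun q : ℂ[X] => q.coeff p.natDegree) hpoly
  simp only [comp_C_mul_X_coeff, coeff_C_mul] at hc
  have hlead : p.coeff p.natDegree ≠ 0 := by
    rw [Polynomial.coeff_natDegree]
    exact Polynomial.leadingCoeff_ne_zero.mpr hp0
  have : p.coeff p.natDegree * t ^ p.natDegree = p.coeff p.natDegree * p.eval t := by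
    rw [hc]; ring
  exact (mul_left_cancel₀ hlead this).symm

variable {X : Type*} [Fintype X] [DecidableEq X]

/-- For an idempotent matrix `π`, `det (1 + (u - 1) • π) = u ^ n` with `n = trace π`. -/
theorem det_one_add_smul_idem (π : Matrix X X ℂ) (hπ : π * π = π) :
    ∃ n : ℕ, (n : ℂ) = trace π ∧ ∀ u : ℂ, det (1 + (u - 1) • π) = u ^ n := by
  classical
  -- the polynomial `det (1 + (X - 1) • π)`
  let M : Matrix X X ℂ[X] := 1 + (Polynomial.X - 1 : ℂ[X]) • π.map C
  let p : ℂ[X] := det M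
  have heval : ∀ u : ℂ, p.eval u = det (1 + (u - 1) • π) := by
    intro u
    have h := (RingHom.map_det (Polynomial.evalRingHom u) M).symm
    have hM : (Polynomial.evalRingHom u).mapMatrix M = 1 + (u - 1) • π := by
      ext i j
      simp [M, Matrix.one_apply, apply_ite]
    rw [hM] at h
    simpa [p] using h.symm
  have hmulmat : ∀ u w : ℂ, (1 + (u - 1) • π) * (1 + (w - 1) • π) = 1 + (u * w - 1) • π := by
    intro u w
    simp only [mul_add, add_mul, mul_one, one_mul, smul_mul_assoc, mul_smul_comm, hπ]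
    module
  have h1 : p.eval 1 = 1 := by simp [heval]
  have hmul : ∀ t u : ℂ, p.eval (t * u) = p.eval t * p.eval u := by
    intro t u
    rw [heval, heval, heval, ← det_mul, hmulmat]
  have hpow := eval_eq_pow_natDegree_of_mul p h1 hmul
  refine ⟨p.natDegree, ?_, fun u => by rw [← heval, hpow]⟩
  -- identify the degree with the trace
  set c : ℂ[X] := (det (1 + (Polynomial.X : ℂ[X]) • π.map C)).divX.divX with hc
  have hid : ∀ r : ℂ, (1 + r) ^ p.natDegree = 1 + trace π * r + c.eval r * r ^ 2 := by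
    intro r
    have h2 := det_one_add_smul r π
    have h3 := hpow (1 + r)
    rw [heval] at h3
    rw [← h3, ← h2]
    congr 2
    simp
  have hpolyid : (1 + Polynomial.X : ℂ[X]) ^ p.natDegree
      = 1 + C (trace π) * Polynomial.X + c * Polynomial.X ^ 2 := by
    apply Polynomial.funext
    intro r
    simpa using hid r
  have hcoeff := congrArg (fun q : ℂ[X] => q.coeff 1) hpolyid
  simp only [coeff_add, coeff_one, coeff_C_mul, coeff_X_one, mul_one] at hcoeff
  rw [add_comm (1 : ℂ[X]) Polynomial.X, coeff_X_add_one_pow] at hcoeff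
  simpa [coeff_mul_X_pow'] using hcoeff

/-! ### Spectral projectors of a matrix of finite order -/

variable (P : Matrix X X ℂ) (ζ : ℂ) (N : ℕ)

/-- The spectral projector onto the `ζ ^ a`-eigenspace of `P`. -/
def pr (a : ℕ) : Matrix X X ℂ :=
  (N : ℂ)⁻¹ • ∑ m ∈ range N, (ζ⁻¹) ^ (a * m) • P ^ m

/-- `E t = ∑ a < N, t ^ a • pr a`. -/
def E (t : ℂ) : Matrix X X ℂ := ∑ a ∈ range N, t ^ a • pr P ζ N a

variable {P ζ N}

theorem geom_sum_root {η : ℂ} (hη : η ^ N = 1) :
    ∑ m ∈ range N, η ^ m = if η = 1 then (N : ℂ) else 0 := by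
  split_ifs with h
  · simp [h]
  · have := mul_neg_geom_sum η N
    have h' : (1 - η) ≠ 0 := sub_ne_zero.mpr (Ne.symm h)
    have h2 : (1 - η) * ∑ m ∈ range N, η ^ m = 0 := by rw [this, hη, sub_self]
    exact (mul_eq_zero.mp h2).resolve_left h'

theorem sum_range_shift {M : Type*} [AddCommGroup M] (g : ℕ → M) (hg : g N = g 0) :
    ∑ m ∈ range N, g (m + 1) = ∑ m ∈ range N, g m := by
  have h1 := Finset.sum_range_succ g N
  have h2 := Finset.sum_range_succ' g N
  rw [h1] at h2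
  rw [hg] at h2
  exact (add_right_cancel h2).symm

variable (hN : 0 < N) (hP : P ^ N = 1) (hζ : IsPrimitiveRoot ζ N)
include hN hP hζ

theorem P_mul_pr (a : ℕ) : P * pr P ζ N a = ζ ^ a • pr P ζ N a := by
  have hζ0 : ζ ≠ 0 := hζ.ne_zero hN.ne'
  unfold pr
  rw [mul_smul_comm, smul_comm, Finset.mul_sum]
  congr 1
  have key : ∀ m, P * ((ζ⁻¹) ^ (a * m) • P ^ m)
      = ζ ^ a • ((ζ⁻¹) ^ (a * (m + 1)) • P ^ (m + 1)) := by
    intro m
    have h1 : ζ ^ a * (ζ⁻¹) ^ (a * (m + 1)) = (ζ⁻¹) ^ (a * m) := by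
      rw [mul_add, mul_one, pow_add, inv_pow ζ a]
      field_simp
    rw [mul_smul_comm, smul_smul, ← pow_succ', h1]
  rw [Finset.sum_congr rfl (fun m _ => key m), ← Finset.smul_sum]
  congr 1
  apply sum_range_shift (fun m => (ζ⁻¹) ^ (a * m) • P ^ m)
  have h2 : (ζ⁻¹) ^ (a * N) = 1 := by
    rw [mul_comm, pow_mul, inv_pow, hζ.pow_eq_one, inv_one, one_pow]
  simp only [h2, hP, mul_zero, pow_zero]

theorem pow_mul_pr (a m : ℕ) : P ^ m * pr P ζ N a = ζ ^ (a * m) • pr P ζ N a := by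
  induction m with
  | zero => simp
  | succ m ih =>
    rw [pow_succ, mul_assoc, P_mul_pr hN hP hζ, mul_smul_comm, ih, smul_smul, mul_add, mul_one,
      pow_add, mul_comm]

theorem pr_mul_pr {a b : ℕ} (ha : a < N) (hb : b < N) :
    pr P ζ N a * pr P ζ N b = if a = b then pr P ζ N a else 0 := by
  have hζ0 : ζ ≠ 0 := hζ.ne_zero hN.ne'
  have hN0 : (N : ℂ) ≠ 0 := Nat.cast_ne_zero.mpr hN.ne'
  have h1 : pr P ζ N a * pr P ζ N b
      = ((N : ℂ)⁻¹ * ∑ m ∈ range N, ((ζ⁻¹) ^ a * ζ ^ b) ^ m) • pr P ζ N b := by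
    conv_lhs => rw [pr]
    rw [smul_mul_assoc, Finset.sum_mul, mul_smul, Finset.sum_smul]
    congr 1
    refine Finset.sum_congr rfl fun m _ => ?_
    rw [smul_mul_assoc, pow_mul_pr hN hP hζ, smul_smul, mul_pow, pow_mul, pow_mul]
  rw [h1, geom_sum_root (by rw [mul_pow, ← pow_mul, ← pow_mul, mul_comm a, mul_comm b, pow_mul,
    pow_mul, inv_pow, hζ.pow_eq_one]; simp)]
  by_cases hab : a = b
  · subst hab
    simp [inv_pow, inv_mul_cancel₀ (pow_ne_zero a hζ0), hN0]
  · have : (ζ⁻¹) ^ a * ζ ^ b ≠ 1 := by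
      intro h
      apply hab
      have h2 : ζ ^ b = ζ ^ a := by
        rw [inv_pow] at h
        field_simp at h
        exact h
      exact (hζ.pow_inj hb ha h2).symm
    rw [if_neg this, if_neg hab, mul_zero, zero_smul]

omit hP in
theorem sum_pr : ∑ a ∈ range N, pr P ζ N a = 1 := by
  have hN0 : (N : ℂ) ≠ 0 := Nat.cast_ne_zero.mpr hN.ne'
  unfold pr
  rw [← Finset.smul_sum, Finset.sum_comm]
  have key : ∀ m ∈ range N, ∑ a ∈ range N, (ζ⁻¹) ^ (a * m) • P ^ m
      = if m = 0 then (N : ℂ) • (1 : Matrix X X ℂ) else 0 := by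
    intro m hm
    rw [← Finset.sum_smul]
    have : ∑ a ∈ range N, (ζ⁻¹) ^ (a * m) = ∑ a ∈ range N, ((ζ⁻¹) ^ m) ^ a := by
      refine Finset.sum_congr rfl fun a _ => ?_
      rw [← pow_mul, mul_comm]
    rw [this, geom_sum_root (by rw [← pow_mul, mul_comm, pow_mul, inv_pow, hζ.pow_eq_one]; simp)]
    by_cases hm0 : m = 0
    · subst hm0; simp
    · have : (ζ⁻¹) ^ m ≠ 1 := by
        rw [inv_pow]
        intro h
        have h2 : ζ ^ m = 1 := by
          have := inv_eq_one.mp h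
          exact this
        exact hm0 ((hζ.pow_eq_one_iff_dvd m).mp h2 |> fun hd =>
          Nat.eq_zero_of_dvd_of_lt hd (Finset.mem_range.mp hm))
      rw [if_neg this, if_neg hm0, zero_smul]
  rw [Finset.sum_congr rfl key, Finset.sum_ite_eq' (range N) 0]
  simp [hN, hN0]

theorem E_mul (t u : ℂ) : E P ζ N t * E P ζ N u = E P ζ N (t * u) := by
  unfold E
  rw [Finset.sum_mul]
  refine Finset.sum_congr rfl fun a ha => ?_
  rw [Finset.mul_sum]
  have : ∀ b ∈ range N, t ^ a • pr P ζ N a * u ^ b • pr P ζ N b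
      = if a = b then (t * u) ^ a • pr P ζ N a else 0 := by
    intro b hb
    rw [smul_mul_smul_comm, pr_mul_pr hN hP hζ (Finset.mem_range.mp ha) (Finset.mem_range.mp hb)]
    split_ifs with h
    · subst h; rw [mul_pow]
    · simp
  rw [Finset.sum_congr rfl this, Finset.sum_ite_eq (range N) a]
  simp [ha]

omit hP in
theorem E_one : E P ζ N 1 = 1 := by
  unfold E
  simp [sum_pr hN hζ]

theorem E_zeta : E P ζ N ζ = P := by
  unfold E
  rw [Finset.sum_congr rfl (fun a _ => (P_mul_pr hN hP hζ a).symm), ← Finset.mul_sum,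
    sum_pr hN hζ, mul_one]

theorem E_mul_inv {t : ℂ} (ht : t ≠ 0) : E P ζ N t * E P ζ N t⁻¹ = 1 := by
  rw [E_mul hN hP hζ, mul_inv_cancel₀ ht, E_one hN hζ]

theorem E_inv_mul {t : ℂ} (ht : t ≠ 0) : E P ζ N t⁻¹ * E P ζ N t = 1 := by
  rw [E_mul hN hP hζ, inv_mul_cancel₀ ht, E_one hN hζ]

theorem E_zeta_mul (t : ℂ) : E P ζ N (ζ * t) = P * E P ζ N t := by
  rw [← E_mul hN hP hζ, E_zeta hN hP hζ]

/-- `det (E t)` is a monomial in `t`. -/
theorem exists_det_E : ∃ κ : ℕ, ∀ t : ℂ, det (E P ζ N t) = t ^ κ := by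
  classical
  let M : Matrix X X ℂ[X] := ∑ a ∈ range N, (Polynomial.X : ℂ[X]) ^ a • (pr P ζ N a).map C
  have heval : ∀ u : ℂ, (det M).eval u = det (E P ζ N u) := by
    intro u
    have h := (RingHom.map_det (Polynomial.evalRingHom u) M).symm
    have hM : (Polynomial.evalRingHom u).mapMatrix M = E P ζ N u := by
      ext i j
      simp only [M, E, Matrix.sum_apply, RingHom.mapMatrix_apply, Matrix.map_apply,
        Matrix.smul_apply, map_sum, smul_eq_mul, coe_evalRingHom, eval_mul, eval_pow, eval_X,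
        eval_C]
    rw [hM] at h
    simpa using h.symm
  refine ⟨(det M).natDegree, fun t => ?_⟩
  rw [← heval]
  apply eval_eq_pow_natDegree_of_mul
  · rw [heval, E_one hN hζ, det_one]
  · intro t u
    rw [heval, heval, heval, ← det_mul, E_mul hN hP hζ]

/-- Mixed orthogonality between the projectors for `ζ` and for `ζ⁻¹`. -/
theorem pr_mul_pr_inv {a b : ℕ} :
    pr P ζ N b * pr P ζ⁻¹ N a = if N ∣ a + b then pr P ζ⁻¹ N a else 0 := by
  have hζ0 : ζ ≠ 0 := hζ.ne_zero hN.ne'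
  have hN0 : (N : ℂ) ≠ 0 := Nat.cast_ne_zero.mpr hN.ne'
  have hζ' : IsPrimitiveRoot ζ⁻¹ N := hζ.inv
  have h1 : pr P ζ N b * pr P ζ⁻¹ N a
      = ((N : ℂ)⁻¹ * ∑ m ∈ range N, ((ζ⁻¹) ^ (a + b)) ^ m) • pr P ζ⁻¹ N a := by
    conv_lhs => rw [pr]
    rw [smul_mul_assoc, Finset.sum_mul, mul_smul, Finset.sum_smul]
    congr 1
    refine Finset.sum_congr rfl fun m _ => ?_
    rw [smul_mul_assoc, pow_mul_pr hN hP hζ', smul_smul, ← pow_add, ← pow_mul]
    congr 2
    ring
  rw [h1, geom_sum_root (by rw [← pow_mul, mul_comm, pow_mul, inv_pow, hζ.pow_eq_one]; simp)]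
  have hiff : (ζ⁻¹) ^ (a + b) = 1 ↔ N ∣ a + b := hζ'.pow_eq_one_iff_dvd (a + b)
  by_cases hd : N ∣ a + b
  · rw [if_pos (hiff.mpr hd), if_pos hd, inv_mul_cancel₀ hN0, one_smul]
  · rw [if_neg (fun h => hd (hiff.mp h)), if_neg hd, mul_zero, zero_smul]

theorem E_mul_E_inv (t : ℂ) :
    E P ζ N t * E P ζ⁻¹ N t = 1 + (t ^ N - 1) • (1 - pr P ζ⁻¹ N 0) := by
  have hζ' : IsPrimitiveRoot ζ⁻¹ N := hζ.inv
  have hsum' : ∑ a ∈ range N, pr P ζ⁻¹ N a = 1 := sum_pr hN hζ'
  have h1 : E P ζ N t * E P ζ⁻¹ N t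
      = ∑ a ∈ range N, (if a = 0 then (1 : ℂ) else t ^ N) • pr P ζ⁻¹ N a := by
    have hE2 : E P ζ⁻¹ N t = ∑ a ∈ range N, t ^ a • pr P ζ⁻¹ N a := rfl
    rw [hE2, Finset.mul_sum]
    refine Finset.sum_congr rfl fun a ha => ?_
    have ha' : a < N := Finset.mem_range.mp ha
    rw [E, Finset.sum_mul]
    have hb0 : (N - a) % N ∈ range N := Finset.mem_range.mpr (Nat.mod_lt _ hN)
    rw [Finset.sum_eq_single_of_mem ((N - a) % N) hb0]
    · have hdvd : N ∣ a + (N - a) % N := by
        rw [Nat.dvd_iff_mod_eq_zero, Nat.add_mod, Nat.mod_mod, ← Nat.add_mod,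
          Nat.add_sub_cancel' ha'.le, Nat.mod_self]
      rw [smul_mul_smul_comm, pr_mul_pr_inv hN hP hζ, if_pos hdvd]
      congr 1
      by_cases h0 : a = 0
      · subst h0; simp
      · rw [if_neg h0, Nat.mod_eq_of_lt (by omega), ← pow_add, Nat.sub_add_cancel ha'.le]
    · intro b hb hne
      have hb' : b < N := Finset.mem_range.mp hb
      have hnd : ¬ N ∣ a + b := by
        intro hd
        apply hne
        obtain ⟨c, hc⟩ := hd
        have hc1 : c = 0 ∨ c = 1 := by
          rcases c with _ | _ | c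
          · exact Or.inl rfl
          · exact Or.inr rfl
          · exfalso
            have : 2 * N ≤ N * (c + 1 + 1) := by nlinarith
            omega
        rcases hc1 with rfl | rfl
        · have : a = 0 ∧ b = 0 := by omega
          rw [this.1, this.2]; simp
        · have : b = N - a := by omega
          rw [this]
          rcases Nat.eq_zero_or_pos a with h0 | h0
          · subst h0; omega
          · exact (Nat.mod_eq_of_lt (by omega)).symm
      rw [smul_mul_smul_comm, pr_mul_pr_inv hN hP hζ, if_neg hnd, smul_zero]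
  rw [h1]
  have h2 : ∀ a ∈ range N, (if a = 0 then (1 : ℂ) else t ^ N) • pr P ζ⁻¹ N a
      = t ^ N • pr P ζ⁻¹ N a + (if a = 0 then (1 - t ^ N) • pr P ζ⁻¹ N 0 else 0) := by
    intro a _
    by_cases h0 : a = 0
    · subst h0; simp only [if_true]; module
    · simp [h0]
  rw [Finset.sum_congr rfl h2, Finset.sum_add_distrib, ← Finset.smul_sum, hsum',
    Finset.sum_ite_eq' (range N) 0]
  simp only [Finset.mem_range, hN, if_true]
  module

/-- The exponent of `det (E t)`: `2 κ + ∑_{m<N} trace (P ^ m) = N * card X` for a real `P`. -/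
theorem two_mul_kappa (hreal : P.map (starRingEnd ℂ) = P) {κ : ℕ}
    (hκ : ∀ t : ℂ, det (E P ζ N t) = t ^ κ) :
    (2 * κ : ℂ) + ∑ m ∈ range N, trace (P ^ m) = N * Fintype.card X := by
  have hζ0 : ζ ≠ 0 := hζ.ne_zero hN.ne'
  have hN0 : (N : ℂ) ≠ 0 := Nat.cast_ne_zero.mpr hN.ne'
  have hζ' : IsPrimitiveRoot ζ⁻¹ N := hζ.inv
  have hconjζ : (starRingEnd ℂ) ζ = ζ⁻¹ :=
    (Complex.inv_eq_conj (hζ.norm'_eq_one hN.ne')).symm
  have hPm : ∀ m : ℕ, (P ^ m).map (starRingEnd ℂ) = P ^ m := by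
    intro m
    have := map_pow (starRingEnd ℂ).mapMatrix P m
    simpa [RingHom.mapMatrix_apply, hreal] using this
  have hpr : ∀ a : ℕ, (pr P ζ N a).map (starRingEnd ℂ) = pr P ζ⁻¹ N a := by
    intro a
    ext i j
    have hPmij : ∀ m : ℕ, (starRingEnd ℂ) ((P ^ m) i j) = (P ^ m) i j := fun m => by
      have := congrFun (congrFun (hPm m) i) j
      simpa using this
    simp only [pr, Matrix.map_apply, Matrix.smul_apply, Matrix.sum_apply, smul_eq_mul, map_mul,
      map_sum, map_pow, map_inv₀, hconjζ, hPmij, inv_inv, map_natCast]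
  have hE' : ∀ t : ℂ, E P ζ⁻¹ N t = (E P ζ N ((starRingEnd ℂ) t)).map (starRingEnd ℂ) := by
    intro t
    ext i j
    have hprij : ∀ a : ℕ, (starRingEnd ℂ) (pr P ζ N a i j) = pr P ζ⁻¹ N a i j := fun a => by
      have := congrFun (congrFun (hpr a) i) j
      simpa using this
    simp only [E, Matrix.map_apply, Matrix.smul_apply, Matrix.sum_apply, smul_eq_mul, map_mul,
      map_sum, map_pow, hprij, Complex.conj_conj]
  have hdet' : ∀ t : ℂ, det (E P ζ⁻¹ N t) = t ^ κ := by
    intro t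
    rw [hE']
    have h := RingHom.map_det (starRingEnd ℂ) (E P ζ N ((starRingEnd ℂ) t))
    rw [RingHom.mapMatrix_apply] at h
    rw [← h, hκ, map_pow, Complex.conj_conj]
  have hidem : (1 - pr P ζ⁻¹ N 0) * (1 - pr P ζ⁻¹ N 0) = 1 - pr P ζ⁻¹ N 0 := by
    have := pr_mul_pr hN hP hζ' (a := 0) (b := 0) hN hN
    simp only [if_true] at this
    rw [sub_mul, one_mul, mul_sub, mul_one, this, sub_self, sub_zero]
  obtain ⟨n, hn, hdetn⟩ := det_one_add_smul_idem _ hidem
  have hpow : ∀ t : ℂ, t ^ κ * t ^ κ = (t ^ N) ^ n := by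
    intro t
    rw [← hdetn, ← E_mul_E_inv hN hP hζ, det_mul, hκ, hdet']
  have hnat : κ + κ = N * n := by
    have h2 := hpow 2
    rw [← pow_add, ← pow_mul] at h2
    have h3 : (2 : ℕ) ^ (κ + κ) = 2 ^ (N * n) := by exact_mod_cast h2
    exact Nat.pow_right_injective (le_refl 2) h3
  have htr : trace (pr P ζ⁻¹ N 0) = (N : ℂ)⁻¹ * ∑ m ∈ range N, trace (P ^ m) := by
    simp [pr, trace_smul, trace_sum]
  have hn' : (n : ℂ) = Fintype.card X - (N : ℂ)⁻¹ * ∑ m ∈ range N, trace (P ^ m) := by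
    rw [hn, trace_sub, trace_one, htr]
  have hcast : (2 * κ : ℂ) = N * n := by
    have : ((κ + κ : ℕ) : ℂ) = ((N * n : ℕ) : ℂ) := by rw [hnat]
    push_cast at this
    rw [← this]; ring
  rw [hcast, hn']
  field_simp
  ring

end

/-! ### Specialisation to a permutation of finite order -/

section Perm

variable {X : Type*} [Fintype X] [DecidableEq X]

/-- The permutation matrix of `s`; `(permM s *ᵥ w) x = w (s x)`. -/
def permM (s : Equiv.Perm X) : Matrix X X ℂ := s.permMatrix ℂ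

theorem permM_mulVec (s : Equiv.Perm X) (w : X → ℂ) (x : X) : (permM s *ᵥ w) x = w (s x) := by
  rw [permM, Matrix.permMatrix_mulVec]; rfl

theorem permM_pow (s : Equiv.Perm X) (m : ℕ) : permM s ^ m = permM (s ^ m) := by
  induction m with
  | zero => simp [permM]
  | succ m ih =>
    rw [pow_succ, ih, pow_succ']
    simp only [permM, Matrix.permMatrix_mul]

omit [Fintype X] in
theorem permM_real (s : Equiv.Perm X) : (permM s).map (starRingEnd ℂ) = permM s := by
  ext i j
  simp only [permM, Matrix.map_apply, PEquiv.toMatrix_apply]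
  split_ifs <;> simp

theorem trace_permM_pow (s : Equiv.Perm X) (m : ℕ) :
    trace (permM s ^ m) = (Fintype.card (Function.fixedPoints (s ^ m)) : ℂ) := by
  rw [permM_pow, permM, Matrix.trace_permutation]
  congr 1
  rw [Set.ncard_eq_toFinset_card', Set.toFinset_card]

theorem permM_pow_eq_one (s : Equiv.Perm X) {N : ℕ} (hs : s ^ N = 1) : permM s ^ N = 1 := by
  rw [permM_pow, hs, permM, Matrix.permMatrix_one]

/-- The exponent `κ` of `det (E t)` for a permutation `s` with `s ^ N = 1`: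
`2 κ + ∑_{m<N} #Fix(s^m) = N * card X`. -/
theorem exists_kappa_perm (s : Equiv.Perm X) {N : ℕ} (hN : 0 < N) (hs : s ^ N = 1) {ζ : ℂ}
    (hζ : IsPrimitiveRoot ζ N) :
    ∃ κ : ℕ, (∀ t : ℂ, det (E (permM s) ζ N t) = t ^ κ) ∧
      2 * κ + ∑ m ∈ range N, Fintype.card (Function.fixedPoints (s ^ m))
        = N * Fintype.card X := by
  obtain ⟨κ, hκ⟩ := exists_det_E hN (permM_pow_eq_one s hs) hζ
  refine ⟨κ, hκ, ?_⟩
  have h := two_mul_kappa hN (permM_pow_eq_one s hs) hζ (permM_real s) hκ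
  simp only [trace_permM_pow] at h
  exact_mod_cast h

end Perm

end Fermat.Agent.S20.H36
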