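import Mathlib
import Fermat.Agent.S20.CuspLin_helper36

set_option autoImplicit false

namespace Fermat.Agent.S20.H36

open Matrix Finset

noncomputable section

variable {X : Type*} [Fintype X] [DecidableEq X]

/-- `ζ = exp (2 π i / N)`. -/
def zetaN (N : ℕ) : ℂ := Complex.exp (2 * Real.pi * Complex.I / N)

theorem zetaN_primitive {N : ℕ} (hN : N ≠ 0) : IsPrimitiveRoot (zetaN N) N :=
  Complex.isPrimitiveRoot_exp N hN

/-- The multiplicative parameter `exp (2 π i t / N)`. -/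
def qN (N : ℕ) (t : ℂ) : ℂ := Complex.exp (2 * Real.pi * Complex.I * t / N)

theorem qN_ne_zero (N : ℕ) (t : ℂ) : qN N t ≠ 0 := Complex.exp_ne_zero _

theorem qN_neg (N : ℕ) (t : ℂ) : qN N (-t) = (qN N t)⁻¹ := by
  rw [qN, qN, ← Complex.exp_neg]
  congr 1
  ring

theorem qN_add_one {N : ℕ} (hN : N ≠ 0) (t : ℂ) : qN N (t + 1) = zetaN N * qN N t := by
  rw [qN, qN, zetaN, ← Complex.exp_add]
  congr 1
  have : (N : ℂ) ≠ 0 := Nat.cast_ne_zero.mpr hN
  field_simp
  ring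

theorem norm_qN {N : ℕ} (t : ℂ) : ‖qN N t‖ = Real.exp (-2 * Real.pi * t.im / N) := by
  rw [qN, Complex.norm_exp]
  congr 1
  have h : (2 * (Real.pi : ℂ) * Complex.I * t / (N : ℂ))
      = ((2 * Real.pi / N : ℝ) : ℂ) * (Complex.I * t) := by
    push_cast; ring
  rw [h, Complex.re_ofReal_mul]
  simp
  ring

variable (σ : Equiv.Perm X) (N : ℕ)

/-- The spectral projector `(1/N) ∑_{m<N} ζ^(-a m) P^m` of the permutation matrix of `σ`. -/
def proj (a : ℕ) : Matrix X X ℂ := pr (permM σ) (zetaN N) N a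

/-- `Emat t = ∑_{a<N} exp (2 π i a t / N) • proj a`. -/
def Emat (t : ℂ) : Matrix X X ℂ :=
  ∑ a ∈ range N, Complex.exp (2 * Real.pi * Complex.I * a * t / N) • proj σ N a

variable {σ N}

omit [Fintype X] in
theorem permM_apply (x y : X) : permM σ x y = if σ x = y then 1 else 0 := by
  simp [permM, PEquiv.toMatrix_apply, Equiv.toPEquiv_apply, eq_comm]

theorem proj_eq (a : ℕ) :
    proj σ N a = (1 / (N : ℂ)) • ∑ m ∈ range N, (zetaN N) ^ (-((a * m : ℕ) : ℤ)) • permM σ ^ m := by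
  rw [proj, pr, one_div]
  congr 1
  refine Finset.sum_congr rfl fun m _ => ?_
  rw [_root_.zpow_neg, zpow_natCast, inv_pow]

theorem Emat_eq (t : ℂ) : Emat σ N t = E (permM σ) (zetaN N) N (qN N t) := by
  rw [Emat, E]
  refine Finset.sum_congr rfl fun a _ => ?_
  rw [proj, qN, ← Complex.exp_nat_mul]
  congr 2
  ring

variable [NeZero N] (hσ : σ ^ N = 1)
include hσ

omit hσ in
theorem sum_proj : ∑ a ∈ range N, proj σ N a = 1 :=
  sum_pr (NeZero.pos N) (zetaN_primitive (NeZero.ne N))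

theorem proj_mul_proj {a b : ℕ} (ha : a < N) (hb : b < N) :
    proj σ N a * proj σ N b = if a = b then proj σ N a else 0 :=
  pr_mul_pr (NeZero.pos N) (permM_pow_eq_one σ hσ) (zetaN_primitive (NeZero.ne N)) ha hb

theorem permM_mul_proj (a : ℕ) : permM σ * proj σ N a = zetaN N ^ a • proj σ N a :=
  P_mul_pr (NeZero.pos N) (permM_pow_eq_one σ hσ) (zetaN_primitive (NeZero.ne N)) a

theorem proj_mul_permM (a : ℕ) : proj σ N a * permM σ = zetaN N ^ a • proj σ N a := by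
  have h1 : proj σ N a * permM σ = permM σ * proj σ N a := by
    rw [proj, pr, smul_mul_assoc, mul_smul_comm, Finset.sum_mul, Finset.mul_sum]
    congr 1
    refine Finset.sum_congr rfl fun m _ => ?_
    rw [smul_mul_assoc, mul_smul_comm, ← pow_succ, ← pow_succ']
  rw [h1, permM_mul_proj hσ]

theorem Emat_mul_neg (t : ℂ) : Emat σ N t * Emat σ N (-t) = 1 := by
  rw [Emat_eq, Emat_eq, qN_neg]
  exact E_mul_inv (NeZero.pos N) (permM_pow_eq_one σ hσ) (zetaN_primitive (NeZero.ne N))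
    (qN_ne_zero N t)

theorem Emat_neg_mul (t : ℂ) : Emat σ N (-t) * Emat σ N t = 1 := by
  rw [Emat_eq, Emat_eq, qN_neg]
  exact E_inv_mul (NeZero.pos N) (permM_pow_eq_one σ hσ) (zetaN_primitive (NeZero.ne N))
    (qN_ne_zero N t)

theorem Emat_add_one (t : ℂ) : Emat σ N (t + 1) = permM σ * Emat σ N t := by
  rw [Emat_eq, Emat_eq, qN_add_one (NeZero.ne N)]
  exact E_zeta_mul (NeZero.pos N) (permM_pow_eq_one σ hσ) (zetaN_primitive (NeZero.ne N)) _

theorem Emat_add_one' (t : ℂ) : Emat σ N (t + 1) = Emat σ N t * permM σ := by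
  have hP := permM_pow_eq_one σ hσ
  have hζ := zetaN_primitive (NeZero.ne N)
  rw [Emat_eq, Emat_eq, qN_add_one (NeZero.ne N), mul_comm (zetaN N),
    ← E_mul (NeZero.pos N) hP hζ, E_zeta (NeZero.pos N) hP hζ]

/-- The determinant of `Emat t`. -/
theorem det_Emat (t : ℂ) :
    (Emat σ N t).det = Complex.exp (Real.pi * Complex.I * t *
      (((N * Fintype.card X : ℕ) : ℂ) - ((∑ m ∈ range N, Nat.card {x : X // (σ ^ m) x = x} : ℕ) : ℂ))
        / (N : ℂ)) := by
  classical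
  obtain ⟨κ, hκ, hsum⟩ := exists_kappa_perm σ (NeZero.pos N) hσ (zetaN_primitive (NeZero.ne N))
  have hfix : ∀ m : ℕ, Nat.card {x : X // (σ ^ m) x = x}
      = Fintype.card (Function.fixedPoints (σ ^ m)) := by
    intro m
    rw [Nat.card_eq_fintype_card]
    exact Fintype.card_congr (Equiv.refl _)
  have hsum' : ((N * Fintype.card X : ℕ) : ℂ)
      - ((∑ m ∈ range N, Nat.card {x : X // (σ ^ m) x = x} : ℕ) : ℂ) = 2 * κ := by
    rw [Finset.sum_congr rfl (fun m _ => hfix m), ← hsum]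
    push_cast
    ring
  rw [Emat_eq, hκ, hsum', qN, ← Complex.exp_nat_mul]
  congr 1
  ring

omit hσ in
/-- Entries of the projectors are bounded by `1`. -/
theorem norm_proj_apply_le (a : ℕ) (x y : X) : ‖proj σ N a x y‖ ≤ 1 := by
  have hN0 : (N : ℝ) ≠ 0 := Nat.cast_ne_zero.mpr (NeZero.ne N)
  have hNpos : (0 : ℝ) < N := Nat.cast_pos.mpr (NeZero.pos N)
  have hz : ‖(zetaN N)⁻¹‖ = 1 := by
    rw [norm_inv, (zetaN_primitive (NeZero.ne N)).norm'_eq_one (NeZero.ne N), inv_one]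
  have hent : ∀ m : ℕ, ‖(permM σ ^ m) x y‖ ≤ 1 := by
    intro m
    rw [permM_pow, permM_apply]
    split_ifs <;> simp
  rw [proj, pr]
  simp only [Matrix.smul_apply, Matrix.sum_apply, smul_eq_mul, norm_mul, norm_inv,
    Complex.norm_natCast]
  have h1 : ‖∑ m ∈ range N, (zetaN N)⁻¹ ^ (a * m) * (permM σ ^ m) x y‖ ≤ N := by
    calc ‖∑ m ∈ range N, (zetaN N)⁻¹ ^ (a * m) * (permM σ ^ m) x y‖
        ≤ ∑ m ∈ range N, ‖(zetaN N)⁻¹ ^ (a * m) * (permM σ ^ m) x y‖ := norm_sum_le _ _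
      _ ≤ ∑ _m ∈ range N, (1 : ℝ) := by
          refine Finset.sum_le_sum fun m _ => ?_
          rw [norm_mul, norm_pow, hz, one_pow, one_mul]
          exact hent m
      _ = N := by simp
  calc (N : ℝ)⁻¹ * ‖∑ m ∈ range N, (zetaN N)⁻¹ ^ (a * m) * (permM σ ^ m) x y‖
      ≤ (N : ℝ)⁻¹ * N := by gcongr
    _ = 1 := inv_mul_cancel₀ hN0

omit hσ in
theorem norm_Emat_apply_le {t : ℂ} (ht : 0 ≤ t.im) (x y : X) : ‖Emat σ N t x y‖ ≤ N := by
  have hNpos : (0 : ℝ) < N := Nat.cast_pos.mpr (NeZero.pos N)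
  have hq : ‖qN N t‖ ≤ 1 := by
    rw [norm_qN, Real.exp_le_one_iff]
    have : 0 ≤ 2 * Real.pi * t.im / N := by positivity
    linarith [this, show -2 * Real.pi * t.im / N = -(2 * Real.pi * t.im / N) by ring]
  rw [Emat_eq, E]
  simp only [Matrix.sum_apply, Matrix.smul_apply, smul_eq_mul]
  calc ‖∑ a ∈ range N, qN N t ^ a * pr (permM σ) (zetaN N) N a x y‖
      ≤ ∑ a ∈ range N, ‖qN N t ^ a * pr (permM σ) (zetaN N) N a x y‖ := norm_sum_le _ _
    _ ≤ ∑ _a ∈ range N, (1 : ℝ) := by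
        refine Finset.sum_le_sum fun a _ => ?_
        rw [norm_mul, norm_pow]
        have h1 : ‖qN N t‖ ^ a ≤ 1 := pow_le_one₀ (norm_nonneg _) hq
        have h2 : ‖pr (permM σ) (zetaN N) N a x y‖ ≤ 1 := norm_proj_apply_le (σ := σ) a x y
        calc ‖qN N t‖ ^ a * ‖pr (permM σ) (zetaN N) N a x y‖ ≤ 1 * 1 :=
              mul_le_mul h1 h2 (norm_nonneg _) zero_le_one
          _ = 1 := one_mul 1
    _ = N := by simp

omit hσ in
theorem norm_Emat_neg_apply_le {t : ℂ} (ht : 0 ≤ t.im) (x y : X) :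
    ‖Emat σ N (-t) x y‖ ≤ N * Real.exp (2 * Real.pi * (1 - 1 / (N : ℝ)) * t.im) := by
  have hNpos : (0 : ℝ) < N := Nat.cast_pos.mpr (NeZero.pos N)
  have hN0 : (N : ℝ) ≠ 0 := hNpos.ne'
  have hq : ‖qN N (-t)‖ = Real.exp (2 * Real.pi * t.im / N) := by
    rw [norm_qN]
    congr 1
    simp
  have hq1 : 1 ≤ ‖qN N (-t)‖ := by
    rw [hq]
    exact Real.one_le_exp (by positivity)
  rw [Emat_eq, E]
  simp only [Matrix.sum_apply, Matrix.smul_apply, smul_eq_mul]
  calc ‖∑ a ∈ range N, qN N (-t) ^ a * pr (permM σ) (zetaN N) N a x y‖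
      ≤ ∑ a ∈ range N, ‖qN N (-t) ^ a * pr (permM σ) (zetaN N) N a x y‖ := norm_sum_le _ _
    _ ≤ ∑ _a ∈ range N, Real.exp (2 * Real.pi * (1 - 1 / (N : ℝ)) * t.im) := by
        refine Finset.sum_le_sum fun a ha => ?_
        have ha' : a ≤ N - 1 := by
          have := Finset.mem_range.mp ha
          omega
        rw [norm_mul, norm_pow]
        have h2 : ‖pr (permM σ) (zetaN N) N a x y‖ ≤ 1 := norm_proj_apply_le (σ := σ) a x y
        have h1 : ‖qN N (-t)‖ ^ a ≤ Real.exp (2 * Real.pi * (1 - 1 / (N : ℝ)) * t.im) := by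
          calc ‖qN N (-t)‖ ^ a ≤ ‖qN N (-t)‖ ^ (N - 1) := pow_le_pow_right₀ hq1 ha'
            _ = Real.exp (2 * Real.pi * (1 - 1 / (N : ℝ)) * t.im) := by
                rw [hq, ← Real.exp_nat_mul]
                congr 1
                have hN1 : ((N - 1 : ℕ) : ℝ) = (N : ℝ) - 1 := by
                  rw [Nat.cast_sub (NeZero.pos N)]; simp
                rw [hN1]
                field_simp
        calc ‖qN N (-t)‖ ^ a * ‖pr (permM σ) (zetaN N) N a x y‖
            ≤ Real.exp (2 * Real.pi * (1 - 1 / (N : ℝ)) * t.im) * 1 :=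
              mul_le_mul h1 h2 (norm_nonneg _) (Real.exp_pos _).le
          _ = _ := mul_one _
    _ = N * Real.exp (2 * Real.pi * (1 - 1 / (N : ℝ)) * t.im) := by simp

/-- Each spectral component of `Emat (-t) *ᵥ v t` is invariant under `t ↦ t + 1`. -/
theorem component_periodic (v : ℂ → X → ℂ) (hv : ∀ t, v (t + 1) = permM σ *ᵥ v t) (a : ℕ) (t : ℂ) :
    Complex.exp (-(2 * Real.pi * Complex.I * a * (t + 1) / N)) • (proj σ N a *ᵥ v (t + 1))
      = Complex.exp (-(2 * Real.pi * Complex.I * a * t / N)) • (proj σ N a *ᵥ v t) := by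
  have hN0 : (N : ℂ) ≠ 0 := Nat.cast_ne_zero.mpr (NeZero.ne N)
  rw [hv, Matrix.mulVec_mulVec, proj_mul_permM hσ, Matrix.smul_mulVec, smul_smul]
  congr 1
  rw [zetaN, ← Complex.exp_nat_mul, ← Complex.exp_add]
  congr 1
  field_simp
  ring

/-- `Emat (-t) *ᵥ v t` is invariant under `t ↦ t + 1`. -/
theorem Emat_neg_mulVec_periodic (v : ℂ → X → ℂ) (hv : ∀ t, v (t + 1) = permM σ *ᵥ v t) (t : ℂ) :
    Emat σ N (-(t + 1)) *ᵥ v (t + 1) = Emat σ N (-t) *ᵥ v t := by
  have h1 : Emat σ N (-t) = Emat σ N (-(t + 1)) * permM σ := by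
    have := Emat_add_one' hσ (-(t + 1))
    rw [← this]
    congr 1
    ring
  rw [hv, Matrix.mulVec_mulVec, ← h1]

end

end Fermat.Agent.S20.H36
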