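import Mathlib

/-!
# S20, block C2: removable singularity at the cusp (single function) and holomorphy of
determinants / inverses of matrices of holomorphic functions on `ℍ`.

* `tendsto_of_periodic_of_growth`: a holomorphic `1`-periodic function on `ℍ` which is
  `O(exp (2 π θ Im z))` with `θ < 1` has a limit at `i∞`.
* `isBigO_exp_of_tendsto_zero`: a holomorphic `1`-periodic function tending to `0` at `i∞`
  is `O(exp (-2 π Im z))`.
* `mdiff_matrix_det`, `mdiff_matrix_inv`: determinant and pointwise inverse of a matrix of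
  holomorphic functions.
-/

set_option autoImplicit false

namespace Fermat.Agent.S20.H51

open UpperHalfPlane ModularForm CongruenceSubgroup Function Filter Asymptotics
open scoped MatrixGroups ModularForm Manifold Topology Real

/-- `1`-periodicity on `ℍ` gives periodicity of the extension by `ofComplex`. -/
theorem periodic_comp_ofComplex_of_vadd (g : ℍ → ℂ)
    (hper : ∀ z : ℍ, g ((1 : ℝ) +ᵥ z) = g z) : Periodic (g ∘ ofComplex) ((1 : ℝ) : ℂ) := by
  intro w
  by_cases hw : 0 < w.im
  · have h1 : 0 < (w + ((1 : ℝ) : ℂ)).im := by simpa using hw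
    rw [comp_apply, comp_apply, ofComplex_apply_of_im_pos h1, ofComplex_apply_of_im_pos hw,
      ← hper ⟨w, hw⟩]
    congr 1
    ext
    simp [add_comm]
  · have hw' : w.im ≤ 0 := not_lt.mp hw
    have h1 : (w + ((1 : ℝ) : ℂ)).im ≤ 0 := by simpa using hw'
    rw [comp_apply, comp_apply, ofComplex_apply_of_im_nonpos h1, ofComplex_apply_of_im_nonpos hw']

/-- The function `z ↦ exp (2 π i z)` on `ℍ` is holomorphic. -/
theorem mdiff_qParam_one : MDiff (fun z : ℍ => Function.Periodic.qParam 1 (z : ℂ)) := by
  rw [UpperHalfPlane.mdifferentiable_iff]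
  have h : DifferentiableOn ℂ (Function.Periodic.qParam 1) {z : ℂ | 0 < z.im} :=
    (Function.Periodic.differentiable_qParam (h := 1)).differentiableOn
  refine h.congr fun z hz => ?_
  simp only [comp_apply, ofComplex_apply_of_im_pos (show 0 < z.im from hz)]

theorem tendsto_of_periodic_of_growth (g : ℍ → ℂ) (hg : MDiff g)
    (hper : ∀ z : ℍ, g ((1 : ℝ) +ᵥ z) = g z) (θ : ℝ) (hθ : θ < 1)
    (hO : g =O[atImInfty] fun z : ℍ => Real.exp (2 * Real.pi * θ * z.im)) :
    ∃ c : ℂ, Filter.Tendsto g atImInfty (nhds c) := by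
  set G : ℍ → ℂ := fun z => Function.Periodic.qParam 1 (z : ℂ) * g z with hG
  have hGmd : MDiff G := mdiff_qParam_one.mul hg
  have hq1 : ∀ z : ℍ, Function.Periodic.qParam 1 (((1 : ℝ) +ᵥ z : ℍ) : ℂ) =
      Function.Periodic.qParam 1 (z : ℂ) := by
    intro z
    simp only [Function.Periodic.qParam, coe_vadd, Complex.ofReal_one, div_one]
    rw [mul_add, mul_one, Complex.exp_add, Complex.exp_two_pi_mul_I, one_mul]
  have hGper : Periodic (G ∘ ofComplex) ((1 : ℝ) : ℂ) := by
    apply periodic_comp_ofComplex_of_vadd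
    intro z
    simp only [hG, hq1, hper]
  -- decay of `G`
  have hqO : (fun z : ℍ => Function.Periodic.qParam 1 (z : ℂ)) =O[atImInfty]
      fun z : ℍ => Real.exp (-2 * Real.pi * z.im) := by
    refine IsBigO.of_bound 1 (Eventually.of_forall fun z => ?_)
    rw [Function.Periodic.norm_qParam, div_one, one_mul, Real.norm_eq_abs, abs_of_pos (Real.exp_pos _)]
    rfl
  have hGO : G =O[atImInfty] fun z : ℍ => Real.exp (-(2 * Real.pi * (1 - θ)) * z.im) := by
    have := hqO.mul hO
    refine this.congr_right fun z => ?_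
    rw [← Real.exp_add]
    congr 1
    ring
  have hexp0 : Tendsto (fun z : ℍ => Real.exp (-(2 * Real.pi * (1 - θ)) * z.im)) atImInfty
      (𝓝 0) := by
    have hneg : -(2 * Real.pi * (1 - θ)) < 0 := by
      have : 0 < 2 * Real.pi * (1 - θ) := by
        have := Real.pi_pos
        have : 0 < 1 - θ := by linarith
        positivity
      linarith
    have h1 : Tendsto (fun y : ℝ => Real.exp (-(2 * Real.pi * (1 - θ)) * y)) atTop (𝓝 0) :=
      Real.tendsto_exp_atBot.comp (tendsto_id.const_mul_atTop_of_neg hneg)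
    exact h1.comp tendsto_comap
  have hGzero : IsZeroAtImInfty G := hGO.trans_tendsto hexp0
  have hGbdd : IsBoundedAtImInfty G := hGzero.boundedAtFilter
  have hFan : AnalyticAt ℂ (cuspFunction 1 G) 0 :=
    analyticAt_cuspFunction_zero one_pos hGper hGmd hGbdd
  have hF0 : cuspFunction 1 G 0 = 0 := hGzero.cuspFunction_apply_zero one_pos
  have hder : HasDerivAt (cuspFunction 1 G) (deriv (cuspFunction 1 G) 0) 0 :=
    hFan.differentiableAt.hasDerivAt
  have hslope := hasDerivAt_iff_tendsto_slope.mp hder
  have hqt : Tendsto (fun z : ℍ => Function.Periodic.qParam 1 (z : ℂ)) atImInfty (𝓝[≠] 0) :=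
    (Function.Periodic.qParam_tendsto one_pos).comp tendsto_coe_atImInfty
  refine ⟨deriv (cuspFunction 1 G) 0, (hslope.comp hqt).congr fun z => ?_⟩
  have hne : Function.Periodic.qParam 1 (z : ℂ) ≠ 0 := Function.Periodic.qParam_ne_zero _
  simp only [comp_apply, slope, vsub_eq_sub, sub_zero, hF0, smul_eq_mul]
  rw [eq_cuspFunction z one_ne_zero hGper, hG]
  field_simp

theorem isBigO_exp_of_tendsto_zero (g : ℍ → ℂ) (hg : MDiff g)
    (hper : ∀ z : ℍ, g ((1 : ℝ) +ᵥ z) = g z)
    (h0 : Filter.Tendsto g atImInfty (nhds 0)) :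
    g =O[atImInfty] fun z : ℍ => Real.exp (-2 * Real.pi * z.im) := by
  have hz : IsZeroAtImInfty g := h0
  have := hz.exp_decay_atImInfty one_pos (periodic_comp_ofComplex_of_vadd g hper) hg
    hz.boundedAtFilter
  simpa using this

/-- Variant: a holomorphic `1`-periodic function with a limit `c` at `i∞` converges to it
exponentially fast. -/
theorem isBigO_exp_sub_of_tendsto (g : ℍ → ℂ) (hg : MDiff g)
    (hper : ∀ z : ℍ, g ((1 : ℝ) +ᵥ z) = g z) (c : ℂ)
    (h0 : Filter.Tendsto g atImInfty (nhds c)) :
    (fun z : ℍ => g z - c) =O[atImInfty] fun z : ℍ => Real.exp (-2 * Real.pi * z.im) := by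
  refine isBigO_exp_of_tendsto_zero (fun z => g z - c) ?_ (fun z => by simp only [hper]) ?_
  · exact hg.sub mdifferentiable_const
  · simpa using h0.sub_const c

/-- Combined form: growth `< |q|⁻¹` gives a limit `c` and exponential convergence to it. -/
theorem exists_tendsto_isBigO_of_periodic_of_growth (g : ℍ → ℂ) (hg : MDiff g)
    (hper : ∀ z : ℍ, g ((1 : ℝ) +ᵥ z) = g z) (θ : ℝ) (hθ : θ < 1)
    (hO : g =O[atImInfty] fun z : ℍ => Real.exp (2 * Real.pi * θ * z.im)) :
    ∃ c : ℂ, Filter.Tendsto g atImInfty (nhds c) ∧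
      (fun z : ℍ => g z - c) =O[atImInfty] fun z : ℍ => Real.exp (-2 * Real.pi * z.im) := by
  obtain ⟨c, hc⟩ := tendsto_of_periodic_of_growth g hg hper θ hθ hO
  exact ⟨c, hc, isBigO_exp_sub_of_tendsto g hg hper c hc⟩

/-- Finite sums of holomorphic functions on `ℍ` are holomorphic. -/
theorem mdiff_finset_sum {ι : Type*} (s : Finset ι) (f : ι → ℍ → ℂ)
    (hf : ∀ i ∈ s, MDiff (f i)) : MDiff (fun z => ∑ i ∈ s, f i z) := by
  classical
  induction s using Finset.induction_on with
  | empty => simpa using (mdifferentiable_const : MDiff (fun _ : ℍ => (0 : ℂ)))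
  | insert a s ha ih =>
    have h1 : MDiff (f a) := hf a (Finset.mem_insert_self a s)
    have h2 := ih (fun i hi => hf i (Finset.mem_insert_of_mem hi))
    have h3 := h1.add h2
    have h4 : (fun z => ∑ i ∈ insert a s, f i z) = f a + fun z => ∑ i ∈ s, f i z := by
      funext z
      simp [Finset.sum_insert ha]
    rw [h4]
    exact h3

/-- Finite products of holomorphic functions on `ℍ` are holomorphic. -/
theorem mdiff_finset_prod {ι : Type*} (s : Finset ι) (f : ι → ℍ → ℂ)
    (hf : ∀ i ∈ s, MDiff (f i)) : MDiff (fun z => ∏ i ∈ s, f i z) := by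
  classical
  induction s using Finset.induction_on with
  | empty => simpa using (mdifferentiable_const : MDiff (fun _ : ℍ => (1 : ℂ)))
  | insert a s ha ih =>
    have h1 : MDiff (f a) := hf a (Finset.mem_insert_self a s)
    have h2 := ih (fun i hi => hf i (Finset.mem_insert_of_mem hi))
    have h3 := h1.mul h2
    have h4 : (fun z => ∏ i ∈ insert a s, f i z) = f a * fun z => ∏ i ∈ s, f i z := by
      funext z
      simp [Finset.prod_insert ha]
    rw [h4]
    exact h3

/-- The determinant of a matrix of holomorphic functions on `ℍ` is holomorphic. -/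
theorem mdiff_matrix_det {n : Type*} [Fintype n] [DecidableEq n] (A : ℍ → Matrix n n ℂ)
    (hA : ∀ i j, MDiff (fun z => A z i j)) : MDiff (fun z => (A z).det) := by
  have h : (fun z => (A z).det) =
      fun z => ∑ σ : Equiv.Perm n, ((Equiv.Perm.sign σ : ℤ) : ℂ) * ∏ i, A z (σ i) i := by
    funext z
    rw [Matrix.det_apply']
  rw [h]
  refine mdiff_finset_sum _ _ fun σ _ => ?_
  exact (mdifferentiable_const (c := (((Equiv.Perm.sign σ : ℤ) : ℂ)))).mul
    (mdiff_finset_prod _ _ fun i _ => hA (σ i) i)

/-- The entries of the adjugate of a matrix of holomorphic functions on `ℍ` are holomorphic. -/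
theorem mdiff_matrix_adjugate {n : Type*} [Fintype n] [DecidableEq n] (A : ℍ → Matrix n n ℂ)
    (hA : ∀ i j, MDiff (fun z => A z i j)) (i j : n) :
    MDiff (fun z => (A z).adjugate i j) := by
  have h : (fun z => (A z).adjugate i j) =
      fun z => ((A z).updateRow j (Pi.single i 1)).det := by
    funext z
    rw [Matrix.adjugate_apply]
  rw [h]
  refine mdiff_matrix_det _ fun a b => ?_
  by_cases haj : a = j
  · subst haj
    simp only [Matrix.updateRow_self]
    exact mdifferentiable_const
  · simp only [Matrix.updateRow_ne haj]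
    exact hA a b

/-- The entries of the pointwise inverse of an everywhere invertible matrix of holomorphic
functions on `ℍ` are holomorphic. -/
theorem mdiff_matrix_inv {n : Type*} [Fintype n] [DecidableEq n] (A : ℍ → Matrix n n ℂ)
    (hA : ∀ i j, MDiff (fun z => A z i j)) (hdet : ∀ z, (A z).det ≠ 0) (i j : n) :
    MDiff (fun z => (A z)⁻¹ i j) := by
  have h : (fun z => (A z)⁻¹ i j) =
      (fun z => (A z).det)⁻¹ * fun z => (A z).adjugate i j := by
    funext z
    rw [Matrix.inv_def, Ring.inverse_eq_inv']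
    simp [Matrix.smul_apply]
  rw [h]
  exact ((mdiff_matrix_det A hA).inv hdet).mul (mdiff_matrix_adjugate A hA i j)

end Fermat.Agent.S20.H51
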