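import Mathlib
import Fermat.Agent.S20.Defs_helper78
import Fermat.Agent.S20.Util_helper78
import Fermat.Agent.S20.CuspDefs_helper78
import Fermat.Agent.S20.CuspRemovable_helper51
import Fermat.Agent.S20.CuspFourier_helper36
import Fermat.Agent.S24.CosetOrbits_helper35

/-!
# S20, block C core: the cusp package

`E z := Emat σ N z`, where `σ` is the permutation of the cosets induced by `T⁻¹`; the vector
`E(z)⁻¹ • vec f z` is holomorphic, `1`-periodic and grows slower than `|q|⁻¹`, hence has a limit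
`lam f` at `i∞`; `lam f = 0` forces every conjugate of `f` to decay like `q`, so `f / Δ` is again a
modular form.
-/

set_option autoImplicit false

namespace Fermat.Agent.S20.H36

open UpperHalfPlane ModularForm CongruenceSubgroup Filter Asymptotics Matrix
open scoped MatrixGroups ModularForm Manifold Topology

/-! ### `T ^ N` acts trivially on the cosets -/

theorem smul_q₀_of_mem {N : ℕ} {δ : SL(2, ℤ)} (hδ : δ ∈ Gamma0 N) :
    δ • Fermat.Agent.S23.H30.q₀ N = Fermat.Agent.S23.H30.q₀ N := by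
  change (Matrix.SpecialLinearGroup.mapGL ℝ).rangeRestrict δ •
    (QuotientGroup.mk (1 : ↥𝒮ℒ) : ↥𝒮ℒ ⧸ ((Gamma0 N : Subgroup (GL (Fin 2) ℝ))).subgroupOf 𝒮ℒ)
    = QuotientGroup.mk (1 : ↥𝒮ℒ)
  rw [MulAction.Quotient.smul_mk, smul_eq_mul, mul_one, QuotientGroup.eq, mul_one]
  apply Subgroup.inv_mem
  rw [Subgroup.mem_subgroupOf]
  exact Subgroup.mem_map_of_mem _ hδ

theorem coset_eq_of_mem {N : ℕ} {α β : SL(2, ℤ)} (h : α⁻¹ * β ∈ Gamma0 N) :
    coset N β = coset N α := by
  have hβ : coset N β = coset N (α * (α⁻¹ * β)) := by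
    congr 1
    group
  rw [hβ, ← smul_coset, coset_def N (α⁻¹ * β), smul_q₀_of_mem h, ← coset_def]

theorem T_pow_smul_Q (N : ℕ) (q : Q N) : ModularGroup.T ^ N • q = q := by
  obtain ⟨γ, rfl⟩ := coset_surjective N q
  rw [smul_coset]
  apply coset_eq_of_mem
  have h := Fermat.Agent.S24.H35.T_pow_smul N (QuotientGroup.mk γ : SL(2, ℤ) ⧸ Gamma0 N)
  rw [MulAction.Quotient.smul_mk, smul_eq_mul, QuotientGroup.eq] at h
  have h' := Subgroup.inv_mem _ h
  simpa [_root_.mul_inv_rev] using h'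

/-- The permutation of the cosets induced by `T⁻¹`. -/
noncomputable def sigT (N : ℕ) : Equiv.Perm (Q N) :=
  MulAction.toPerm (ModularGroup.T⁻¹ : SL(2, ℤ))

theorem sigT_apply (N : ℕ) (q : Q N) : sigT N q = ModularGroup.T⁻¹ • q := rfl

theorem sigT_pow_apply (N m : ℕ) (q : Q N) : (sigT N ^ m) q = (ModularGroup.T ^ m)⁻¹ • q := by
  unfold sigT
  rw [← MulAction.toPermHom_apply, ← map_pow, inv_pow]
  rfl

theorem sigT_pow (N : ℕ) : sigT N ^ N = 1 := by
  ext q
  rw [sigT_pow_apply, Equiv.Perm.one_apply, inv_smul_eq_iff, T_pow_smul_Q]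

theorem card_fixed_sigT (N m : ℕ) : Nat.card {q : Q N // (sigT N ^ m) q = q} = fixT N m := by
  unfold fixT
  refine Nat.card_congr (Equiv.subtypeEquivRight fun q => ?_)
  rw [sigT_pow_apply, inv_smul_eq_iff]
  exact eq_comm

/-! ### The matrix function `E` -/

/-- The matrix function `E`. -/
noncomputable def cuspE (N : ℕ) [NeZero N] (z : ℍ) : Matrix (Q N) (Q N) ℂ :=
  Emat (sigT N) N (z : ℂ)

theorem cuspE_inv (N : ℕ) [NeZero N] (z : ℍ) : (cuspE N z)⁻¹ = Emat (sigT N) N (-(z : ℂ)) :=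
  Matrix.inv_eq_right_inv (Emat_mul_neg (sigT_pow N) _)

theorem det_cuspE (N : ℕ) [NeZero N] (z : ℍ) :
    (cuspE N z).det = Complex.exp (Real.pi * Complex.I * (z : ℂ) *
        (((N * Fintype.card (Q N) : ℕ) : ℂ) - (sumFixT N : ℂ)) / (N : ℂ)) := by
  rw [cuspE, det_Emat (sigT_pow N), Finset.sum_congr rfl (fun m _ => card_fixed_sigT N m)]
  rfl

/-! ### The normalised vector -/

section

variable {N : ℕ} [NeZero N] {k : ℤ}

/-- The normalised vector `E(z)⁻¹ • vec f z`. -/
noncomputable def wvec (f : ModularForm (Gamma0 N) k) (z : ℍ) : Q N → ℂ :=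
  Emat (sigT N) N (-(z : ℂ)) *ᵥ vec f z

theorem wvec_apply (f : ModularForm (Gamma0 N) k) (z : ℍ) (q : Q N) :
    wvec f z q = ∑ q' : Q N, Emat (sigT N) N (-(z : ℂ)) q q' * conj f q' z := rfl

theorem vec_vadd_one (f : ModularForm (Gamma0 N) k) (z : ℍ) :
    vec f ((1 : ℝ) +ᵥ z) = permM (sigT N) *ᵥ vec f z := by
  funext q
  rw [permM_mulVec]
  exact conj_vadd_one f q z

theorem wvec_vadd_one (f : ModularForm (Gamma0 N) k) (z : ℍ) :
    wvec f ((1 : ℝ) +ᵥ z) = wvec f z := by
  unfold wvec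
  have h1 : Emat (sigT N) N (-(z : ℂ))
      = Emat (sigT N) N (-(((1 : ℝ) +ᵥ z : ℍ) : ℂ)) * permM (sigT N) := by
    rw [← Emat_add_one' (sigT_pow N)]
    congr 1
    rw [UpperHalfPlane.coe_vadd]
    push_cast
    ring
  rw [vec_vadd_one, Matrix.mulVec_mulVec, ← h1]

theorem mdiff_of_differentiable (F : ℂ → ℂ) (hF : Differentiable ℂ F) :
    MDiff (fun z : ℍ => F (z : ℂ)) := by
  rw [UpperHalfPlane.mdifferentiable_iff]
  refine hF.differentiableOn.congr fun z hz => ?_
  simp only [Function.comp_apply, ofComplex_apply_of_im_pos (show 0 < z.im from hz)]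

theorem differentiable_Emat_neg_apply {X : Type*} [Fintype X] [DecidableEq X] (σ : Equiv.Perm X)
    (M : ℕ) (x y : X) : Differentiable ℂ (fun t : ℂ => Emat σ M (-t) x y) := by
  have h : (fun t : ℂ => Emat σ M (-t) x y) = fun t => ∑ a ∈ Finset.range M,
      Complex.exp (2 * Real.pi * Complex.I * a * (-t) / M) * proj σ M a x y := by
    funext t
    simp [Emat, Matrix.sum_apply, Matrix.smul_apply]
  rw [h]
  fun_prop

theorem wvec_mdiff (f : ModularForm (Gamma0 N) k) (q : Q N) :
    MDiff (fun z : ℍ => wvec f z q) := by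
  have h : (fun z : ℍ => wvec f z q)
      = fun z : ℍ => ∑ q' ∈ Finset.univ, Emat (sigT N) N (-(z : ℂ)) q q' * conj f q' z := by
    funext z
    rfl
  rw [h]
  refine H51.mdiff_finset_sum _ _ fun q' _ => ?_
  exact (mdiff_of_differentiable _ (differentiable_Emat_neg_apply (sigT N) N q q')).mul
    (conj_mdiff f q')

theorem wvec_isBigO (f : ModularForm (Gamma0 N) k) (q : Q N) :
    (fun z : ℍ => wvec f z q) =O[atImInfty]
      fun z : ℍ => Real.exp (2 * Real.pi * (1 - 1 / (N : ℝ)) * z.im) := by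
  have h : ∀ q' : Q N, (fun z : ℍ => Emat (sigT N) N (-(z : ℂ)) q q' * conj f q' z) =O[atImInfty]
      fun z : ℍ => Real.exp (2 * Real.pi * (1 - 1 / (N : ℝ)) * z.im) := by
    intro q'
    have h1 : (fun z : ℍ => Emat (sigT N) N (-(z : ℂ)) q q') =O[atImInfty]
        fun z : ℍ => Real.exp (2 * Real.pi * (1 - 1 / (N : ℝ)) * z.im) := by
      refine IsBigO.of_bound N (Eventually.of_forall fun z => ?_)
      rw [Real.norm_eq_abs, abs_of_pos (Real.exp_pos _)]
      exact norm_Emat_neg_apply_le (t := (z : ℂ)) z.im_pos.le q q'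
    have h2 : conj f q' =O[atImInfty] (fun _ : ℍ => (1 : ℝ)) := conj_bdd f q'
    simpa using h1.mul h2
  have h' : (fun z : ℍ => wvec f z q)
      = fun z : ℍ => ∑ q' ∈ Finset.univ, Emat (sigT N) N (-(z : ℂ)) q q' * conj f q' z := by
    funext z
    rfl
  rw [h']
  exact IsBigO.fun_sum fun q' _ => h q'

theorem exists_lim_wvec (f : ModularForm (Gamma0 N) k) (q : Q N) :
    ∃ c : ℂ, Tendsto (fun z : ℍ => wvec f z q) atImInfty (𝓝 c) := by
  refine H51.tendsto_of_periodic_of_growth _ (wvec_mdiff f q)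
    (fun z => by rw [wvec_vadd_one]) (1 - 1 / (N : ℝ)) ?_ (wvec_isBigO f q)
  have hN : (0 : ℝ) < N := Nat.cast_pos.mpr (NeZero.pos N)
  have : (0 : ℝ) < 1 / N := by positivity
  linarith

end

/-- The limit of the normalised vector at `i∞`. -/
noncomputable def cuspLam (N : ℕ) [NeZero N] (k : ℤ) (f : ModularForm (Gamma0 N) k) : Q N → ℂ :=
  fun q => Classical.choose (exists_lim_wvec f q)

section

variable {N : ℕ} [NeZero N] {k : ℤ}

theorem tendsto_wvec (f : ModularForm (Gamma0 N) k) :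
    Tendsto (fun z : ℍ => wvec f z) atImInfty (𝓝 (cuspLam N k f)) := by
  rw [tendsto_pi_nhds]
  intro q
  exact Classical.choose_spec (exists_lim_wvec f q)

theorem conj_isBigO_of_lam_eq_zero (f : ModularForm (Gamma0 N) k) (h : cuspLam N k f = 0)
    (q : Q N) : conj f q =O[atImInfty] fun z : ℍ => Real.exp (-2 * Real.pi * z.im) := by
  have hw : ∀ q' : Q N, (fun z : ℍ => wvec f z q') =O[atImInfty]
      fun z : ℍ => Real.exp (-2 * Real.pi * z.im) := by
    intro q'
    refine H51.isBigO_exp_of_tendsto_zero _ (wvec_mdiff f q') (fun z => by rw [wvec_vadd_one]) ?_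
    have h0 := (tendsto_pi_nhds.mp (tendsto_wvec f)) q'
    rw [h] at h0
    exact h0
  have hvec : ∀ z : ℍ, vec f z = Emat (sigT N) N (z : ℂ) *ᵥ wvec f z := by
    intro z
    unfold wvec
    rw [Matrix.mulVec_mulVec, Emat_mul_neg (sigT_pow N), Matrix.one_mulVec]
  have h' : conj f q
      = fun z : ℍ => ∑ q' ∈ Finset.univ, Emat (sigT N) N (z : ℂ) q q' * wvec f z q' := by
    funext z
    exact congrFun (hvec z) q
  rw [h']
  refine IsBigO.fun_sum fun q' _ => ?_
  have h1 : (fun z : ℍ => Emat (sigT N) N (z : ℂ) q q') =O[atImInfty] (fun _ : ℍ => (1 : ℝ)) := by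
    refine IsBigO.of_bound N (Eventually.of_forall fun z => ?_)
    rw [norm_one, mul_one]
    exact norm_Emat_apply_le (t := (z : ℂ)) z.im_pos.le q q'
  simpa using h1.mul (hw q')

/-- Kernel half: if all conjugates of `f` decay like `q`, then `f = Δ g`. -/
theorem exists_div_discriminant (f : ModularForm (Gamma0 N) k)
    (h : ∀ q : Q N, conj f q =O[atImInfty] fun z : ℍ => Real.exp (-2 * Real.pi * z.im)) :
    ∃ g : ModularForm (Gamma0 N) (k - 12), ∀ z : ℍ, f z = ModularForm.discriminant z * g z := by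
  have hΔ : ∀ γ : SL(2, ℤ), (ModularForm.discriminant ∣[(12 : ℤ)] γ) = ModularForm.discriminant :=
    fun γ => SlashInvariantForm.slash_action_generators_SL2Z discriminant_S_invariant
      discriminant_T_invariant γ
  have hslash : ∀ γ : SL(2, ℤ), ((f : ℍ → ℂ) / ModularForm.discriminant) ∣[k - 12] γ
      = ((f : ℍ → ℂ) ∣[k] γ) / ModularForm.discriminant := by
    intro γ
    rw [div_slash_SL2, hΔ]
  have hmd : MDiff ((f : ℍ → ℂ) / ModularForm.discriminant) :=
    (ModularFormClass.holo f).div CuspForm.discriminant.holo' discriminant_ne_zero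
  refine ⟨mkModularForm N (k - 12) ((f : ℍ → ℂ) / ModularForm.discriminant) hmd ?_ ?_, ?_⟩
  · intro γ hγ
    rw [hslash, slash_Gamma0 f γ hγ]
  · intro γ
    rw [hslash, slash_eq_conj]
    have hO := (h (coset N γ⁻¹)).trans exp_isBigO_discriminant
    rw [IsBoundedAtImInfty, BoundedAtFilter]
    exact (div_isBoundedUnder_of_isBigO hO).isBigO_one ℝ
  · intro z
    rw [mkModularForm_apply, Pi.div_apply, mul_div_cancel₀ _ (discriminant_ne_zero z)]

end

/-- **The cusp package** (block C core). -/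
theorem cuspPackage (N : ℕ) [NeZero N] : CuspPackage N := by
  refine ⟨cuspE N, cuspLam N, det_cuspE N, ?_, ?_, ?_⟩
  · intro z q q'
    rw [cuspE_inv]
    exact norm_Emat_neg_apply_le (t := (z : ℂ)) z.im_pos.le q q'
  · intro k f
    simp only [cuspE_inv]
    exact tendsto_wvec f
  · intro k f h
    exact exists_div_discriminant f (conj_isBigO_of_lam_eq_zero f h)

end Fermat.Agent.S20.H36
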