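import Mathlib

/-!
# Block L of S20 (fallback): the discriminant is asymptotic to `q` at `i∞`
-/

set_option autoImplicit false

namespace Fermat.Agent.S20

open UpperHalfPlane ModularForm Filter Complex
open scoped Topology Real

/-- `Δ(z) e^{-2πiz} → 1` as `Im z → ∞`. -/
theorem discriminant_asymp_h78 :
    Tendsto (fun z : ℍ => ModularForm.discriminant z *
      Complex.exp (-(2 * Real.pi * Complex.I * (z : ℂ)))) atImInfty (𝓝 1) := by
  refine Tendsto.congr (fun z => ?_) ModularForm.tendsto_atImInfty_tprod_one_sub_eta_q_pow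
  rw [ModularForm.discriminant_eq_q_prod]
  have h : Function.Periodic.qParam 1 (z : ℂ) * Complex.exp (-(2 * Real.pi * Complex.I * (z : ℂ))) = 1 := by
    rw [Function.Periodic.qParam, ← Complex.exp_add]
    simp
  calc (∏' n, (1 - ModularForm.eta_q n z) ^ 24)
      = (Function.Periodic.qParam 1 (z : ℂ) * Complex.exp (-(2 * Real.pi * Complex.I * (z : ℂ)))) *
          ∏' n, (1 - ModularForm.eta_q n z) ^ 24 := by rw [h, one_mul]
    _ = _ := by ring

end Fermat.Agent.S20
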