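import Mathlib

/-!
# Abstract graded freeness over `ℂ[e₄, e₆]` (module F of S20, algebraic core)

`R` is a commutative `ℂ`-algebra (in the application: functions `ℍ → ℂ`), `A k` and `M k` are
`ℂ`-subspaces of `R` (level one forms, resp. forms of level `Γ₀(N)`, of weight `k`).
If `e₄, e₆` is a regular sequence on `M`, a family which is independent (resp. spanning) modulo
`e₄ M + e₆ M` weight by weight is `A`-linearly independent (resp. `A`-generating).
-/

set_option autoImplicit false

namespace Fermat.Agent.S20.H37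

open Finset

variable {R : Type*} [CommRing R] [Algebra ℂ R]

/-- The abstract graded setting. -/
structure GradedSetting (A M : ℤ → Submodule ℂ R) (e4 e6 : R) : Prop where
  e4_mem : e4 ∈ A 4
  e6_mem : e6 ∈ A 6
  one_mem : (1 : R) ∈ A 0
  A_mul_A : ∀ {i j : ℤ} {a b : R}, a ∈ A i → b ∈ A j → a * b ∈ A (i + j)
  A_mul_M : ∀ {i j : ℤ} {a f : R}, a ∈ A i → f ∈ M j → a * f ∈ M (i + j)
  A_neg : ∀ k : ℤ, k < 0 → A k = ⊥
  M_neg : ∀ k : ℤ, k < 0 → M k = ⊥
  A_dec : ∀ (k : ℤ) (a : R), a ∈ A k →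
    ∃ (c : ℂ) (m : ℕ) (b : R), b ∈ A (k - 4) ∧ a = c • e6 ^ m + e4 * b ∧ (c ≠ 0 → k = 6 * m)
  reg1 : ∀ (k : ℤ) (f : R), f ∈ M k → e4 * f = 0 → f = 0
  reg2 : ∀ (k : ℤ) (f g : R), f ∈ M k → g ∈ M (k + 2) → e6 * f = e4 * g →
    ∃ m ∈ M (k - 4), f = e4 * m

/-- Membership in `e₄ M_{k-4} + e₆ M_{k-6}`. -/
def InJ (M : ℤ → Submodule ℂ R) (e4 e6 : R) (k : ℤ) (x : R) : Prop :=
  ∃ g ∈ M (k - 4), ∃ h ∈ M (k - 6), x = e4 * g + e6 * h

/-- Weight by weight independence modulo `e₄ M + e₆ M`. -/
def IndepMod (M : ℤ → Submodule ℂ R) (e4 e6 : R) {ι : Type*} [Fintype ι] (d : ι → ℤ)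
    (F : ι → R) : Prop :=
  ∀ (k : ℤ) (c : ι → ℂ), (∀ j, c j ≠ 0 → d j = k) → InJ M e4 e6 k (∑ j, c j • F j) → ∀ j, c j = 0

/-- Weight by weight spanning modulo `e₄ M + e₆ M`. -/
def SpanMod (M : ℤ → Submodule ℂ R) (e4 e6 : R) {ι : Type*} [Fintype ι] (d : ι → ℤ)
    (F : ι → R) : Prop :=
  ∀ (k : ℤ) (f : R), f ∈ M k →
    ∃ c : ι → ℂ, (∀ j, c j ≠ 0 → d j = k) ∧ InJ M e4 e6 k (f - ∑ j, c j • F j)

/-- `A`-linear independence. -/
def AIndep (A : ℤ → Submodule ℂ R) {ι : Type*} [Fintype ι] (d : ι → ℤ) (F : ι → R) : Prop :=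
  ∀ (k : ℤ) (a : ι → R), (∀ j, a j ∈ A (k - d j)) → ∑ j, a j * F j = 0 → ∀ j, a j = 0

/-- `A`-generation. -/
def AGen (A M : ℤ → Submodule ℂ R) {ι : Type*} [Fintype ι] (d : ι → ℤ) (F : ι → R) : Prop :=
  ∀ (k : ℤ) (f : R), f ∈ M k → ∃ a : ι → R, (∀ j, a j ∈ A (k - d j)) ∧ f = ∑ j, a j * F j

section

variable {A M : ℤ → Submodule ℂ R} {e4 e6 : R}

theorem mem_of_eq {B : ℤ → Submodule ℂ R} {x : R} {i j : ℤ} (h : x ∈ B i) (hij : i = j) :
    x ∈ B j := hij ▸ h

theorem GradedSetting.e6_pow_mem (hS : GradedSetting A M e4 e6) (m : ℕ) :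
    e6 ^ m ∈ A (6 * m) := by
  induction m with
  | zero => simpa using hS.one_mem
  | succ m ih =>
    rw [pow_succ]
    exact mem_of_eq (hS.A_mul_A ih hS.e6_mem) (by push_cast; ring)

theorem GradedSetting.iter_reg2 (hS : GradedSetting A M e4 e6) (m : ℕ) :
    ∀ (k : ℤ) (f g : R), f ∈ M k → g ∈ M (k + 6 * m - 4) → e6 ^ m * f = e4 * g →
      ∃ h ∈ M (k - 4), f = e4 * h := by
  induction m with
  | zero =>
    intro k f g _ hg h
    refine ⟨g, mem_of_eq hg (by simp), ?_⟩
    simpa using h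
  | succ m ih =>
    intro k f g hf hg h
    have hf' : e6 ^ m * f ∈ M (6 * m + k) := hS.A_mul_M (hS.e6_pow_mem m) hf
    have hg' : g ∈ M (6 * m + k + 2) := mem_of_eq hg (by push_cast; ring)
    have h' : e6 * (e6 ^ m * f) = e4 * g := by rw [← h, pow_succ]; ring
    obtain ⟨h₁, hh₁, hh₁'⟩ := hS.reg2 (6 * m + k) (e6 ^ m * f) g hf' hg' h'
    exact ih k f h₁ hf (mem_of_eq hh₁ (by ring)) hh₁'

/-- Key step: independence modulo `(e₄, e₆)` implies `A`-linear independence. -/
theorem aIndep_of_indepMod (hS : GradedSetting A M e4 e6) {ι : Type*} [Fintype ι]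
    (d : ι → ℤ) (F : ι → R) (hF : ∀ j, F j ∈ M (d j)) (hind : IndepMod M e4 e6 d F) :
    AIndep A d F := by
  classical
  obtain ⟨k₀, hk₀⟩ : ∃ k₀ : ℤ, ∀ j, k₀ ≤ d j := by
    refine ⟨-(∑ j, |d j|), fun j => ?_⟩
    have h1 : |d j| ≤ ∑ j, |d j| :=
      Finset.single_le_sum (fun i _ => abs_nonneg (d i)) (Finset.mem_univ j)
    have h2 : -|d j| ≤ d j := neg_abs_le (d j)
    linarith
  suffices H : ∀ n : ℕ, ∀ k : ℤ, k < k₀ + n → ∀ a : ι → R, (∀ j, a j ∈ A (k - d j)) →
      ∑ j, a j * F j = 0 → ∀ j, a j = 0 by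
    intro k a ha hsum
    exact H (k - k₀ + 1).toNat k (by omega) a ha hsum
  intro n
  induction n with
  | zero =>
    intro k hk a ha _ j
    have hneg : k - d j < 0 := by have := hk₀ j; simp at hk; omega
    have := ha j
    rw [hS.A_neg _ hneg] at this
    simpa using this
  | succ n ih =>
    intro k hk a ha hsum
    -- decompose the coefficients
    choose c m b hb hab hcm using fun j => hS.A_dec (k - d j) (a j) (ha j)
    have hbF : ∑ j, b j * F j ∈ M (k - 4) := by
      refine Submodule.sum_mem _ fun j _ => ?_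
      exact mem_of_eq (hS.A_mul_M (hb j) (hF j)) (by ring)
    -- all the constants `c j` vanish
    have hc : ∀ j, c j = 0 := by
      by_contra hne
      push Not at hne
      set S : Finset ι := Finset.univ.filter fun j => c j ≠ 0 with hSdef
      have hSne : S.Nonempty := by
        obtain ⟨j, hj⟩ := hne
        exact ⟨j, by simp [hSdef, hj]⟩
      obtain ⟨j₀, hj₀S, hj₀min⟩ := Finset.exists_min_image S m hSne
      have hcj₀ : c j₀ ≠ 0 := by simpa [hSdef] using hj₀S
      set m₀ := m j₀ with hm₀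
      have hdS : ∀ j ∈ S, d j = k - 6 * m j := by
        intro j hj
        have hcj : c j ≠ 0 := by simpa [hSdef] using hj
        have := hcm j hcj
        omega
      -- the element `f₀`
      set f₀ : R := ∑ j ∈ S, c j • (e6 ^ (m j - m₀) * F j) with hf₀
      have hf₀mem : f₀ ∈ M (k - 6 * m₀) := by
        refine Submodule.sum_mem _ fun j hj => Submodule.smul_mem _ _ ?_
        have hle : m₀ ≤ m j := hj₀min j hj
        refine mem_of_eq (hS.A_mul_M (hS.e6_pow_mem (m j - m₀)) (hF j)) ?_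
        rw [hdS j hj]
        push_cast [hle]
        ring
      have hkey : e6 ^ m₀ * f₀ = e4 * (-∑ j, b j * F j) := by
        have h1 : e6 ^ m₀ * f₀ = ∑ j ∈ S, c j • (e6 ^ m j * F j) := by
          rw [hf₀, Finset.mul_sum]
          refine Finset.sum_congr rfl fun j hj => ?_
          have hle : m₀ ≤ m j := hj₀min j hj
          rw [mul_smul_comm, ← mul_assoc, ← pow_add, Nat.add_sub_cancel' hle]
        have h2 : ∑ j ∈ S, c j • (e6 ^ m j * F j) = ∑ j, c j • (e6 ^ m j * F j) := by
          rw [hSdef, Finset.sum_filter]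
          refine Finset.sum_congr rfl fun j _ => ?_
          split_ifs with h
          · rfl
          · push Not at h
            rw [h, zero_smul]
        have h3 : ∑ j, a j * F j
            = ∑ j, c j • (e6 ^ m j * F j) + e4 * ∑ j, b j * F j := by
          rw [Finset.mul_sum, ← Finset.sum_add_distrib]
          refine Finset.sum_congr rfl fun j _ => ?_
          rw [hab j, add_mul, smul_mul_assoc, mul_assoc]
        rw [h1, h2]
        rw [hsum] at h3
        linear_combination -h3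
      obtain ⟨h, hh, hfh⟩ := hS.iter_reg2 m₀ (k - 6 * m₀) f₀ (-∑ j, b j * F j) hf₀mem
        (mem_of_eq (Submodule.neg_mem _ hbF) (by ring)) hkey
      -- the new constants
      set c' : ι → ℂ := fun j => if c j ≠ 0 ∧ m j = m₀ then c j else 0 with hc'
      set h' : R := ∑ j ∈ S.filter (fun j => m j ≠ m₀), c j • (e6 ^ (m j - m₀ - 1) * F j)
        with hh'
      have hh'mem : h' ∈ M (k - 6 * m₀ - 6) := by
        refine Submodule.sum_mem _ fun j hj => Submodule.smul_mem _ _ ?_
        rw [Finset.mem_filter] at hj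
        have hle : m₀ ≤ m j := hj₀min j hj.1
        have hlt : m₀ + 1 ≤ m j := by
          have := hj.2
          omega
        refine mem_of_eq (hS.A_mul_M (hS.e6_pow_mem (m j - m₀ - 1)) (hF j)) ?_
        rw [hdS j hj.1]
        have : ((m j - m₀ - 1 : ℕ) : ℤ) = (m j : ℤ) - m₀ - 1 := by omega
        rw [this]
        ring
      have hsplit : f₀ = ∑ j, c' j • F j + e6 * h' := by
        have h1 : ∑ j, c' j • F j = ∑ j ∈ S.filter (fun j => m j = m₀), c j • F j := by
          rw [Finset.sum_filter, hSdef, Finset.sum_filter]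
          refine Finset.sum_congr rfl fun j _ => ?_
          simp only [hc']
          by_cases h1 : c j ≠ 0 <;> by_cases h2 : m j = m₀ <;> simp [h1, h2]
        have h2 : e6 * h' = ∑ j ∈ S.filter (fun j => ¬ m j = m₀), c j • (e6 ^ (m j - m₀) * F j) := by
          rw [hh', Finset.mul_sum]
          refine Finset.sum_congr rfl fun j hj => ?_
          rw [Finset.mem_filter] at hj
          have hle : m₀ ≤ m j := hj₀min j hj.1
          have hlt : m₀ + 1 ≤ m j := by
            have := hj.2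
            omega
          have hpow : e6 ^ (m j - m₀) = e6 * e6 ^ (m j - m₀ - 1) := by
            rw [← pow_succ', show m j - m₀ - 1 + 1 = m j - m₀ by omega]
          rw [hpow, mul_smul_comm, mul_assoc]
        have h3 : ∑ j ∈ S.filter (fun j => m j = m₀), c j • F j
            = ∑ j ∈ S.filter (fun j => m j = m₀), c j • (e6 ^ (m j - m₀) * F j) := by
          refine Finset.sum_congr rfl fun j hj => ?_
          rw [Finset.mem_filter] at hj
          rw [hj.2, Nat.sub_self, pow_zero, one_mul]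
        rw [h1, h2, h3, hf₀]
        exact (Finset.sum_filter_add_sum_filter_not S (fun j => m j = m₀) _).symm
      have hJ : InJ M e4 e6 (k - 6 * m₀) (∑ j, c' j • F j) := by
        refine ⟨h, hh, -h', Submodule.neg_mem _ hh'mem, ?_⟩
        have : ∑ j, c' j • F j = f₀ - e6 * h' := by rw [hsplit]; ring
        rw [this, hfh]
        ring
      have hc'd : ∀ j, c' j ≠ 0 → d j = k - 6 * m₀ := by
        intro j hj
        simp only [hc'] at hj
        split_ifs at hj with h1
        · have := hcm j h1.1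
          rw [← h1.2]
          omega
        · exact absurd rfl hj
      have := hind (k - 6 * m₀) c' hc'd hJ j₀
      simp only [hc'] at this
      rw [if_pos ⟨hcj₀, rfl⟩] at this
      exact hcj₀ this
    -- now `a j = e4 * b j`
    have ha' : ∀ j, a j = e4 * b j := by
      intro j
      rw [hab j, hc j, zero_smul, zero_add]
    have hsum' : e4 * ∑ j, b j * F j = 0 := by
      rw [← hsum, Finset.mul_sum]
      refine Finset.sum_congr rfl fun j _ => ?_
      rw [ha' j, mul_assoc]
    have hb0 := hS.reg1 (k - 4) _ hbF hsum'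
    have hbz : ∀ j, b j = 0 :=
      ih (k - 4) (by push_cast at hk; omega) b (fun j => mem_of_eq (hb j) (by ring)) hb0
    intro j
    rw [ha' j, hbz j, mul_zero]

/-- Graded Nakayama: spanning modulo `(e₄, e₆)` implies `A`-generation. -/
theorem aGen_of_spanMod (hS : GradedSetting A M e4 e6) {ι : Type*} [Fintype ι]
    (d : ι → ℤ) (F : ι → R) (hspan : SpanMod M e4 e6 d F) : AGen A M d F := by
  suffices H : ∀ n : ℕ, ∀ k : ℤ, k < n → ∀ f : R, f ∈ M k →
      ∃ a : ι → R, (∀ j, a j ∈ A (k - d j)) ∧ f = ∑ j, a j * F j by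
    intro k f hf
    exact H (k + 1).toNat k (by omega) f hf
  intro n
  induction n with
  | zero =>
    intro k hk f hf
    have hk' : k < 0 := by simpa using hk
    rw [hS.M_neg k hk'] at hf
    refine ⟨fun _ => 0, fun j => Submodule.zero_mem _, ?_⟩
    have hf0 : f = 0 := by simpa using hf
    simp [hf0]
  | succ n ih =>
    intro k hk f hf
    obtain ⟨c, hcd, g, hg, h, hh, hfgh⟩ := hspan k f hf
    obtain ⟨a', ha', hga'⟩ := ih (k - 4) (by push_cast at hk; omega) g hg
    obtain ⟨a'', ha'', hha''⟩ := ih (k - 6) (by push_cast at hk; omega) h hh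
    refine ⟨fun j => c j • (1 : R) + e4 * a' j + e6 * a'' j, fun j => ?_, ?_⟩
    · refine Submodule.add_mem _ (Submodule.add_mem _ ?_ ?_) ?_
      · by_cases hc : c j = 0
        · rw [hc, zero_smul]; exact Submodule.zero_mem _
        · exact Submodule.smul_mem _ _ (mem_of_eq hS.one_mem (by rw [hcd j hc]; ring))
      · exact mem_of_eq (hS.A_mul_A hS.e4_mem (ha' j)) (by ring)
      · exact mem_of_eq (hS.A_mul_A hS.e6_mem (ha'' j)) (by ring)
    · have h1 : f = ∑ j, c j • F j + (e4 * g + e6 * h) := by rw [← hfgh]; ring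
      rw [h1, hga', hha'', Finset.mul_sum, Finset.mul_sum, ← Finset.sum_add_distrib,
        ← Finset.sum_add_distrib]
      refine Finset.sum_congr rfl fun j _ => ?_
      rw [add_mul, add_mul, smul_mul_assoc, one_mul, mul_assoc, mul_assoc, add_assoc]

theorem InJ.smul {k : ℤ} {x : R} (hx : InJ M e4 e6 k x) (c : ℂ) : InJ M e4 e6 k (c • x) := by
  obtain ⟨g, hg, h, hh, rfl⟩ := hx
  exact ⟨c • g, Submodule.smul_mem _ _ hg, c • h, Submodule.smul_mem _ _ hh, by
    rw [smul_add, mul_smul_comm, mul_smul_comm]⟩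

/-- A maximal family which is independent modulo `(e₄, e₆)` is spanning modulo `(e₄, e₆)`. -/
theorem exists_snoc_of_not_spanMod {n : ℕ} (d : Fin n → ℤ) (F : Fin n → R)
    (hF : ∀ j, F j ∈ M (d j)) (hind : IndepMod M e4 e6 d F) (hns : ¬ SpanMod M e4 e6 d F) :
    ∃ (d' : Fin (n + 1) → ℤ) (F' : Fin (n + 1) → R), (∀ j, F' j ∈ M (d' j)) ∧
      IndepMod M e4 e6 d' F' := by
  classical
  unfold SpanMod at hns
  push Not at hns
  obtain ⟨k, f, hf, hfn⟩ := hns
  refine ⟨Fin.snoc d k, Fin.snoc F f, ?_, ?_⟩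
  · intro j
    refine Fin.lastCases ?_ (fun i => ?_) j
    · simpa using hf
    · simpa using hF i
  · intro k' c hc hJ
    rw [Fin.sum_univ_castSucc] at hJ
    simp only [Fin.snoc_castSucc, Fin.snoc_last] at hJ
    have hlast : c (Fin.last n) = 0 := by
      by_contra hne
      have hk' : k = k' := by simpa using hc (Fin.last n) hne
      subst hk'
      refine hfn (fun j => -(c (Fin.last n))⁻¹ * c j.castSucc) (fun j hj => ?_) ?_
      · have : c j.castSucc ≠ 0 := fun h0 => hj (by rw [h0, mul_zero])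
        simpa using hc j.castSucc this
      · have := hJ.smul (c (Fin.last n))⁻¹
        convert this using 1
        rw [smul_add, smul_smul, inv_mul_cancel₀ hne, one_smul, Finset.smul_sum]
        simp only [neg_mul, neg_smul, Finset.sum_neg_distrib, smul_smul]
        ring
    have hrest : ∀ j : Fin n, c j.castSucc = 0 := by
      refine hind k' (fun j => c j.castSucc) (fun j hj => ?_) ?_
      · simpa using hc j.castSucc hj
      · rw [hlast, zero_smul, add_zero] at hJ
        exact hJ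
    intro j
    refine Fin.lastCases hlast (fun i => hrest i) j

/-- Existence of a finite family which is independent and spanning modulo `(e₄, e₆)`, provided
the size of independent families is bounded. -/
theorem exists_family_of_bound (B : ℕ)
    (hB : ∀ (n : ℕ) (d : Fin n → ℤ) (F : Fin n → R), (∀ j, F j ∈ M (d j)) →
      IndepMod M e4 e6 d F → n ≤ B) :
    ∃ (n : ℕ) (d : Fin n → ℤ) (F : Fin n → R), (∀ j, F j ∈ M (d j)) ∧
      IndepMod M e4 e6 d F ∧ SpanMod M e4 e6 d F := by
  classical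
  let P : ℕ → Prop := fun n => ∃ (d : Fin n → ℤ) (F : Fin n → R), (∀ j, F j ∈ M (d j)) ∧
    IndepMod M e4 e6 d F
  have hP0 : P 0 := ⟨Fin.elim0, Fin.elim0, fun j => j.elim0, fun _ _ _ _ j => j.elim0⟩
  have hPB : ∀ n, P n → n ≤ B := fun n ⟨d, F, hF, hind⟩ => hB n d F hF hind
  obtain ⟨d, F, hF, hind⟩ : P (Nat.findGreatest P B) := Nat.findGreatest_spec (Nat.zero_le B) hP0
  refine ⟨_, d, F, hF, hind, ?_⟩
  by_contra hns
  obtain ⟨d', F', hF', hind'⟩ := exists_snoc_of_not_spanMod d F hF hind hns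
  have hP1 : P (Nat.findGreatest P B + 1) := ⟨d', F', hF', hind'⟩
  have h1 := hPB _ hP1
  have h2 := Nat.le_findGreatest h1 hP1
  omega

/-- Abstract free basis theorem. -/
theorem exists_free_family (hS : GradedSetting A M e4 e6) (B : ℕ)
    (hB : ∀ (n : ℕ) (d : Fin n → ℤ) (F : Fin n → R), (∀ j, F j ∈ M (d j)) →
      AIndep A d F → n ≤ B) :
    ∃ (n : ℕ) (d : Fin n → ℤ) (F : Fin n → R), (∀ j, F j ∈ M (d j)) ∧
      AIndep A d F ∧ AGen A M d F := by
  obtain ⟨n, d, F, hF, hind, hspan⟩ := exists_family_of_bound (M := M) (e4 := e4) (e6 := e6) B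
    (fun n d F hF hind => hB n d F hF (aIndep_of_indepMod hS d F hF hind))
  exact ⟨n, d, F, hF, aIndep_of_indepMod hS d F hF hind, aGen_of_spanMod hS d F hspan⟩

end

end Fermat.Agent.S20.H37
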