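import Fermat.Agent.S20.Defs_helper78

/-!
# S20, block F (free basis): shared definitions

Finite homogeneous families `F j : ModularForm (Gamma0 N) (d j)` indexed by an arbitrary
finite type `J`, with the four notions used in the proof that `⨁ M_k(Γ₀(N))` is free over
`⨁ M_k(SL₂ℤ)`:

* `AIndep`: independent over the level-one forms,
* `ASpan`: generating over the level-one forms,
* `QIndep`: independent modulo `E₄ M + E₆ M`, weight by weight,
* `QSpan`: generating modulo `E₄ M + E₆ M`, weight by weight.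
-/

set_option autoImplicit false

namespace Fermat.Agent.S20.H01

open UpperHalfPlane ModularForm CongruenceSubgroup
open scoped MatrixGroups ModularForm Manifold

variable (N : ℕ) {J : Type} [Fintype J] (d : J → ℤ) (F : ∀ j, ModularForm (Gamma0 N) (d j))

/-- The family is independent over the graded ring of level-one forms. -/
def AIndep : Prop :=
  ∀ (k : ℤ) (a : ∀ j, ModularForm 𝒮ℒ (k - d j)),
    (∀ z : ℍ, ∑ j, a j z * F j z = 0) → ∀ j, a j = 0

/-- The family generates every `M_k(Γ₀(N))` over the graded ring of level-one forms. -/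
def ASpan : Prop :=
  ∀ (k : ℤ) (f : ModularForm (Gamma0 N) k),
    ∃ a : ∀ j, ModularForm 𝒮ℒ (k - d j), ∀ z : ℍ, f z = ∑ j, a j z * F j z

/-- The family is `ℂ`-independent modulo `E₄ M + E₆ M`, weight by weight. -/
def QIndep : Prop :=
  ∀ (k : ℤ) (c : J → ℂ) (g₄ : ModularForm (Gamma0 N) (k - 4))
    (g₆ : ModularForm (Gamma0 N) (k - 6)),
    (∀ j, d j ≠ k → c j = 0) →
    (∀ z : ℍ, ∑ j, c j * F j z = E₄ z * g₄ z + E₆ z * g₆ z) → ∀ j, c j = 0

/-- The family spans `M_k` modulo `E₄ M_(k-4) + E₆ M_(k-6)`, weight by weight. -/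
def QSpan : Prop :=
  ∀ (k : ℤ) (f : ModularForm (Gamma0 N) k),
    ∃ (c : J → ℂ) (g₄ : ModularForm (Gamma0 N) (k - 4)) (g₆ : ModularForm (Gamma0 N) (k - 6)),
      (∀ j, d j ≠ k → c j = 0) ∧
        ∀ z : ℍ, f z = ∑ j, c j * F j z + E₄ z * g₄ z + E₆ z * g₆ z

end Fermat.Agent.S20.H01
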