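import Mathlib
import Fermat.Agent.S20.FreeDefs_helper1
import Fermat.Agent.S20.RegSeq_helper30
import Fermat.Agent.S20.FreeBasisAbs_helper37

/-!
# S20, block F, algebra part: `QIndep → AIndep` and `QSpan → ASpan`

Instantiation of the abstract graded Nakayama argument of `FreeBasisAbs_helper37` with
`R = ℍ → ℂ`, `A k` = level one forms of weight `k`, `M k` = forms of level `Γ₀(N)` and
weight `k`, `e₄ = E₄`, `e₆ = E₆`.
-/

set_option autoImplicit false

namespace Fermat.Agent.S20.H37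

open UpperHalfPlane ModularForm CongruenceSubgroup
open scoped MatrixGroups ModularForm Manifold

/-- The level one decomposition `a = c E₆ ^ m + E₄ b` (block L, `levelOne_decomp`). -/
def LevelOneDecomp : Prop :=
  ∀ (k : ℤ) (a : ModularForm 𝒮ℒ k), ∃ (c : ℂ) (b : ModularForm 𝒮ℒ (k - 4)), ∀ z : ℍ,
    a z = (if 0 ≤ k ∧ (6 : ℤ) ∣ k then c * E₆ z ^ (k / 6).toNat else 0) + E₄ z * b z

/-- Restriction of a level one form to `Γ₀(N)`. -/
noncomputable def resForm (N : ℕ) {k : ℤ} (a : ModularForm 𝒮ℒ k) : ModularForm (Gamma0 N) k where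
  toFun := a
  slash_action_eq' := fun γ hγ => a.slash_action_eq' γ (Subgroup.map_le_range _ _ hγ)
  holo' := a.holo'
  bdd_at_cusps' := fun hc => a.bdd_at_cusps' (hc.mono (Subgroup.map_le_range _ _))

@[simp] theorem resForm_apply (N : ℕ) {k : ℤ} (a : ModularForm 𝒮ℒ k) (z : ℍ) :
    resForm N a z = a z := rfl

/-- Level one forms of weight `k`, as a subspace of the functions on `ℍ`. -/
def AS (k : ℤ) : Submodule ℂ (ℍ → ℂ) where
  carrier := {g | ∃ a : ModularForm 𝒮ℒ k, ⇑a = g}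
  add_mem' := by rintro _ _ ⟨a, rfl⟩ ⟨b, rfl⟩; exact ⟨a + b, rfl⟩
  zero_mem' := ⟨0, rfl⟩
  smul_mem' := by rintro c _ ⟨a, rfl⟩; exact ⟨c • a, rfl⟩

/-- Forms of level `Γ₀(N)` and weight `k`, as a subspace of the functions on `ℍ`. -/
def MS (N : ℕ) (k : ℤ) : Submodule ℂ (ℍ → ℂ) where
  carrier := {g | ∃ f : ModularForm (Gamma0 N) k, ⇑f = g}
  add_mem' := by rintro _ _ ⟨a, rfl⟩ ⟨b, rfl⟩; exact ⟨a + b, rfl⟩
  zero_mem' := ⟨0, rfl⟩
  smul_mem' := by rintro c _ ⟨a, rfl⟩; exact ⟨c • a, rfl⟩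

theorem mem_AS {k : ℤ} {g : ℍ → ℂ} : g ∈ AS k ↔ ∃ a : ModularForm 𝒮ℒ k, ⇑a = g := Iff.rfl

theorem mem_MS {N : ℕ} {k : ℤ} {g : ℍ → ℂ} :
    g ∈ MS N k ↔ ∃ f : ModularForm (Gamma0 N) k, ⇑f = g := Iff.rfl

/-- The graded setting of modular forms. -/
theorem gradedSetting (N : ℕ) [NeZero N] (hL : LevelOneDecomp) :
    GradedSetting AS (MS N) (⇑E₄) (⇑E₆) where
  e4_mem := ⟨E₄, rfl⟩
  e6_mem := ⟨E₆, rfl⟩
  one_mem := ⟨1, ModularForm.one_coe_eq_one⟩
  A_mul_A := by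
    rintro i j _ _ ⟨a, rfl⟩ ⟨b, rfl⟩
    exact ⟨a.mul b, rfl⟩
  A_mul_M := by
    rintro i j _ _ ⟨a, rfl⟩ ⟨f, rfl⟩
    exact ⟨(resForm N a).mul f, rfl⟩
  A_neg := by
    intro k hk
    rw [eq_bot_iff]
    rintro _ ⟨a, rfl⟩
    rw [Submodule.mem_bot]
    exact ModularFormClass.levelOne_neg_weight_eq_zero hk a
  M_neg := by
    intro k hk
    rw [eq_bot_iff]
    rintro _ ⟨f, rfl⟩
    rw [Submodule.mem_bot]
    rw [ModularForm.isZero_of_neg_weight hk f]
    rfl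
  A_dec := by
    rintro k _ ⟨a, rfl⟩
    obtain ⟨c, b, hcb⟩ := hL k a
    by_cases hk : 0 ≤ k ∧ (6 : ℤ) ∣ k
    · refine ⟨c, (k / 6).toNat, ⇑b, ⟨b, rfl⟩, ?_, fun _ => ?_⟩
      · funext z
        rw [hcb z, if_pos hk]
        simp
      · obtain ⟨hk0, m, rfl⟩ := hk
        have : (6 * m / 6 : ℤ) = m := by omega
        rw [this]
        have : ((m.toNat : ℕ) : ℤ) = m := Int.toNat_of_nonneg (by omega)
        rw [this]
    · refine ⟨0, 0, ⇑b, ⟨b, rfl⟩, ?_, fun h => absurd rfl h⟩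
      funext z
      rw [hcb z, if_neg hk]
      simp
  reg1 := by
    rintro k _ ⟨f, rfl⟩ h
    exact H30.eq_zero_of_E4_mul_eq_zero (ModularFormClass.holo f) (fun z => congrFun h z)
  reg2 := by
    rintro k _ _ ⟨f, rfl⟩ ⟨g, rfl⟩ h
    obtain ⟨m, hm, -⟩ := H30.exists_div_E4_E6_Gamma0 N f g (fun z => congrFun h z)
    exact ⟨⇑m, ⟨m, rfl⟩, funext hm⟩

section translate

variable (N : ℕ) {J : Type} [Fintype J] (d : J → ℤ) (F : ∀ j, ModularForm (Gamma0 N) (d j))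

theorem indepMod_of_qIndep (h : H01.QIndep N d F) :
    IndepMod (MS N) (⇑E₄) (⇑E₆) d (fun j => ⇑(F j)) := by
  intro k c hc hJ
  obtain ⟨_, ⟨g₄, rfl⟩, _, ⟨g₆, rfl⟩, heq⟩ := hJ
  refine h k c g₄ g₆ (fun j hj => by_contra fun hne => hj (hc j hne)) (fun z => ?_)
  have := congrFun heq z
  simpa [Finset.sum_apply] using this

theorem qIndep_of_indepMod (h : IndepMod (MS N) (⇑E₄) (⇑E₆) d (fun j => ⇑(F j))) :
    H01.QIndep N d F := by
  intro k c g₄ g₆ hc heq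
  refine h k c (fun j hj => by_contra fun hne => hj (hc j hne))
    ⟨⇑g₄, ⟨g₄, rfl⟩, ⇑g₆, ⟨g₆, rfl⟩, ?_⟩
  funext z
  simpa [Finset.sum_apply] using heq z

theorem spanMod_of_qSpan (h : H01.QSpan N d F) :
    SpanMod (MS N) (⇑E₄) (⇑E₆) d (fun j => ⇑(F j)) := by
  rintro k _ ⟨f, rfl⟩
  obtain ⟨c, g₄, g₆, hc, hf⟩ := h k f
  refine ⟨c, fun j hj => by_contra fun hne => hj (hc j hne), ⇑g₄, ⟨g₄, rfl⟩, ⇑g₆, ⟨g₆, rfl⟩, ?_⟩
  funext z
  simp only [Pi.sub_apply, Finset.sum_apply, Pi.smul_apply, smul_eq_mul, Pi.add_apply,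
    Pi.mul_apply, hf z]
  ring

theorem qSpan_of_spanMod (h : SpanMod (MS N) (⇑E₄) (⇑E₆) d (fun j => ⇑(F j))) :
    H01.QSpan N d F := by
  intro k f
  obtain ⟨c, hc, _, ⟨g₄, rfl⟩, _, ⟨g₆, rfl⟩, heq⟩ := h k ⇑f ⟨f, rfl⟩
  refine ⟨c, g₄, g₆, fun j hj => by_contra fun hne => hj (hc j hne), fun z => ?_⟩
  have := congrFun heq z
  simp only [Pi.sub_apply, Finset.sum_apply, Pi.smul_apply, smul_eq_mul, Pi.add_apply,
    Pi.mul_apply] at this
  linear_combination this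

/-- **(F-i)** Independence modulo `E₄ M + E₆ M` implies independence over the level one
forms. -/
theorem aIndep_of_qIndep [NeZero N] (hL : LevelOneDecomp) (h : H01.QIndep N d F) :
    H01.AIndep N d F := by
  have h1 := aIndep_of_indepMod (gradedSetting N hL) d (fun j => ⇑(F j)) (fun j => ⟨F j, rfl⟩)
    (indepMod_of_qIndep N d F h)
  intro k a ha j
  have h2 := h1 k (fun j => ⇑(a j)) (fun j => ⟨a j, rfl⟩)
    (by funext z; simpa [Finset.sum_apply] using ha z) j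
  exact DFunLike.coe_injective h2

/-- **(F-iii)** Spanning modulo `E₄ M + E₆ M` implies spanning over the level one forms. -/
theorem aSpan_of_qSpan [NeZero N] (hL : LevelOneDecomp) (h : H01.QSpan N d F) :
    H01.ASpan N d F := by
  have h1 := aGen_of_spanMod (gradedSetting N hL) d (fun j => ⇑(F j)) (spanMod_of_qSpan N d F h)
  intro k f
  obtain ⟨a, ha, hf⟩ := h1 k ⇑f ⟨f, rfl⟩
  choose a' ha' using ha
  refine ⟨a', fun z => ?_⟩
  have h2 := congrFun hf z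
  simp only [Finset.sum_apply, Pi.mul_apply] at h2
  rw [h2]
  refine Finset.sum_congr rfl fun j _ => ?_
  rw [ha' j]

/-- **(F-v)** If the size of the families which are independent modulo `E₄ M + E₆ M` is
bounded, there is such a family which is also spanning modulo `E₄ M + E₆ M`. -/
theorem exists_qIndep_qSpan (B : ℕ)
    (hb : ∀ (n : ℕ) (d : Fin n → ℤ) (F : ∀ j, ModularForm (Gamma0 N) (d j)),
      H01.QIndep N d F → n ≤ B) :
    ∃ (n : ℕ) (d : Fin n → ℤ) (F : ∀ j, ModularForm (Gamma0 N) (d j)),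
      H01.QIndep N d F ∧ H01.QSpan N d F := by
  obtain ⟨n, d, F, hF, hind, hspan⟩ :=
    exists_family_of_bound (M := MS N) (e4 := ⇑E₄) (e6 := ⇑E₆) B (by
      intro n d F hF hind
      choose F' hF' using hF
      obtain rfl : (fun j => ⇑(F' j)) = F := funext hF'
      exact hb n d F' (qIndep_of_indepMod N d F' hind))
  choose F' hF' using hF
  obtain rfl : (fun j => ⇑(F' j)) = F := funext hF'
  exact ⟨n, d, F', qIndep_of_indepMod N d F' hind, qSpan_of_spanMod N d F' hspan⟩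

end translate

end Fermat.Agent.S20.H37
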