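import Mathlib
import Fermat.Prelude.Thm_CongruenceSubgroup_one_mem_strictPeriods_Gamma0
import Fermat.Prelude.Thm_ModularForm_sturm_bound_Gamma0
import Fermat.Agent.S20.Defs_helper78

/-!
# S20, block F, piece (F-ii): the growth count

An `A`-independent homogeneous family `F j ∈ M_{d j}(Γ₀(N))` (`A = ⨁ M_k(SL₂ℤ)`) has at most
`μ = [SL₂ℤ : Γ₀(N)]` members: `∑_j dim A_{k - d j} ≤ dim M_k(Γ₀(N)) ≤ k μ / 12 + 1` (Sturm bound),
and `dim A_w ≥ w / 12` for even `w ≥ 0`; let `k = 12 m → ∞`.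

By-products: `finrank_Gamma0_le`, `card_Q`, `resForm`, `mulForm`.
-/

set_option autoImplicit false

namespace Fermat.Agent.S20.H54

open UpperHalfPlane ModularForm CongruenceSubgroup
open scoped MatrixGroups ModularForm Manifold

/-- `Γ₀(N) ≤ SL(2,ℤ)` inside `GL(2,ℝ)`. -/
theorem gamma0_le_SL (N : ℕ) : (Gamma0 N : Subgroup (GL (Fin 2) ℝ)) ≤ 𝒮ℒ :=
  Subgroup.map_le_range _ _

/-- Restriction of a level one form to `Γ₀(N)`. -/
noncomputable def resForm (N : ℕ) {w : ℤ} (a : ModularForm 𝒮ℒ w) : ModularForm (Gamma0 N) w where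
  toFun := a
  slash_action_eq' A hA := a.slash_action_eq' A (gamma0_le_SL N hA)
  holo' := a.holo'
  bdd_at_cusps' hc := a.bdd_at_cusps' (hc.mono (gamma0_le_SL N))

@[simp] theorem resForm_apply (N : ℕ) {w : ℤ} (a : ModularForm 𝒮ℒ w) (z : ℍ) :
    resForm N a z = a z := rfl

/-- The product of a level one form and a form of level `Γ₀(N)`, with a weight cast. -/
noncomputable def mulForm (N : ℕ) {w e k : ℤ} (h : w + e = k) (a : ModularForm 𝒮ℒ w)
    (F : ModularForm (Gamma0 N) e) : ModularForm (Gamma0 N) k :=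
  ModularForm.mcast h ((resForm N a).mul F)

@[simp] theorem mulForm_apply (N : ℕ) {w e k : ℤ} (h : w + e = k) (a : ModularForm 𝒮ℒ w)
    (F : ModularForm (Gamma0 N) e) (z : ℍ) : mulForm N h a F z = a z * F z := rfl

/-! ### The Sturm bound as a dimension bound -/

/-- The Sturm bound for `Γ₀(N)` in weight `k`. -/
noncomputable def sturmB (N : ℕ) (k : ℤ) : ℕ := (k * (Gamma0 N).index).toNat / 12

/-- Truncated `q`-expansion as a `ℂ`-linear map. -/
noncomputable def truncLin (N : ℕ) (k : ℤ) :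
    ModularForm (Gamma0 N) k →ₗ[ℂ] (Fin (sturmB N k + 1) → ℂ) where
  toFun f i := (qExpansion 1 f).coeff i
  map_add' f g := by
    funext i
    simp only [FunLike.coe_add, Pi.add_apply]
    rw [ModularForm.qExpansion_add one_pos (CongruenceSubgroup.one_mem_strictPeriods_Gamma0 N) f g,
      map_add]
  map_smul' c f := by
    funext i
    have h1 : ⇑(c • f) = c • ⇑f := by
      ext z
      simp
    simp only [h1, RingHom.id_apply, Pi.smul_apply, smul_eq_mul]
    rw [ModularForm.qExpansion_smul one_pos (CongruenceSubgroup.one_mem_strictPeriods_Gamma0 N) c f]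
    simp

theorem truncLin_injective (N : ℕ) [NeZero N] (k : ℤ) : Function.Injective (truncLin N k) := by
  refine (injective_iff_map_eq_zero _).mpr fun f hf => ?_
  refine ModularForm.sturm_bound_Gamma0 N f fun n hn => ?_
  have := congrFun hf ⟨n, Nat.lt_succ_of_le hn⟩
  simpa [truncLin] using this

theorem finiteDimensional_Gamma0 (N : ℕ) [NeZero N] (k : ℤ) :
    FiniteDimensional ℂ (ModularForm (Gamma0 N) k) :=
  FiniteDimensional.of_injective (truncLin N k) (truncLin_injective N k)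

/-- B1: `dim M_k(Γ₀(N)) ≤ k μ / 12 + 1`. -/
theorem finrank_Gamma0_le (N : ℕ) [NeZero N] (k : ℤ) :
    FiniteDimensional ℂ (ModularForm (Gamma0 N) k) ∧
      Module.finrank ℂ (ModularForm (Gamma0 N) k) ≤ (k * (Gamma0 N).index).toNat / 12 + 1 := by
  refine ⟨finiteDimensional_Gamma0 N k, ?_⟩
  have h := LinearMap.finrank_le_finrank_of_injective (truncLin_injective N k)
  rw [Module.finrank_fin_fun] at h
  exact h

/-! ### The index -/

/-- B1: the coset space has `[SL₂ℤ : Γ₀(N)]` elements. -/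
theorem card_Q (N : ℕ) [NeZero N] : Fintype.card (Q N) = (Gamma0 N).index := by
  have h1 : Fintype.card (Q N) =
      ((Gamma0 N : Subgroup (GL (Fin 2) ℝ))).relIndex 𝒮ℒ := by
    rw [← Nat.card_eq_fintype_card]
    rfl
  rw [h1, ← Subgroup.relIndex_top_right, MonoidHom.range_eq_map]
  exact Subgroup.relIndex_map_map_of_injective _ _ Matrix.SpecialLinearGroup.mapGL_injective

/-! ### Level one dimensions -/

theorem le_finrank_levelOne (w : ℕ) (hw : Even w) :
    w / 12 ≤ Module.finrank ℂ (ModularForm 𝒮ℒ (w : ℤ)) := by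
  have h := ModularForm.dimension_level_one w hw
  have h2 : Module.finrank ℂ (ModularForm 𝒮ℒ (w : ℤ)) =
      if w ≡ 2 [MOD 12] then w / 12 else w / 12 + 1 := by
    apply Module.finrank_eq_of_rank_eq
    rw [h]
  rw [h2]
  split_ifs <;> omega

/-! ### The combination map -/

theorem formSum_apply {Γ : Subgroup (GL (Fin 2) ℝ)} {k : ℤ} {ι : Type} (s : Finset ι)
    (G : ι → ModularForm Γ k) (z : ℍ) : (∑ j ∈ s, G j) z = ∑ j ∈ s, G j z := by
  classical
  induction s using Finset.induction_on with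
  | empty => simp
  | insert a s ha ih => rw [Finset.sum_insert ha, Finset.sum_insert ha, add_apply, ih]

/-- The map `a ↦ ∑ a_j F_j` from tuples of level one forms to forms of level `Γ₀(N)`. -/
noncomputable def combLin (N : ℕ) {J : Type} [Fintype J] (d : J → ℤ)
    (F : ∀ j, ModularForm (Gamma0 N) (d j)) (k : ℤ) :
    (∀ j, ModularForm 𝒮ℒ (k - d j)) →ₗ[ℂ] ModularForm (Gamma0 N) k where
  toFun a := ∑ j, mulForm N (sub_add_cancel k (d j)) (a j) (F j)
  map_add' a b := by
    ext z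
    simp only [formSum_apply, add_apply, mulForm_apply, Pi.add_apply, add_mul,
      Finset.sum_add_distrib]
  map_smul' c a := by
    ext z
    simp only [formSum_apply, smul_apply, mulForm_apply, Pi.smul_apply, smul_eq_mul,
      RingHom.id_apply, Finset.mul_sum, mul_assoc]

theorem combLin_apply (N : ℕ) {J : Type} [Fintype J] (d : J → ℤ)
    (F : ∀ j, ModularForm (Gamma0 N) (d j)) (k : ℤ) (a : ∀ j, ModularForm 𝒮ℒ (k - d j)) (z : ℍ) :
    combLin N d F k a z = ∑ j, a j z * F j z := by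
  simp only [combLin, LinearMap.coe_mk, AddHom.coe_mk, formSum_apply, mulForm_apply]

theorem combLin_injective (N : ℕ) {J : Type} [Fintype J] (d : J → ℤ)
    (F : ∀ j, ModularForm (Gamma0 N) (d j))
    (h : ∀ (k : ℤ) (a : ∀ j, ModularForm 𝒮ℒ (k - d j)),
      (∀ z : ℍ, ∑ j, a j z * F j z = 0) → ∀ j, a j = 0) (k : ℤ) :
    Function.Injective (combLin N d F k) := by
  refine (injective_iff_map_eq_zero _).mpr fun a ha => ?_
  funext j
  refine h k a (fun z => ?_) j
  rw [← combLin_apply, ha]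
  rfl

/-! ### The weights of an `A`-independent family are even -/

theorem even_of_aIndep (N : ℕ) {J : Type} [Fintype J] (d : J → ℤ)
    (F : ∀ j, ModularForm (Gamma0 N) (d j))
    (h : ∀ (k : ℤ) (a : ∀ j, ModularForm 𝒮ℒ (k - d j)),
      (∀ z : ℍ, ∑ j, a j z * F j z = 0) → ∀ j, a j = 0) (j₀ : J) : Even (d j₀) := by
  classical
  by_contra hodd
  rw [Int.not_even_iff_odd] at hodd
  have hneg : (-1 : GL (Fin 2) ℝ) ∈ (Gamma0 N : Subgroup (GL (Fin 2) ℝ)) := by
    refine ⟨-1, ?_, ?_⟩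
    · simp [Gamma0_mem]
    · ext; simp
  have hF : F j₀ = 0 := ModularForm.eq_zero_of_neg_one_mem hneg hodd (F j₀)
  set x : ModularForm 𝒮ℒ (d j₀ - d j₀) := ModularForm.mcast (sub_self (d j₀)).symm 1 with hx
  have key := h (d j₀) (Pi.single j₀ x) (fun z => by
    refine Finset.sum_eq_zero fun j _ => ?_
    by_cases hj : j = j₀
    · subst hj
      rw [hF]
      simp
    · rw [Pi.single_eq_of_ne hj]
      simp) j₀
  rw [Pi.single_eq_same] at key
  have h1 : x UpperHalfPlane.I = 1 := by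
    simp [hx, ModularForm.mcast_apply]
  rw [key] at h1
  simp at h1

/-! ### The growth count -/

/-- (F-ii) An `A`-independent homogeneous family has at most `[SL₂ℤ : Γ₀(N)]` members. -/
theorem card_le_of_aIndep (N : ℕ) [NeZero N] {J : Type} [Fintype J] (d : J → ℤ)
    (F : ∀ j, ModularForm (Gamma0 N) (d j))
    (h : ∀ (k : ℤ) (a : ∀ j, ModularForm 𝒮ℒ (k - d j)),
      (∀ z : ℍ, ∑ j, a j z * F j z = 0) → ∀ j, a j = 0) :
    Fintype.card J ≤ Fintype.card (Q N) := by
  rw [card_Q]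
  set μ := (Gamma0 N).index with hμ
  set D : ℕ := ∑ j, (d j).natAbs with hD
  have hDj : ∀ j, (d j).natAbs ≤ D := fun j =>
    Finset.single_le_sum (f := fun j => (d j).natAbs) (fun _ _ => Nat.zero_le _)
      (Finset.mem_univ j)
  by_contra hlt
  rw [not_le] at hlt
  set m : ℕ := μ * D + D + 2 with hm
  have hfd := finiteDimensional_Gamma0 N ((12 * m : ℕ) : ℤ)
  have h1 := LinearMap.finrank_le_finrank_of_injective
    (combLin_injective N d F h ((12 * m : ℕ) : ℤ))
  rw [Module.finrank_pi_fintype] at h1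
  have h2 := (finrank_Gamma0_le N ((12 * m : ℕ) : ℤ)).2
  have h3 : (((12 * m : ℕ) : ℤ) * ((Gamma0 N).index : ℤ)).toNat / 12 = m * μ := by
    rw [← Nat.cast_mul, Int.toNat_natCast, mul_assoc, Nat.mul_div_cancel_left _ (by norm_num)]
  rw [h3] at h2
  have h4 : ∀ j, m - D ≤ Module.finrank ℂ (ModularForm 𝒮ℒ (((12 * m : ℕ) : ℤ) - d j)) := by
    intro j
    have hj := hDj j
    have hev := even_of_aIndep N d F h j
    obtain ⟨w, hw⟩ : ∃ w : ℕ, ((12 * m : ℕ) : ℤ) - d j = (w : ℤ) :=
      ⟨(((12 * m : ℕ) : ℤ) - d j).toNat, by rw [Int.toNat_of_nonneg]; omega⟩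
    rw [hw]
    have hwe : Even w := by
      have h12 : Even (((12 * m : ℕ) : ℤ)) := ⟨((6 * m : ℕ) : ℤ), by push_cast; ring⟩
      have : Even (w : ℤ) := by
        rw [← hw]
        exact h12.sub hev
      exact_mod_cast this
    refine le_trans ?_ (le_finrank_levelOne w hwe)
    omega
  have h5 : Fintype.card J * (m - D) ≤ m * μ + 1 := by
    calc Fintype.card J * (m - D) = ∑ _j : J, (m - D) := by simp
      _ ≤ ∑ j, Module.finrank ℂ (ModularForm 𝒮ℒ (((12 * m : ℕ) : ℤ) - d j)) :=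
          Finset.sum_le_sum fun j _ => h4 j
      _ ≤ m * μ + 1 := h1.trans h2
  have h6 : m - D = μ * D + 2 := by omega
  rw [h6] at h5
  have h7 := Nat.mul_le_mul_right (μ * D + 2) (Nat.succ_le_of_lt hlt)
  have h8 : (μ + 1) * (μ * D + 2) ≤ (μ * D + D + 2) * μ + 1 := h7.trans h5
  nlinarith

end Fermat.Agent.S20.H54
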