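import Fermat.Agent.S20.FreeDefs_helper1
import Fermat.Agent.S23.PrimElt_helper35
import Fermat.Agent.S23.Glue_helper30

/-!
# S20, block F, piece (F-iv): a generating family has at least `μ = [SL₂ℤ : Γ₀(N)]` elements

If `(F j)` generates `⨁ M_k(Γ₀(N))` over the level-one forms then the powers `u ^ i`, `i < μ`, of
the primitive element `u` of the S23 library are combinations of the `F j`; evaluating all
conjugates at a point where the `μ` conjugates of `u` are distinct gives a Vandermonde system,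
which forces `μ ≤ |J|`.
-/

set_option autoImplicit false

namespace Fermat.Agent.S20.H01

open UpperHalfPlane ModularForm CongruenceSubgroup Polynomial
open scoped MatrixGroups ModularForm Manifold

/-- Every conjugate is a slash by an element of `SL(2, ℤ)`, uniformly in the form. -/
theorem exists_conj_eq_slash (N : ℕ) (x : Q N) :
    ∃ γ : SL(2, ℤ), ∀ (k : ℤ) (f : ModularForm (Gamma0 N) k), conj f x = (⇑f) ∣[k] γ := by
  induction x using Quotient.inductionOn with
  | _ h =>
    obtain ⟨g, hg⟩ := h.2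
    refine ⟨g⁻¹, fun k f => ?_⟩
    show SlashInvariantForm.quotientFunc f ⟦h⟧ = (⇑f) ∣[k] (Matrix.SpecialLinearGroup.mapGL ℝ g⁻¹)
    rw [SlashInvariantForm.quotientFunc_mk, map_inv, hg]

/-- Raw form of `conj_injective_of_prim`, on Mathlib's quotient type. -/
theorem quotientFunc_injective_of_prim (N : ℕ) [NeZero N] (u : ModularForm (Gamma0 N) 12)
    (hu : ∀ q : ↥𝒮ℒ ⧸ ((Gamma0 N : Subgroup (GL (Fin 2) ℝ))).subgroupOf 𝒮ℒ,
      q ≠ QuotientGroup.mk (1 : ↥𝒮ℒ) → SlashInvariantForm.quotientFunc (ℋ := 𝒮ℒ) u q ≠ ⇑u)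
    (x y : ↥𝒮ℒ ⧸ ((Gamma0 N : Subgroup (GL (Fin 2) ℝ))).subgroupOf 𝒮ℒ)
    (hxy : SlashInvariantForm.quotientFunc (ℋ := 𝒮ℒ) u x
      = SlashInvariantForm.quotientFunc (ℋ := 𝒮ℒ) u y) : x = y := by
  induction y using QuotientGroup.induction_on with
  | _ h' =>
    have h1 : SlashInvariantForm.quotientFunc (ℋ := 𝒮ℒ) u x ∣[(12 : ℤ)] (h' : GL (Fin 2) ℝ)
        = SlashInvariantForm.quotientFunc (ℋ := 𝒮ℒ) u (QuotientGroup.mk h') ∣[(12 : ℤ)]
          (h' : GL (Fin 2) ℝ) := by
      rw [hxy]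
    rw [SlashInvariantForm.quotientFunc_smul u h'.2, SlashInvariantForm.quotientFunc_smul u h'.2]
      at h1
    have h2 : (⟨(h' : GL (Fin 2) ℝ), h'.2⟩ : ↥𝒮ℒ)⁻¹ •
        (QuotientGroup.mk h' : ↥𝒮ℒ ⧸ ((Gamma0 N : Subgroup (GL (Fin 2) ℝ))).subgroupOf 𝒮ℒ)
        = QuotientGroup.mk (1 : ↥𝒮ℒ) := by
      show (h'⁻¹ • (QuotientGroup.mk h' : ↥𝒮ℒ ⧸ _)) = QuotientGroup.mk 1
      rw [MulAction.Quotient.smul_mk]
      simp
    rw [h2] at h1
    have h3 : SlashInvariantForm.quotientFunc (ℋ := 𝒮ℒ) u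
        (QuotientGroup.mk (1 : ↥𝒮ℒ) :
          ↥𝒮ℒ ⧸ ((Gamma0 N : Subgroup (GL (Fin 2) ℝ))).subgroupOf 𝒮ℒ) = ⇑u :=
      Fermat.Agent.S23.H30.conj_q₀ u
    rw [h3] at h1
    by_contra hne
    have h4 : (⟨(h' : GL (Fin 2) ℝ), h'.2⟩ : ↥𝒮ℒ)⁻¹ • x ≠ QuotientGroup.mk (1 : ↥𝒮ℒ) := by
      intro h5
      apply hne
      rw [← h2] at h5
      exact smul_left_cancel _ h5
    exact hu _ h4 h1

/-- The conjugates of a form with trivial stabiliser are pairwise distinct functions. -/
theorem conj_injective_of_prim (N : ℕ) [NeZero N] (u : ModularForm (Gamma0 N) 12)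
    (hu : ∀ q : Q N, q ≠ Fermat.Agent.S23.H30.q₀ N → conj u q ≠ ⇑u) :
    Function.Injective (fun x : Q N => conj u x) :=
  fun x y hxy => quotientFunc_injective_of_prim N u hu x y hxy

/-- There are a form `u` of weight `12` and a point where its `μ` conjugates are distinct. -/
theorem exists_conj_injective (N : ℕ) [NeZero N] :
    ∃ (u : ModularForm (Gamma0 N) 12) (z : ℍ), Function.Injective (fun x : Q N => conj u x z) := by
  classical
  obtain ⟨u, -, hu⟩ := Fermat.Agent.S23.H35.primitiveExists N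
  refine ⟨u, ?_⟩
  have hinj := conj_injective_of_prim N u hu
  by_contra hcon
  push Not at hcon
  have hprod : ∏ p ∈ (Finset.univ : Finset (Q N)).offDiag, (conj u p.1 - conj u p.2) = 0 := by
    funext z
    have hz := hcon z
    rw [Function.Injective] at hz
    push Not at hz
    obtain ⟨x, y, hxy, hne⟩ := hz
    rw [Finset.prod_apply]
    refine Finset.prod_eq_zero (i := (x, y)) (by simpa using hne) ?_
    simp only [Pi.sub_apply]
    exact sub_eq_zero.mpr hxy
  obtain ⟨p, hp, hp0⟩ := Fermat.Agent.S23.H30.exists_eq_zero_of_prod_eq_zero_of_mdiff _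
    (fun p : Q N × Q N => conj u p.1 - conj u p.2)
    (fun p _ => (Fermat.Agent.S23.H30.mdiff_conj u p.1).sub
      (Fermat.Agent.S23.H30.mdiff_conj u p.2)) hprod
  have hne : p.1 ≠ p.2 := by simpa using hp
  exact hne (hinj (sub_eq_zero.mp hp0))

/-- Powers of a form, as forms. -/
theorem exists_pow_form {Γ : Subgroup (GL (Fin 2) ℝ)} [Γ.HasDetPlusMinusOne] {k : ℤ}
    (u : ModularForm Γ k) (i : ℕ) :
    ∃ g : ModularForm Γ (k * (i : ℤ)), ∀ z : ℍ, g z = u z ^ i := by
  induction i with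
  | zero =>
    refine ⟨ModularForm.mcast (by simp) (1 : ModularForm Γ 0), fun z => ?_⟩
    rw [ModularForm.mcast_apply, ModularForm.one_coe_eq_one]
    simp
  | succ i ih =>
    obtain ⟨g, hg⟩ := ih
    refine ⟨ModularForm.mcast (by push_cast; ring) (g.mul u), fun z => ?_⟩
    rw [ModularForm.mcast_apply]
    show g z * u z = _
    rw [hg z, pow_succ]

/-- **(F-iv)** A generating family has at least `μ = card (Q N)` elements. -/
theorem card_le_of_aSpan (N : ℕ) [NeZero N] {J : Type} [Fintype J] (d : J → ℤ)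
    (F : ∀ j, ModularForm (Gamma0 N) (d j)) (h : ASpan N d F) :
    Fintype.card (Q N) ≤ Fintype.card J := by
  classical
  obtain ⟨u, z₀, hinj⟩ := exists_conj_injective N
  by_contra hlt
  push Not at hlt
  obtain ⟨μ, hμ⟩ : ∃ μ : ℕ, μ = Fintype.card (Q N) := ⟨_, rfl⟩
  rw [← hμ] at hlt
  have hpow : ∀ i : ℕ, ∃ g : ModularForm (Gamma0 N) (12 * (i : ℤ)), ∀ z : ℍ, g z = u z ^ i :=
    fun i => exists_pow_form u i
  choose U hU using hpow
  have hspan : ∀ i : ℕ, ∃ a : ∀ j, ModularForm 𝒮ℒ (12 * (i : ℤ) - d j),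
      ∀ z : ℍ, U i z = ∑ j, a j z * F j z := fun i => h _ (U i)
  choose a ha using hspan
  -- all conjugates of the relations
  have hconj : ∀ (i : ℕ) (x : Q N), conj u x z₀ ^ i = ∑ j, a i j z₀ * conj (F j) x z₀ := by
    intro i x
    obtain ⟨γ, hγ⟩ := exists_conj_eq_slash N x
    have hD : denom γ z₀ ≠ 0 := denom_ne_zero _ _
    have h1 := ha i (γ • z₀)
    rw [hU] at h1
    have h2 : ∀ j, a i j (γ • z₀) * denom γ z₀ ^ (-(12 * (i : ℤ) - d j)) = a i j z₀ := by
      intro j
      have h3 : (⇑(a i j)) ∣[12 * (i : ℤ) - d j] γ = ⇑(a i j) :=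
        SlashInvariantFormClass.slash_action_eq (a i j) _ ⟨γ, rfl⟩
      have h4 := congrFun h3 z₀
      rwa [ModularForm.SL_slash_apply] at h4
    rw [hγ 12 u, ModularForm.SL_slash_apply, mul_pow, h1, Finset.sum_mul]
    refine Finset.sum_congr rfl fun j _ => ?_
    rw [hγ (d j) (F j), ModularForm.SL_slash_apply, ← h2 j]
    have h5 : (denom γ z₀ ^ (-(12 : ℤ))) ^ i
        = denom γ z₀ ^ (-(12 * (i : ℤ) - d j)) * denom γ z₀ ^ (-(d j)) := by
      rw [← zpow_natCast, ← zpow_mul, ← zpow_add₀ hD]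
      congr 1
      ring
    rw [h5]
    ring
  -- a vector in the left kernel of the coefficient matrix
  let L : (Fin μ → ℂ) →ₗ[ℂ] (J → ℂ) :=
    { toFun := fun w j => ∑ i : Fin μ, w i * a (i : ℕ) j z₀
      map_add' := fun w w' => by
        funext j
        simp only [Pi.add_apply, add_mul, Finset.sum_add_distrib]
      map_smul' := fun c w => by
        funext j
        simp only [Pi.smul_apply, smul_eq_mul, RingHom.id_apply, Finset.mul_sum, mul_assoc] }
  have hker : LinearMap.ker L ≠ ⊥ := by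
    apply LinearMap.ker_ne_bot_of_finrank_lt
    simpa using hlt
  obtain ⟨w, hw, hw0⟩ := (Submodule.ne_bot_iff _).mp hker
  have hLw : ∀ j, ∑ i : Fin μ, w i * a (i : ℕ) j z₀ = 0 := fun j =>
    congrFun (LinearMap.mem_ker.mp hw) j
  -- the polynomial with coefficients `w` vanishes at the `μ` distinct conjugates
  set p : ℂ[X] := ∑ i : Fin μ, C (w i) * X ^ (i : ℕ) with hp
  have hdeg : p.natDegree < Fintype.card (Q N) := by
    rw [← hμ]
    by_cases hp0 : p = 0
    · rw [hp0, natDegree_zero]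
      rcases Nat.eq_zero_or_pos μ with h0 | h0
      · exfalso
        apply hw0
        funext i
        exact (Fin.elim0 (h0 ▸ i))
      · exact h0
    · exact (natDegree_lt_iff_degree_lt hp0).mpr (degree_sum_fin_lt w)
  have heval : ∀ x : Q N, p.eval (conj u x z₀) = 0 := by
    intro x
    rw [hp, eval_finsetSum]
    simp only [eval_mul, eval_C, eval_pow, eval_X]
    simp_rw [hconj, Finset.mul_sum]
    rw [Finset.sum_comm]
    refine Finset.sum_eq_zero fun j _ => ?_
    have := hLw j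
    calc ∑ i : Fin μ, w i * (a (i : ℕ) j z₀ * conj (F j) x z₀)
        = (∑ i : Fin μ, w i * a (i : ℕ) j z₀) * conj (F j) x z₀ := by
          rw [Finset.sum_mul]
          exact Finset.sum_congr rfl fun i _ => by ring
      _ = 0 := by rw [this, zero_mul]
  have hp0 : p = 0 := eq_zero_of_natDegree_lt_card_of_eval_eq_zero p hinj heval hdeg
  apply hw0
  funext i₀
  have hc := congrArg (fun q : ℂ[X] => q.coeff (i₀ : ℕ)) hp0
  simp only [hp, finsetSum_coeff, coeff_C_mul_X_pow, coeff_zero] at hc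
  simpa [Fin.val_inj] using hc

end Fermat.Agent.S20.H01
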