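import Mathlib
import Fermat.Agent.S20.Defs_helper78
import Fermat.Agent.S20.FreeDefs_helper1
import Fermat.Agent.S20.FreeLower_helper1
import Fermat.Agent.S20.FreeBasis_helper37
import Fermat.Agent.S20.FreeCount_helper54
import Fermat.Agent.S20.LevelOne_helper66

/-!
# Block F of S20, assembly: a free basis indexed by the cosets exists
-/

set_option autoImplicit false

namespace Fermat.Agent.S20

open UpperHalfPlane ModularForm CongruenceSubgroup
open scoped MatrixGroups ModularForm Manifold

/-- **Block F**: `⨁ M_k(Γ₀(N))` has a homogeneous basis over the level one forms which is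
indexed by the cosets. -/
theorem freeBasisExists (N : ℕ) [NeZero N] : FreeBasisExists N := by
  classical
  have hL : H37.LevelOneDecomp := H66.levelOne_decomp
  obtain ⟨n, d, F, hind, hspan⟩ := H37.exists_qIndep_qSpan N (Fintype.card (Q N))
    (fun n d F h => by
      have h1 := H54.card_le_of_aIndep N d F (H37.aIndep_of_qIndep N d F hL h)
      simpa using h1)
  have hA : H01.AIndep N d F := H37.aIndep_of_qIndep N d F hL hind
  have hS : H01.ASpan N d F := H37.aSpan_of_qSpan N d F hL hspan
  have h1 : n ≤ Fintype.card (Q N) := by simpa using H54.card_le_of_aIndep N d F hA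
  have h2 : Fintype.card (Q N) ≤ n := by simpa using H01.card_le_of_aSpan N d F hS
  have hn : Fintype.card (Q N) = Fintype.card (Fin n) := by
    rw [Fintype.card_fin]; omega
  obtain ⟨e⟩ := Fintype.card_eq.mp hn
  refine ⟨fun q => d (e q), fun q => F (e q), ⟨?_, ?_⟩⟩
  · intro k f
    obtain ⟨a, ha⟩ := hS k f
    refine ⟨fun q => a (e q), fun z => ?_⟩
    rw [ha z]
    exact (Equiv.sum_comp e (fun j => a j z * F j z)).symm
  · intro k a ha q
    have hk : ∀ j : Fin n, k - d (e (e.symm j)) = k - d j := fun j => by
      rw [Equiv.apply_symm_apply]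
    have key : ∀ (j : Fin n) (z : ℍ),
        (ModularForm.mcast (hk j) (a (e.symm j))) z = a (e.symm j) z := fun j z => rfl
    have h3 := hA k (fun j => ModularForm.mcast (hk j) (a (e.symm j))) (fun z => by
      rw [← ha z, ← Equiv.sum_comp e]
      refine Finset.sum_congr rfl fun q _ => ?_
      rw [key]
      have hq : e.symm (e q) = q := Equiv.symm_apply_apply e q
      have : ∀ (q' : Q N) (h : q' = q), a q' z = a q z := by
        intro q' h; subst h; rfl
      rw [this _ hq])
    ext z
    have h4 := h3 (e q)
    have h5 : (ModularForm.mcast (hk (e q)) (a (e.symm (e q)))) z = 0 := by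
      rw [h4]; rfl
    rw [key] at h5
    have hq : e.symm (e q) = q := Equiv.symm_apply_apply e q
    have : ∀ (q' : Q N) (h : q' = q), a q' z = a q z := by
      intro q' h; subst h; rfl
    rw [this _ hq] at h5
    rw [h5]; rfl

end Fermat.Agent.S20
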